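import Mathlib
import Fermat.Prelude.Def_ModularCurve_GenusNumerics

/-!
# `∑_{d ∣ N} φ(g) (N/d)/g = ψ(N)`, `g = gcd(d, N/d)`
-/

set_option autoImplicit false

open Finset

namespace FA.Dim

/-- The number of points of the projective line over `ℤ/N` with invariant `d`, `M = N/d`. -/
def projWt (d M : ℕ) : ℕ := Nat.totient (Nat.gcd d M) * (M / Nat.gcd d M)

/-- Size of the projective line over `ℤ/N`. -/
def projCard (N : ℕ) : ℕ := ∑ x ∈ N.divisorsAntidiagonal, projWt x.1 x.2

lemma projCard_eq (N : ℕ) : projCard N = ∑ d ∈ N.divisors, projWt d (N / d) :=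
  Nat.sum_divisorsAntidiagonal fun d e => projWt d e

lemma gcd_mul_mul_of_coprime {a b c d : ℕ} (had : a.Coprime d) (hbc : b.Coprime c)
    (hac : a.Coprime c) :
    Nat.gcd (a * c) (b * d) = Nat.gcd a b * Nat.gcd c d := by
  rw [Nat.gcd_comm, Nat.Coprime.gcd_mul _ hac, Nat.gcd_comm, Nat.gcd_comm (b * d) c,
    mul_comm b d, Nat.Coprime.gcd_mul_left_cancel_right b had.symm,
    mul_comm d b, Nat.Coprime.gcd_mul_left_cancel_right d hbc]

lemma projWt_mul {m n a c : ℕ} (hmn : m.Coprime n) (ha : a ∣ m) (hc : c ∣ n) :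
    projWt (a * c) (m * n / (a * c)) = projWt a (m / a) * projWt c (n / c) := by
  have h1 : a.Coprime c := (hmn.coprime_dvd_left ha).coprime_dvd_right hc
  have hb : m / a ∣ m := Nat.div_dvd_of_dvd ha
  have hd : n / c ∣ n := Nat.div_dvd_of_dvd hc
  rw [← Nat.div_mul_div_comm ha hc, projWt, projWt, projWt,
    gcd_mul_mul_of_coprime ((hmn.coprime_dvd_left ha).coprime_dvd_right hd)
      ((hmn.coprime_dvd_left hb).coprime_dvd_right hc) h1,
    Nat.totient_mul (((h1.coprime_dvd_left (Nat.gcd_dvd_left a (m / a))).coprime_dvd_right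
      (Nat.gcd_dvd_left c (n / c)))),
    ← Nat.div_mul_div_comm (Nat.gcd_dvd_right a (m / a)) (Nat.gcd_dvd_right c (n / c))]
  ring

lemma projCard_mul {m n : ℕ} (hmn : m.Coprime n) :
    projCard (m * n) = projCard m * projCard n := by
  rw [projCard_eq, projCard_eq, projCard_eq, Finset.sum_mul_sum, ← Finset.sum_product']
  refine Finset.sum_nbij' (fun d => (Nat.gcd d m, Nat.gcd d n)) (fun x => x.1 * x.2) ?_ ?_ ?_ ?_ ?_
  · intro d hd
    simp only [Nat.mem_divisors, mem_coe] at hd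
    simp [Nat.gcd_dvd_right, (mul_ne_zero_iff.mp hd.2).1, (mul_ne_zero_iff.mp hd.2).2]
  · rintro ⟨a, c⟩ h
    simp only [mem_coe, mem_product, Nat.mem_divisors] at h
    simp [Nat.mem_divisors, mul_dvd_mul h.1.1 h.2.1, h.1.2, h.2.2]
  · intro d hd
    simp only [Nat.mem_divisors, mem_coe] at hd
    show Nat.gcd d m * Nat.gcd d n = d
    rw [← Nat.Coprime.gcd_mul _ hmn, Nat.gcd_eq_left hd.1]
  · rintro ⟨a, c⟩ h
    simp only [mem_coe, mem_product, Nat.mem_divisors] at h
    have h1 : c.Coprime m := (hmn.coprime_dvd_right h.2.1).symm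
    have h2 : a.Coprime n := hmn.coprime_dvd_left h.1.1
    simp [Nat.Coprime.gcd_mul_right_cancel a h1, Nat.Coprime.gcd_mul_left_cancel c h2,
      Nat.gcd_eq_left h.1.1, Nat.gcd_eq_left h.2.1]
  · intro d hd
    simp only [Nat.mem_divisors] at hd
    have e : Nat.gcd d m * Nat.gcd d n = d := by
      rw [← Nat.Coprime.gcd_mul _ hmn, Nat.gcd_eq_left hd.1]
    show projWt d (m * n / d) = _
    conv_lhs => rw [← e]
    exact projWt_mul hmn (Nat.gcd_dvd_right _ _) (Nat.gcd_dvd_right _ _)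

lemma projWt_prime_pow {p : ℕ} (hp : p.Prime) {i j : ℕ} (hi : 0 < i) (hj : 0 < j) :
    projWt (p ^ i) (p ^ j) + p ^ (j - 1) = p ^ j := by
  have hg : Nat.gcd (p ^ i) (p ^ j) = p ^ min i j := by
    rcases le_total i j with h | h
    · rw [min_eq_left h, Nat.gcd_eq_left (pow_dvd_pow p h)]
    · rw [min_eq_right h, Nat.gcd_eq_right (pow_dvd_pow p h)]
  obtain ⟨m, hm⟩ : ∃ m, min i j = m + 1 := ⟨min i j - 1, by omega⟩
  obtain ⟨r, hr⟩ : ∃ r, j = m + 1 + r := ⟨j - (m + 1), by omega⟩
  rw [projWt, hg, hm, Nat.totient_prime_pow_succ hp, hr, Nat.pow_div (by omega) hp.pos,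
    show m + 1 + r - (m + 1) = r by omega, show m + 1 + r - 1 = m + r by omega]
  obtain ⟨q, hq⟩ : ∃ q, p = q + 1 := ⟨p - 1, by have := hp.pos; omega⟩
  subst hq
  rw [Nat.add_sub_cancel]
  ring

lemma projCard_prime_pow {p : ℕ} (hp : p.Prime) (a : ℕ) :
    projCard (p ^ (a + 1)) = p ^ (a + 1) + p ^ a := by
  rw [projCard_eq, Nat.sum_divisors_prime_pow hp, Finset.sum_range_succ, Finset.sum_range_succ']
  simp only [Nat.div_self (pow_pos hp.pos _), pow_zero, Nat.div_one]
  have h0 : projWt 1 (p ^ (a + 1)) = p ^ (a + 1) := by simp [projWt]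
  have hl : projWt (p ^ (a + 1)) 1 = 1 := by simp [projWt]
  rw [h0, hl]
  have key : ∀ b ≤ a, (∑ i ∈ range b, projWt (p ^ (i + 1)) (p ^ (a + 1) / p ^ (i + 1)))
      + p ^ (a - b) = p ^ a := by
    intro b
    induction b with
    | zero => simp
    | succ b ih =>
      intro hb
      rw [Finset.sum_range_succ, Nat.pow_div (by omega) hp.pos,
        show a + 1 - (b + 1) = a - b by omega, add_assoc,
        show a - (b + 1) = a - b - 1 by omega,
        projWt_prime_pow hp (Nat.succ_pos b) (by omega)]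
      exact ih (by omega)
  have := key a le_rfl
  rw [Nat.sub_self, pow_zero] at this
  omega

lemma dedekindPsi_mul {m n : ℕ} (hmn : m.Coprime n) :
    ModularCurve.dedekindPsi (m * n) =
      ModularCurve.dedekindPsi m * ModularCurve.dedekindPsi n := by
  classical
  unfold ModularCurve.dedekindPsi
  rw [Finset.sum_mul_sum, ← Finset.sum_product']
  refine Finset.sum_nbij' (fun d => (Nat.gcd d m, Nat.gcd d n)) (fun x => x.1 * x.2) ?_ ?_ ?_ ?_ ?_
  · intro d hd
    simp only [Nat.mem_divisors, mem_coe, mem_filter] at hd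
    simp [Nat.gcd_dvd_right, (mul_ne_zero_iff.mp hd.1.2).1, (mul_ne_zero_iff.mp hd.1.2).2,
      hd.2.squarefree_of_dvd (Nat.gcd_dvd_left _ _)]
  · rintro ⟨a, c⟩ h
    simp only [mem_coe, mem_product, Nat.mem_divisors, mem_filter] at h
    have : a.Coprime c := (hmn.coprime_dvd_left h.1.1.1).coprime_dvd_right h.2.1.1
    simp [Nat.mem_divisors, mul_dvd_mul h.1.1.1 h.2.1.1, h.1.1.2, h.2.1.2,
      Nat.squarefree_mul this, h.1.2, h.2.2]
  · intro d hd
    simp only [Nat.mem_divisors, mem_coe, mem_filter] at hd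
    show Nat.gcd d m * Nat.gcd d n = d
    rw [← Nat.Coprime.gcd_mul _ hmn, Nat.gcd_eq_left hd.1.1]
  · rintro ⟨a, c⟩ h
    simp only [mem_coe, mem_product, Nat.mem_divisors, mem_filter] at h
    have h1 : c.Coprime m := (hmn.coprime_dvd_right h.2.1.1).symm
    have h2 : a.Coprime n := hmn.coprime_dvd_left h.1.1.1
    simp [Nat.Coprime.gcd_mul_right_cancel a h1, Nat.Coprime.gcd_mul_left_cancel c h2,
      Nat.gcd_eq_left h.1.1.1, Nat.gcd_eq_left h.2.1.1]
  · intro d hd
    simp only [Nat.mem_divisors, mem_filter] at hd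
    have e : Nat.gcd d m * Nat.gcd d n = d := by
      rw [← Nat.Coprime.gcd_mul _ hmn, Nat.gcd_eq_left hd.1.1]
    show m * n / d = _
    conv_lhs => rw [← e]
    rw [Nat.div_mul_div_comm (Nat.gcd_dvd_right _ _) (Nat.gcd_dvd_right _ _)]

lemma dedekindPsi_prime_pow {p : ℕ} (hp : p.Prime) (a : ℕ) :
    ModularCurve.dedekindPsi (p ^ (a + 1)) = p ^ (a + 1) + p ^ a := by
  classical
  rw [ModularCurve.dedekindPsi, Finset.sum_filter, Nat.sum_divisors_prime_pow hp,
    Finset.sum_range_succ', Finset.sum_range_succ', Finset.sum_eq_zero]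
  · simp only [pow_zero, squarefree_one, if_true, Nat.div_one, zero_add, pow_one,
      hp.squarefree]
    rw [pow_succ, Nat.mul_div_cancel _ hp.pos]
    ring
  · intro i _
    rw [if_neg]
    rw [Nat.squarefree_pow_iff hp.ne_one (by omega)]
    simp

lemma projCard_eq_dedekindPsi {N : ℕ} (hN : N ≠ 0) : projCard N = ModularCurve.dedekindPsi N := by
  induction N using Nat.recOnPrimeCoprime with
  | zero => exact absurd rfl hN
  | prime_pow p n hp =>
    cases n with
    | zero => simp [projCard, projWt]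
    | succ a => rw [projCard_prime_pow hp, dedekindPsi_prime_pow hp]
  | coprime a b ha hb hab iha ihb =>
    rw [projCard_mul hab, dedekindPsi_mul hab, iha (by omega), ihb (by omega)]

end FA.Dim
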