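import Mathlib
import Fermat.Agent.Dim.PsiSum
import Fermat.Prelude.Def_ModularCurve_GenusNumerics

/-!
# The cosets `SL(2,ℤ) / Γ₀(N)` as the projective line over `ℤ/N`
-/

set_option autoImplicit false

open Matrix CongruenceSubgroup
open scoped MatrixGroups

namespace FA.Dim

abbrev Cos (N : ℕ) : Type := SL(2, ℤ) ⧸ Gamma0 N

variable {N : ℕ}

lemma mk_eq_mk_iff (g h : SL(2, ℤ)) :
    (QuotientGroup.mk g : Cos N) = QuotientGroup.mk h ↔
      ((g 0 0 : ℤ) : ZMod N) * (h 1 0 : ℤ) = ((g 1 0 : ℤ) : ZMod N) * (h 0 0 : ℤ) := by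
  rw [QuotientGroup.eq, Gamma0_mem, ← sub_eq_zero (a := ((g 0 0 : ℤ) : ZMod N) * _)]
  have : ((g⁻¹ * h : SL(2, ℤ)) 1 0 : ℤ) = g 0 0 * h 1 0 - g 1 0 * h 0 0 := by
    simp [Matrix.SpecialLinearGroup.coe_inv, Matrix.adjugate_fin_two, Matrix.mul_apply,
      Fin.sum_univ_two]
    ring
  rw [this]
  push_cast
  rfl

/-- A coprime pair as first column. -/
lemma exists_sl2_col {a c : ℤ} (h : IsCoprime a c) :
    ∃ g : SL(2, ℤ), g 0 0 = a ∧ g 1 0 = c := by
  obtain ⟨u, v, huv⟩ := h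
  exact ⟨⟨!![a, -v; c, u], by simp [Matrix.det_fin_two]; linarith⟩, by simp, by simp⟩

lemma sl2_det_zmod (g : SL(2, ℤ)) :
    ((g 0 0 : ℤ) : ZMod N) * (g 1 1 : ℤ) - ((g 0 1 : ℤ) : ZMod N) * (g 1 0 : ℤ) = 1 := by
  have := g.det_coe
  rw [Matrix.det_fin_two] at this
  exact_mod_cast congrArg (Int.cast : ℤ → ZMod N) this

/-- Equal cosets have proportional first columns. -/
lemma exists_scale {g g' : SL(2, ℤ)} (h : (QuotientGroup.mk g' : Cos N) = QuotientGroup.mk g) :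
    ∃ t : ZMod N, ((g 0 0 : ℤ) : ZMod N) = t * (g' 0 0 : ℤ) ∧
      ((g 1 0 : ℤ) : ZMod N) = t * (g' 1 0 : ℤ) := by
  rw [mk_eq_mk_iff] at h
  have hdet := sl2_det_zmod (N := N) g'
  refine ⟨((g 0 0 : ℤ) : ZMod N) * (g' 1 1 : ℤ) - ((g 1 0 : ℤ) : ZMod N) * (g' 0 1 : ℤ), ?_, ?_⟩
  · linear_combination ((g' 0 1 : ℤ) : ZMod N) * h - ((g 0 0 : ℤ) : ZMod N) * hdet
  · linear_combination ((g' 1 1 : ℤ) : ZMod N) * h - ((g 1 0 : ℤ) : ZMod N) * hdet

lemma mk_S_smul (g : SL(2, ℤ)) :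
    (ModularGroup.S * g) 0 0 = - g 1 0 ∧ (ModularGroup.S * g) 1 0 = g 0 0 := by
  simp [Matrix.SpecialLinearGroup.coe_mul, ModularGroup.coe_S, Matrix.mul_apply,
    Fin.sum_univ_two]

lemma mk_ST_smul (g : SL(2, ℤ)) :
    (ModularGroup.S * ModularGroup.T * g) 0 0 = - g 1 0 ∧
      (ModularGroup.S * ModularGroup.T * g) 1 0 = g 0 0 + g 1 0 := by
  simp [Matrix.SpecialLinearGroup.coe_mul, ModularGroup.coe_S, ModularGroup.coe_T,
    Matrix.mul_apply, Fin.sum_univ_two]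

lemma T_zpow_mul (g : SL(2, ℤ)) (n : ℤ) :
    (ModularGroup.T ^ n * g) 0 0 = g 0 0 + n * g 1 0 ∧
      (ModularGroup.T ^ n * g) 1 0 = g 1 0 := by
  simp [ModularGroup.coe_T_zpow, Matrix.mul_apply, Fin.sum_univ_two]

/-! ### Elliptic points -/

/-- The fixed points of `S` and of `S * T`: `a² + e a c + c² = 0` with `e = 0` resp. `1`. -/
lemma card_quadratic (N : ℕ) (e : ℤ) :
    Nat.card {x : Cos N // ∃ g : SL(2, ℤ), QuotientGroup.mk g = x ∧
        (((g 0 0 : ℤ) : ZMod N) ^ 2 + e * ((g 0 0 : ℤ) : ZMod N) * ((g 1 0 : ℤ) : ZMod N)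
          + ((g 1 0 : ℤ) : ZMod N) ^ 2 = 0)}
      = Nat.card {x : ZMod N // x ^ 2 + e * x + 1 = 0} := by
  symm
  let mkEl : ZMod N → SL(2, ℤ) := fun x =>
    ⟨!![(x.cast : ℤ), -1; 1, 0], by simp [Matrix.det_fin_two]⟩
  let φ : {x : ZMod N // x ^ 2 + e * x + 1 = 0} →
      {x : Cos N // ∃ g : SL(2, ℤ), QuotientGroup.mk g = x ∧
        (((g 0 0 : ℤ) : ZMod N) ^ 2 + e * ((g 0 0 : ℤ) : ZMod N) * ((g 1 0 : ℤ) : ZMod N)
          + ((g 1 0 : ℤ) : ZMod N) ^ 2 = 0)} :=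
    fun x => ⟨QuotientGroup.mk (mkEl x.1), mkEl x.1, rfl, by simpa [mkEl] using x.2⟩
  refine Nat.card_eq_of_bijective φ ⟨?_, ?_⟩
  · rintro ⟨x, hx⟩ ⟨y, hy⟩ h
    have := congrArg Subtype.val h
    simp only [φ] at this
    rw [mk_eq_mk_iff] at this
    simpa [mkEl] using this
  · rintro ⟨_, g, rfl, hg⟩
    have hdet := sl2_det_zmod (N := N) g
    set a := ((g 0 0 : ℤ) : ZMod N)
    set b := ((g 0 1 : ℤ) : ZMod N)
    set c := ((g 1 0 : ℤ) : ZMod N)
    set d := ((g 1 1 : ℤ) : ZMod N)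
    have hc : IsUnit c := by
      refine IsUnit.of_mul_eq_one (-c * d ^ 2 - e * a * d ^ 2 - 2 * b - b ^ 2 * c) ?_
      linear_combination (a * d + b * c + 1) * hdet - d ^ 2 * hg
    obtain ⟨u, hu⟩ := hc
    have hu' : c * ((u⁻¹ : (ZMod N)ˣ) : ZMod N) = 1 := by rw [← hu]; exact u.mul_inv
    refine ⟨⟨a * ((u⁻¹ : (ZMod N)ˣ) : ZMod N), ?_⟩, ?_⟩
    · linear_combination ((u⁻¹ : (ZMod N)ˣ) : ZMod N) ^ 2 * hg -
        ((e * a * ((u⁻¹ : (ZMod N)ˣ) : ZMod N)) + c * ((u⁻¹ : (ZMod N)ˣ) : ZMod N) + 1) * hu'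
    · apply Subtype.ext
      simp only [φ]
      rw [mk_eq_mk_iff]
      simp [mkEl]
      linear_combination a * hu'

lemma card_fixed_S (N : ℕ) :
    Nat.card {x : Cos N // ModularGroup.S • x = x} = ModularCurve.nuTwo N := by
  have h := card_quadratic N 0
  simp only [Int.cast_zero, zero_mul, add_zero] at h
  rw [ModularCurve.nuTwo, ← h]
  refine Nat.card_congr (Equiv.subtypeEquivRight fun x => ?_)
  induction x using QuotientGroup.induction_on with
  | H g =>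
    rw [MulAction.Quotient.smul_mk, smul_eq_mul, mk_eq_mk_iff, (mk_S_smul g).1, (mk_S_smul g).2]
    push_cast
    constructor
    · intro hg
      exact ⟨g, rfl, by linear_combination -hg⟩
    · rintro ⟨g', hg', h'⟩
      obtain ⟨t, ha, hc⟩ := exists_scale hg'
      rw [ha, hc]
      linear_combination (-t ^ 2) * h' 

lemma card_fixed_ST (N : ℕ) :
    Nat.card {x : Cos N // (ModularGroup.S * ModularGroup.T) • x = x}
      = ModularCurve.nuThree N := by
  have h := card_quadratic N 1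
  simp only [Int.cast_one, one_mul] at h
  rw [ModularCurve.nuThree, ← h]
  refine Nat.card_congr (Equiv.subtypeEquivRight fun x => ?_)
  induction x using QuotientGroup.induction_on with
  | H g =>
    rw [MulAction.Quotient.smul_mk, smul_eq_mul, mk_eq_mk_iff, (mk_ST_smul g).1, (mk_ST_smul g).2]
    push_cast
    constructor
    · intro hg
      exact ⟨g, rfl, by linear_combination -hg⟩
    · rintro ⟨g', hg', h'⟩
      obtain ⟨t, ha, hc⟩ := exists_scale hg'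
      rw [ha, hc]
      linear_combination (-t ^ 2) * h' 

/-! ### Classification of the cosets -/

/-- There is a lift of a residue mod `M` prime to `d`, if that residue is prime to `gcd(d, M)`. -/
lemma exists_coprime_lift {d M : ℕ} (hd : d ≠ 0) (b : ZMod M)
    (hb : IsUnit (ZMod.castHom (Nat.gcd_dvd_right d M) (ZMod (Nat.gcd d M)) b)) :
    ∃ a : ℤ, IsCoprime a (d : ℤ) ∧ (a : ZMod M) = b := by
  classical
  obtain ⟨b, rfl⟩ := ZMod.intCast_surjective b
  rw [map_intCast] at hb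
  have hcop : IsCoprime b (Nat.gcd d M : ℤ) := by
    rw [ZMod.coe_int_isUnit_iff_isCoprime] at hb
    exact hb.symm
  let t : ℕ := ∏ p ∈ d.primeFactors.filter (fun p : ℕ => ¬ (p : ℤ) ∣ b), p
  refine ⟨b + (t : ℤ) * M, ?_, by push_cast; simp⟩
  rw [Int.isCoprime_iff_gcd_eq_one]
  by_contra hne
  obtain ⟨p, hp, hpg⟩ := Nat.exists_prime_and_dvd hne
  have hpa : (p : ℤ) ∣ b + (t : ℤ) * M :=
    (Int.natCast_dvd_natCast.mpr hpg).trans (Int.gcd_dvd_left _ _)
  have hpd : p ∣ d :=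
    Int.natCast_dvd_natCast.mp ((Int.natCast_dvd_natCast.mpr hpg).trans (Int.gcd_dvd_right _ _))
  have hpP : Prime (p : ℤ) := Nat.prime_iff_prime_int.mp hp
  by_cases hpb : (p : ℤ) ∣ b
  · rcases hpP.dvd_mul.mp ((dvd_add_right hpb).mp hpa) with h | h
    · have h' : p ∣ t := Int.natCast_dvd_natCast.mp h
      obtain ⟨q, hq, hpq⟩ := (Nat.prime_iff.mp hp).exists_mem_finset_dvd h'
      simp only [Finset.mem_filter, Nat.mem_primeFactors] at hq
      rw [Nat.prime_dvd_prime_iff_eq hp hq.1.1] at hpq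
      exact hq.2 (hpq ▸ hpb)
    · have h' : p ∣ Nat.gcd d M := Nat.dvd_gcd hpd (Int.natCast_dvd_natCast.mp h)
      exact hpP.not_isUnit (hcop.isUnit_of_dvd' hpb (Int.natCast_dvd_natCast.mpr h'))
  · apply hpb
    have ht : p ∣ t := Finset.dvd_prod_of_mem _ (by simp [hp, hpd, hd, hpb])
    exact (dvd_add_left (Dvd.dvd.mul_right (Int.natCast_dvd_natCast.mpr ht) _)).mp hpa

lemma cofactor_ne_zero [NeZero N] {d : ℕ} (hd : d ∣ N) : NeZero (N / d) :=
  ⟨(Nat.div_pos (Nat.le_of_dvd (Nat.pos_of_ne_zero (NeZero.ne N)) hd)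
    (Nat.pos_of_dvd_of_pos hd (Nat.pos_of_ne_zero (NeZero.ne N)))).ne'⟩

/-- The index set of the classification. -/
abbrev CosIdx (N : ℕ) : Type :=
  (d : {d // d ∈ N.divisors}) ×
    {b : ZMod (N / d.1) //
      IsUnit (ZMod.castHom (Nat.gcd_dvd_right d.1 (N / d.1)) (ZMod (Nat.gcd d.1 (N / d.1))) b)}

lemma exists_idx_rep (x : CosIdx N) :
    ∃ g : SL(2, ℤ), g 1 0 = (x.1.1 : ℤ) ∧ ((g 0 0 : ℤ) : ZMod (N / x.1.1)) = x.2.1 := by
  obtain ⟨a, ha, hab⟩ := exists_coprime_lift (Nat.pos_of_mem_divisors x.1.2).ne' x.2.1 x.2.2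
  obtain ⟨g, h0, h1⟩ := exists_sl2_col ha
  exact ⟨g, h1, by rw [h0]; exact hab⟩

noncomputable def idxToCos (x : CosIdx N) : Cos N := QuotientGroup.mk (exists_idx_rep x).choose

lemma idxToCos_spec (x : CosIdx N) :
    ∃ g : SL(2, ℤ), QuotientGroup.mk g = idxToCos x ∧ g 1 0 = (x.1.1 : ℤ) ∧
      ((g 0 0 : ℤ) : ZMod (N / x.1.1)) = x.2.1 :=
  ⟨_, rfl, (exists_idx_rep x).choose_spec⟩

lemma mul_eq_mul_iff_mod {d : ℕ} (hd : d ∣ N) (hd0 : d ≠ 0) (a a' : ℤ) :
    (a : ZMod N) * ((d : ℤ) : ZMod N) = (a' : ZMod N) * ((d : ℤ) : ZMod N) ↔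
      (a : ZMod (N / d)) = a' := by
  rw [← Int.cast_mul, ← Int.cast_mul, ZMod.intCast_eq_intCast_iff_dvd_sub,
    ZMod.intCast_eq_intCast_iff_dvd_sub, ← sub_mul]
  conv_lhs => rw [← Nat.div_mul_cancel hd, Nat.cast_mul]
  exact mul_dvd_mul_iff_right (Int.natCast_ne_zero.mpr hd0)

lemma idxToCos_injective : Function.Injective (idxToCos (N := N)) := by
  rintro ⟨⟨d, hd⟩, b⟩ ⟨⟨d', hd'⟩, b'⟩ h
  obtain ⟨g, hg, hgc, hga⟩ := idxToCos_spec (⟨⟨d, hd⟩, b⟩ : CosIdx N)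
  obtain ⟨g', hg', hgc', hga'⟩ := idxToCos_spec (⟨⟨d', hd'⟩, b'⟩ : CosIdx N)
  dsimp only at hgc hga hgc' hga'
  rw [← hg, ← hg', mk_eq_mk_iff, hgc, hgc'] at h
  have hdN := Nat.dvd_of_mem_divisors hd
  have hdN' := Nat.dvd_of_mem_divisors hd'
  have key : ∀ (e e' : ℕ) (u : SL(2, ℤ)) (w : ℤ), e ∣ N → u 1 0 = (e : ℤ) →
      ((u 0 0 : ℤ) : ZMod N) * ((e' : ℤ) : ZMod N) = ((e : ℤ) : ZMod N) * (w : ZMod N) →
      e ∣ e' := by
    intro e e' u w he hu hh
    rw [← Int.cast_mul, ← Int.cast_mul, ZMod.intCast_eq_intCast_iff_dvd_sub] at hh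
    have h1 : (e : ℤ) ∣ (e : ℤ) * w - u 0 0 * e' := (Int.natCast_dvd_natCast.mpr he).trans hh
    have h2 : (e : ℤ) ∣ u 0 0 * e' := by simpa using (dvd_sub_right (dvd_mul_right (e : ℤ) w)).mp h1
    have hc : IsCoprime (e : ℤ) (u 0 0) := hu ▸ (u.isCoprime_col 0).symm
    exact Int.natCast_dvd_natCast.mp (hc.dvd_of_dvd_mul_left h2)
  have e : d = d' := Nat.dvd_antisymm (key d d' g _ hdN hgc h)
    (key d' d g' (g 0 0) hdN' hgc' (by linear_combination -h))
  subst e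
  rw [mul_comm ((d : ℤ) : ZMod N), mul_eq_mul_iff_mod hdN (Nat.pos_of_mem_divisors hd).ne',
    hga, hga'] at h
  rw [Subtype.ext h]

lemma idxToCos_surjective [NeZero N] : Function.Surjective (idxToCos (N := N)) := by
  intro x
  induction x using QuotientGroup.induction_on with
  | H g =>
    obtain ⟨d, hddef⟩ : ∃ d, d = Int.gcd (g 1 0) (N : ℤ) := ⟨_, rfl⟩
    have hdN : d ∣ N := hddef ▸ Int.natCast_dvd_natCast.mp (Int.gcd_dvd_right _ _)
    have hd : d ∈ N.divisors := Nat.mem_divisors.mpr ⟨hdN, NeZero.ne N⟩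
    have hd0 : d ≠ 0 := (Nat.pos_of_mem_divisors hd).ne'
    obtain ⟨u, hu⟩ : (d : ℤ) ∣ g 1 0 := hddef ▸ Int.gcd_dvd_left _ _
    have hMd : ((N / d : ℕ) : ℤ) * d = N := by exact_mod_cast Nat.div_mul_cancel hdN
    have huM : IsUnit (u : ZMod (N / d)) := by
      rw [ZMod.coe_int_isUnit_iff_isCoprime, Int.isCoprime_iff_gcd_eq_one]
      have h1 : Int.gcd ((d : ℤ) * u) ((d : ℤ) * ((N / d : ℕ) : ℤ))
          = d * Int.gcd u ((N / d : ℕ) : ℤ) := by
        rw [Int.gcd_mul_left, Int.natAbs_natCast]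
      rw [← hu, mul_comm (d : ℤ) ((N / d : ℕ) : ℤ), hMd, ← hddef] at h1
      have h2 := (Nat.mul_eq_left hd0).mp h1.symm
      rwa [Int.gcd_comm]
    obtain ⟨v, hv⟩ := huM
    let b : ZMod (N / d) := ((g 0 0 : ℤ) : ZMod (N / d)) * ((v⁻¹ : (ZMod (N / d))ˣ) : ZMod (N / d))
    have hb : IsUnit (ZMod.castHom (Nat.gcd_dvd_right d (N / d))
        (ZMod (Nat.gcd d (N / d))) b) := by
      rw [map_mul, map_intCast]
      refine IsUnit.mul ?_ ((v⁻¹).isUnit.map _)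
      rw [ZMod.coe_int_isUnit_iff_isCoprime]
      exact ((g.isCoprime_col 0).of_isCoprime_of_dvd_right
        ((Int.natCast_dvd_natCast.mpr (Nat.gcd_dvd_left _ _)).trans ⟨u, hu⟩)).symm
    refine ⟨⟨⟨d, hd⟩, b, hb⟩, ?_⟩
    obtain ⟨g', hg', hgc', hga'⟩ := idxToCos_spec (⟨⟨d, hd⟩, b, hb⟩ : CosIdx N)
    dsimp only at hgc' hga'
    rw [← hg', mk_eq_mk_iff, hgc', hu, mul_comm (((d : ℤ) : ℤ) : ZMod N) _]
    have key := (mul_eq_mul_iff_mod hdN hd0 (g' 0 0 * u) (g 0 0)).mpr (by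
      push_cast
      rw [hga', ← hv]
      simp [b, mul_assoc])
    push_cast at key ⊢
    linear_combination key

noncomputable def cosIdxEquiv [NeZero N] : CosIdx N ≃ Cos N :=
  Equiv.ofBijective _ ⟨idxToCos_injective, idxToCos_surjective⟩

lemma card_units_fiber {M g : ℕ} [NeZero M] (h : g ∣ M) :
    Nat.card {b : ZMod M // IsUnit (ZMod.castHom h (ZMod g) b)} = g.totient * (M / g) := by
  classical
  haveI : NeZero g := ⟨fun h0 => NeZero.ne M (by simpa [h0] using h)⟩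
  let f := ZMod.castHom h (ZMod g)
  have hs : Function.Surjective f := ZMod.castHom_surjective h
  let s := Function.surjInv hs
  have hfs : ∀ y, f (s y) = y := Function.surjInv_eq hs
  let K := {b : ZMod M // f b = 0}
  let e : {b : ZMod M // IsUnit (f b)} ≃ {y : ZMod g // IsUnit y} × K :=
    { toFun := fun b => (⟨f b.1, b.2⟩, ⟨b.1 - s (f b.1), by simp [hfs]⟩)
      invFun := fun y => ⟨s y.1.1 + y.2.1, by simp [hfs, y.2.2, y.1.2]⟩
      left_inv := fun b => by simp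
      right_inv := fun y => by
        apply Prod.ext <;> apply Subtype.ext <;> simp [hfs, y.2.2] }
  let e' : ZMod M ≃ ZMod g × K :=
    { toFun := fun b => (f b, ⟨b - s (f b), by simp [hfs]⟩)
      invFun := fun y => s y.1 + y.2.1
      left_inv := fun b => by simp
      right_inv := fun y => by
        apply Prod.ext
        · simp [hfs, y.2.2]
        · apply Subtype.ext; simp [hfs, y.2.2] }
  have hM := Nat.card_congr e'
  rw [Nat.card_prod, Nat.card_zmod, Nat.card_zmod] at hM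
  have hK : Nat.card K = M / g :=
    (Nat.div_eq_of_eq_mul_right (Nat.pos_of_ne_zero (NeZero.ne g)) hM).symm
  have hU : Nat.card {y : ZMod g // IsUnit y} = g.totient := by
    rw [← Nat.card_congr (α := (ZMod g)ˣ)
      (Equiv.ofBijective (fun u => (⟨u.1, u.isUnit⟩ : {y : ZMod g // IsUnit y}))
        ⟨fun u v huv => Units.ext (congrArg Subtype.val huv),
          fun y => ⟨y.2.unit, Subtype.ext y.2.unit_spec⟩⟩),
      Nat.card_eq_fintype_card, ZMod.card_units_eq_totient]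
  show Nat.card {b : ZMod M // IsUnit (f b)} = _
  rw [Nat.card_congr e, Nat.card_prod, hU, hK]

instance cosFinite (N : ℕ) [NeZero N] : Finite (Cos N) :=
  (Gamma0 N).finite_quotient_of_finiteIndex

/-- The index of `Γ₀(N)`. -/
theorem card_cos (N : ℕ) [NeZero N] : Nat.card (Cos N) = ModularCurve.dedekindPsi N := by
  haveI : ∀ d : {d // d ∈ N.divisors}, NeZero (N / d.1) :=
    fun d => cofactor_ne_zero (Nat.dvd_of_mem_divisors d.2)
  rw [← Nat.card_congr cosIdxEquiv, Nat.card_sigma, ← projCard_eq_dedekindPsi (NeZero.ne N),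
    projCard_eq, ← Finset.sum_coe_sort N.divisors]
  exact Finset.sum_congr rfl fun d _ => card_units_fiber _

/-! ### Cusps -/

/-- The orbits of `T` on the cosets: the cusps. -/
abbrev CuspSet (N : ℕ) : Type :=
  MulAction.orbitRel.Quotient (Subgroup.zpowers ModularGroup.T) (Cos N)

/-- The invariant of a `T`-orbit. -/
abbrev CuspIdx (N : ℕ) : Type :=
  (d : {d // d ∈ N.divisors}) × (ZMod (Nat.gcd d.1 (N / d.1)))ˣ

noncomputable def cosIdxToCuspIdx (x : CosIdx N) : CuspIdx N := ⟨x.1, x.2.2.unit⟩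

lemma T_zpow_idx [NeZero N] (x : CosIdx N) (n : ℤ) :
    ∃ h, cosIdxEquiv ⟨x.1, x.2.1 + ((n * x.1.1 : ℤ) : ZMod (N / x.1.1)), h⟩
        = ModularGroup.T ^ n • cosIdxEquiv x := by
  have h0 : ZMod.castHom (Nat.gcd_dvd_right x.1.1 (N / x.1.1))
      (ZMod (Nat.gcd x.1.1 (N / x.1.1))) ((n * x.1.1 : ℤ) : ZMod (N / x.1.1)) = 0 := by
    rw [map_intCast, ZMod.intCast_zmod_eq_zero_iff_dvd]
    exact Dvd.dvd.mul_left (Int.natCast_dvd_natCast.mpr (Nat.gcd_dvd_left _ _)) _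
  refine ⟨by rw [map_add, h0, add_zero]; exact x.2.2, ?_⟩
  obtain ⟨g, hg, hgc, hga⟩ := idxToCos_spec x
  show idxToCos _ = ModularGroup.T ^ n • idxToCos x
  obtain ⟨g', hg', hgc', hga'⟩ := idxToCos_spec
    (⟨x.1, x.2.1 + ((n * x.1.1 : ℤ) : ZMod (N / x.1.1)), by
      rw [map_add, h0, add_zero]; exact x.2.2⟩ : CosIdx N)
  dsimp only at hgc' hga'
  rw [← hg', ← hg, MulAction.Quotient.smul_mk, smul_eq_mul, mk_eq_mk_iff,
    (T_zpow_mul g n).1, (T_zpow_mul g n).2, hgc, hgc', mul_comm (((x.1.1 : ℤ)) : ZMod N) _,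
    mul_eq_mul_iff_mod (Nat.dvd_of_mem_divisors x.1.2) (Nat.pos_of_mem_divisors x.1.2).ne', hga']
  push_cast
  rw [hga]

lemma cosIdxToCuspIdx_add (x : CosIdx N) (m : ℤ) (h) :
    cosIdxToCuspIdx ⟨x.1, x.2.1 + ((m * x.1.1 : ℤ) : ZMod (N / x.1.1)), h⟩
      = cosIdxToCuspIdx x := by
  obtain ⟨⟨d, hd⟩, b, hb⟩ := x
  have h0 : ((m * d : ℤ) : ZMod (Nat.gcd d (N / d))) = 0 := by
    rw [ZMod.intCast_zmod_eq_zero_iff_dvd]
    exact Dvd.dvd.mul_left (Int.natCast_dvd_natCast.mpr (Nat.gcd_dvd_left d (N / d))) m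
  unfold cosIdxToCuspIdx
  refine Sigma.ext rfl (heq_of_eq (Units.ext ?_))
  simp only [IsUnit.unit_spec]
  simp only [map_add, map_intCast, h0, add_zero]

/-- The cusps of `Γ₀(N)`. -/
theorem card_cuspSet (N : ℕ) [NeZero N] : Nat.card (CuspSet N) = ModularCurve.cuspCount N := by
  have step : ∀ x y : Cos N, x ∈ MulAction.orbit (Subgroup.zpowers ModularGroup.T) y →
      cosIdxToCuspIdx (cosIdxEquiv.symm x) = cosIdxToCuspIdx (cosIdxEquiv.symm y) := by
    rintro x y ⟨⟨t, ht⟩, rfl⟩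
    obtain ⟨n, rfl⟩ := Subgroup.mem_zpowers_iff.mp ht
    obtain ⟨hu, he⟩ := T_zpow_idx (cosIdxEquiv.symm y) n
    rw [Equiv.apply_symm_apply] at he
    show cosIdxToCuspIdx (cosIdxEquiv.symm (ModularGroup.T ^ n • y)) = _
    rw [← he, Equiv.symm_apply_apply]
    exact cosIdxToCuspIdx_add _ n hu
  let F : CuspSet N → CuspIdx N :=
    Quotient.lift (fun x => cosIdxToCuspIdx (cosIdxEquiv.symm x)) step
  have hF : Function.Bijective F := by
    constructor
    · intro q q' hq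
      induction q using Quotient.inductionOn' with
      | h x =>
        induction q' using Quotient.inductionOn' with
        | h y =>
          change cosIdxToCuspIdx (cosIdxEquiv.symm x) = cosIdxToCuspIdx (cosIdxEquiv.symm y) at hq
          apply Quotient.sound'
          rw [MulAction.orbitRel_apply]
          have hxe : cosIdxEquiv (cosIdxEquiv.symm x) = x := Equiv.apply_symm_apply _ _
          have hye : cosIdxEquiv (cosIdxEquiv.symm y) = y := Equiv.apply_symm_apply _ _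
          generalize cosIdxEquiv.symm x = a at hq hxe
          generalize cosIdxEquiv.symm y = b at hq hye
          obtain ⟨a1, a2⟩ := a
          obtain ⟨b1, b2⟩ := b
          obtain ⟨h1, h2⟩ := Sigma.mk.inj_iff.mp hq
          subst h1
          have h2' := congrArg Units.val (eq_of_heq h2)
          rw [IsUnit.unit_spec, IsUnit.unit_spec] at h2'
          obtain ⟨α, hα⟩ := ZMod.intCast_surjective a2.1
          obtain ⟨β, hβ⟩ := ZMod.intCast_surjective b2.1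
          simp only [← hα, ← hβ, map_intCast] at h2'
          obtain ⟨k, hk⟩ := (ZMod.intCast_eq_intCast_iff_dvd_sub α β _).mp h2'
          have hbez := Nat.gcd_eq_gcd_ab a1.1 (N / a1.1)
          obtain ⟨hu, he⟩ := T_zpow_idx (⟨a1, b2⟩ : CosIdx N)
            (-(k * Nat.gcdA a1.1 (N / a1.1)))
          rw [hye] at he
          refine ⟨⟨ModularGroup.T ^ (-(k * Nat.gcdA a1.1 (N / a1.1))),
            Subgroup.zpow_mem_zpowers _ _⟩, ?_⟩
          change ModularGroup.T ^ (-(k * Nat.gcdA a1.1 (N / a1.1))) • y = x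
          rw [← he, ← hxe]
          congr 2
          apply Subtype.ext
          show b2.1 + _ = a2.1
          rw [← hα, ← hβ, ← Int.cast_add, ZMod.intCast_eq_intCast_iff_dvd_sub]
          refine ⟨-(k * Nat.gcdB a1.1 (N / a1.1)), ?_⟩
          linear_combination -hk - k * hbez
    · rintro ⟨d, u⟩
      haveI : NeZero (N / d.1) := cofactor_ne_zero (Nat.dvd_of_mem_divisors d.2)
      obtain ⟨b, hb⟩ := ZMod.castHom_surjective (Nat.gcd_dvd_right d.1 (N / d.1)) u.1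
      refine ⟨Quotient.mk'' (cosIdxEquiv ⟨d, b, hb ▸ u.isUnit⟩), ?_⟩
      show cosIdxToCuspIdx (cosIdxEquiv.symm _) = _
      rw [Equiv.symm_apply_apply]
      exact Sigma.ext rfl (heq_of_eq (Units.ext hb))
  have hg : ∀ d : {d // d ∈ N.divisors}, NeZero (Nat.gcd d.1 (N / d.1)) := fun d =>
    ⟨(Nat.gcd_pos_of_pos_left _ (Nat.pos_of_mem_divisors d.2)).ne'⟩
  rw [Nat.card_eq_of_bijective F hF, Nat.card_sigma, ModularCurve.cuspCount,
    ← Finset.sum_coe_sort N.divisors]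
  refine Finset.sum_congr rfl fun d _ => ?_
  haveI := hg d
  rw [Nat.card_eq_fintype_card, ZMod.card_units_eq_totient]

end FA.Dim
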