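import Fermat.Agent.Dim.Gamma0
import Fermat.Prelude.Def_ModularCurve_PeriodMap

/-!
# `dim (parabolic homomorphisms Γ₀(N) → ℂ) ≤ 2 g`
-/

set_option autoImplicit false

open CongruenceSubgroup ModularCurve.Period
open scoped MatrixGroups

namespace FA.Dim

variable {X : Type} [Fintype X]

/-- Pull back of functions along a self map, linearly. -/
def pullLin (σ : X → X) : (X → ℂ) →ₗ[ℂ] (X → ℂ) := LinearMap.funLeft ℂ ℂ σ

omit [Fintype X] in
@[simp] lemma pullLin_apply (σ : X → X) (f : X → ℂ) (x : X) : pullLin σ f x = f (σ x) := rfl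

lemma trace_pullLin [DecidableEq X] (σ : X → X) :
    LinearMap.trace ℂ (X → ℂ) (pullLin σ) = (Nat.card {x : X // σ x = x} : ℂ) := by
  rw [LinearMap.trace_eq_matrix_trace ℂ (Pi.basisFun ℂ X), Matrix.trace]
  simp only [Matrix.diag, LinearMap.toMatrix_apply, Pi.basisFun_repr, Pi.basisFun_apply,
    pullLin_apply, Pi.single_apply]
  rw [Finset.sum_boole, Nat.card_eq_fintype_card, Fintype.card_subtype]

/-- The kernel of `1 + σ` for an involution. -/
def kerInv (σ : X → X) : Submodule ℂ (X → ℂ) := LinearMap.ker (LinearMap.id + pullLin σ)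

/-- The kernel of `1 + σ + σ²` for a map of order `3`. -/
def kerThree (σ : X → X) : Submodule ℂ (X → ℂ) :=
  LinearMap.ker (LinearMap.id + pullLin σ + pullLin (σ ∘ σ))

lemma two_finrank_kerInv [DecidableEq X] {σ : X → X} (h : ∀ x, σ (σ x) = x) :
    2 * (Module.finrank ℂ (kerInv σ) : ℤ) = Fintype.card X - Nat.card {x : X // σ x = x} := by
  set P : (X → ℂ) →ₗ[ℂ] (X → ℂ) := (1 / 2 : ℂ) • (LinearMap.id - pullLin σ) with hP
  have hproj : LinearMap.IsProj (kerInv σ) P := by
    refine ⟨fun f => ?_, fun f hf => ?_⟩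
    · rw [kerInv, LinearMap.mem_ker]
      ext x
      simp [hP, h]
    · rw [kerInv, LinearMap.mem_ker] at hf
      ext x
      have := congrFun hf x
      simp at this
      simp [hP]
      linear_combination (-(1 : ℂ) / 2) * this
  have ht := hproj.trace
  rw [hP, map_smul, map_sub, LinearMap.trace_id, trace_pullLin, smul_eq_mul,
    Module.finrank_fintype_fun_eq_card] at ht
  have : ((2 * (Module.finrank ℂ (kerInv σ) : ℤ) : ℤ) : ℂ)
      = (((Fintype.card X : ℤ) - Nat.card {x : X // σ x = x} : ℤ) : ℂ) := by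
    push_cast
    linear_combination (-2 : ℂ) * ht
  exact_mod_cast this

lemma three_finrank_kerThree [DecidableEq X] {σ : X → X} (h : ∀ x, σ (σ (σ x)) = x) :
    3 * (Module.finrank ℂ (kerThree σ) : ℤ)
      = 2 * Fintype.card X - 2 * Nat.card {x : X // σ x = x} := by
  set P : (X → ℂ) →ₗ[ℂ] (X → ℂ) :=
    LinearMap.id - (1 / 3 : ℂ) • (LinearMap.id + pullLin σ + pullLin (σ ∘ σ)) with hP
  have hproj : LinearMap.IsProj (kerThree σ) P := by
    refine ⟨fun f => ?_, fun f hf => ?_⟩
    · rw [kerThree, LinearMap.mem_ker]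
      ext x
      simp [hP, h]
      ring
    · rw [kerThree, LinearMap.mem_ker] at hf
      rw [hP, LinearMap.sub_apply, LinearMap.smul_apply, hf, smul_zero, sub_zero, LinearMap.id_apply]
  have hfix : Nat.card {x : X // (σ ∘ σ) x = x} = Nat.card {x : X // σ x = x} := by
    refine Nat.card_congr (Equiv.subtypeEquivRight fun x => ⟨fun hx => ?_, fun hx => ?_⟩)
    · have := congrArg σ hx
      simp only [Function.comp_apply, h] at this
      exact this.symm
    · simp [hx]
  have ht := hproj.trace
  rw [hP, map_sub, map_smul, map_add, map_add, LinearMap.trace_id, trace_pullLin, trace_pullLin,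
    hfix, smul_eq_mul, Module.finrank_fintype_fun_eq_card] at ht
  have : ((3 * (Module.finrank ℂ (kerThree σ) : ℤ) : ℤ) : ℂ)
      = ((2 * (Fintype.card X : ℤ) - 2 * Nat.card {x : X // σ x = x} : ℤ) : ℂ) := by
    push_cast
    linear_combination (-3 : ℂ) * ht
  exact_mod_cast this

/-! ### Parabolic homomorphisms as cocycles -/

variable {N : ℕ}

/-- The element of `Γ₀(N)` attached to `g` and a coset. -/
noncomputable def schreier (g : SL(2, ℤ)) (x : Cos N) : Gamma0 N :=
  ⟨(g • x).out⁻¹ * (g * x.out), by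
    rw [← QuotientGroup.eq, QuotientGroup.out_eq']
    conv_lhs => rw [← QuotientGroup.out_eq' x]
    rw [MulAction.Quotient.smul_mk, smul_eq_mul]⟩

/-- The cocycle of a homomorphism. -/
noncomputable def cocy (φ : Additive (Gamma0 N) →+ ℂ) (g : SL(2, ℤ)) (x : Cos N) : ℂ :=
  φ (Additive.ofMul (schreier g x))

lemma cocy_mul (φ : Additive (Gamma0 N) →+ ℂ) (g h : SL(2, ℤ)) (x : Cos N) :
    cocy φ (g * h) x = cocy φ g (h • x) + cocy φ h x := by
  have : schreier (g * h) x = schreier g (h • x) * schreier h x := by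
    apply Subtype.ext
    simp only [schreier, MulMemClass.coe_mul, mul_smul]
    group
  rw [cocy, this, ofMul_mul, map_add]
  rfl

lemma cocy_one (φ : Additive (Gamma0 N) →+ ℂ) (x : Cos N) : cocy φ 1 x = 0 := by
  have := cocy_mul φ 1 1 x
  rw [one_mul, one_smul] at this
  linear_combination -this

lemma cocy_neg_one (φ : Additive (Gamma0 N) →+ ℂ) (x : Cos N) :
    cocy φ (-1 : SL(2, ℤ)) x = 0 := by
  have h := cocy_mul φ (-1 : SL(2, ℤ)) (-1) x
  rw [show (-1 : SL(2, ℤ)) * (-1) = 1 by simp, cos_neg_one_smul, cocy_one] at h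
  linear_combination (-(1 : ℂ) / 2) * h

lemma cocy_S (φ : Additive (Gamma0 N) →+ ℂ) (x : Cos N) :
    cocy φ ModularGroup.S (ModularGroup.S • x) + cocy φ ModularGroup.S x = 0 := by
  rw [← cocy_mul, show ModularGroup.S * ModularGroup.S = (-1 : SL(2, ℤ)) by
    ext i j; fin_cases i <;> fin_cases j <;> simp [ModularGroup.coe_S, Matrix.mul_apply],
    cocy_neg_one]

lemma U_cube : (ModularGroup.S * ModularGroup.T) * (ModularGroup.S * ModularGroup.T) *
    (ModularGroup.S * ModularGroup.T) = (-1 : SL(2, ℤ)) := by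
  ext i j
  fin_cases i <;> fin_cases j <;>
    simp [ModularGroup.coe_S, ModularGroup.coe_T, Matrix.mul_apply, Fin.sum_univ_two]

lemma cocy_U (φ : Additive (Gamma0 N) →+ ℂ) (x : Cos N) :
    cocy φ (ModularGroup.S * ModularGroup.T) x +
      cocy φ (ModularGroup.S * ModularGroup.T) ((ModularGroup.S * ModularGroup.T) • x) +
      cocy φ (ModularGroup.S * ModularGroup.T)
        ((ModularGroup.S * ModularGroup.T) • (ModularGroup.S * ModularGroup.T) • x) = 0 := by
  have h := cocy_neg_one φ x
  rw [← U_cube, cocy_mul, cocy_mul] at h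
  linear_combination h

lemma cocy_T (φ : Additive (Gamma0 N) →+ ℂ) (x : Cos N) :
    cocy φ ModularGroup.T x
      = cocy φ ModularGroup.S ((ModularGroup.S * ModularGroup.T) • x)
        + cocy φ (ModularGroup.S * ModularGroup.T) x := by
  have h := cocy_mul φ (-1 : SL(2, ℤ)) ModularGroup.T x
  rw [show (-1 : SL(2, ℤ)) * ModularGroup.T
    = ModularGroup.S * (ModularGroup.S * ModularGroup.T) by
      ext i j; fin_cases i <;> fin_cases j <;>
        simp [ModularGroup.coe_S, ModularGroup.coe_T, Matrix.mul_apply, Fin.sum_univ_two],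
    cocy_mul, cocy_neg_one, zero_add] at h
  exact h.symm

lemma cocy_T_pow (φ : Additive (Gamma0 N) →+ ℂ) (n : ℕ) (x : Cos N) :
    cocy φ (ModularGroup.T ^ n) x
      = ∑ j ∈ Finset.range n, cocy φ ModularGroup.T (ModularGroup.T ^ j • x) := by
  induction n with
  | zero => simp [cocy_one]
  | succ n ih => rw [pow_succ', cocy_mul, ih, Finset.sum_range_succ, add_comm]

variable [NeZero N]

/-- The sum over a `T`-orbit. -/
noncomputable def orbSum (o : TOrb (Cos N)) : (Cos N → ℂ) →ₗ[ℂ] ℂ where
  toFun f := ∑ j ∈ Finset.range (wid o), f (ModularGroup.T ^ j • o.out)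
  map_add' f g := by simp [Finset.sum_add_distrib]
  map_smul' c f := by simp [Finset.mul_sum]

lemma wid_smul (o : TOrb (Cos N)) : ModularGroup.T ^ wid o • o.out = o.out :=
  MulAction.pow_smul_eq_iff_minimalPeriod_dvd.mpr dvd_rfl

lemma orbSum_parabolic {φ : Additive (Gamma0 N) →+ ℂ}
    (hφ : φ ∈ parabolicHoms ℂ (Gamma0 N) ℂ) (o : TOrb (Cos N)) :
    orbSum o (cocy φ ModularGroup.T) = 0 := by
  show ∑ j ∈ Finset.range (wid o), cocy φ ModularGroup.T (ModularGroup.T ^ j • o.out) = 0
  rw [← cocy_T_pow]
  refine (mem_parabolicHoms_iff.mp hφ) (schreier _ _) ?_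
  have hc : ((schreier (ModularGroup.T ^ wid o) o.out : Gamma0 N) : SL(2, ℤ))
      = o.out.out⁻¹ * (ModularGroup.T ^ wid o * o.out.out) := by
    show (ModularGroup.T ^ wid o • o.out).out⁻¹ * _ = _
    rw [wid_smul]
  rw [hc, Matrix.SpecialLinearGroup.coe_mul, Matrix.trace_mul_comm,
    ← Matrix.SpecialLinearGroup.coe_mul, mul_assoc, mul_inv_cancel, mul_one,
    ← zpow_natCast, ModularGroup.coe_T_zpow, Matrix.trace_fin_two_of]
  norm_num

/-- The orbit sums of the value at `T` of the cocycle with values `(a, b)` at `(S, S T)`. -/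
noncomputable def bdryMap :
    (kerInv (fun x : Cos N => ModularGroup.S • x)) ×
      (kerThree (fun x : Cos N => (ModularGroup.S * ModularGroup.T) • x)) →ₗ[ℂ]
      (TOrb (Cos N) → ℂ) :=
  LinearMap.pi fun o => orbSum o ∘ₗ
    (pullLin (fun x : Cos N => (ModularGroup.S * ModularGroup.T) • x) ∘ₗ
      (Submodule.subtype _) ∘ₗ LinearMap.fst ℂ _ _ + (Submodule.subtype _) ∘ₗ LinearMap.snd ℂ _ _)

lemma T_pow_smul_injOn (o : TOrb (Cos N)) :
    Set.InjOn (fun j : ℕ => ModularGroup.T ^ j • o.out) (Finset.range (wid o)) := by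
  intro i hi j hj h
  simp only [Finset.coe_range, Set.mem_Iio] at hi hj
  exact Function.iterate_injOn_Iio_minimalPeriod (f := (ModularGroup.T • ·)) hi hj
    (by simpa [smul_iterate] using h)

lemma exists_wid_rep (x : Cos N) :
    ∃ j < wid (Quotient.mk'' x : TOrb (Cos N)),
      ModularGroup.T ^ j • (Quotient.mk'' x : TOrb (Cos N)).out = x := by
  set o : TOrb (Cos N) := Quotient.mk'' x with ho
  have hmem : x ∈ MulAction.orbit (Subgroup.zpowers ModularGroup.T) o.out := by
    have := MulAction.orbitRel_apply.mp (Quotient.exact' (Quotient.out_eq' o))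
    exact MulAction.mem_orbit_symm.mp this
  obtain ⟨⟨t, ht⟩, hx⟩ := hmem
  obtain ⟨n, rfl⟩ := Subgroup.mem_zpowers_iff.mp ht
  haveI := Fintype.ofFinite (Cos N)
  have hw : (wid o : ℤ) ≠ 0 := Int.natCast_ne_zero.mpr (NeZero.ne _)
  refine ⟨(n % (wid o : ℤ)).toNat, ?_, ?_⟩
  · have := Int.emod_lt_of_pos n (lt_of_le_of_ne (Int.natCast_nonneg _) hw.symm)
    omega
  · have h1 : ModularGroup.T ^ (n % (wid o : ℤ)) • o.out = ModularGroup.T ^ n • o.out :=
      MulAction.zpow_smul_mod_minimalPeriod _ _ n
    rw [← zpow_natCast, Int.toNat_of_nonneg (Int.emod_nonneg _ hw), h1]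
    exact hx

/-- The boundary map has corank at most one. -/
lemma cusps_le_rank_add_one :
    Nat.card (TOrb (Cos N)) ≤ Module.finrank ℂ (LinearMap.range (bdryMap (N := N))) + 1 := by
  classical
  haveI := Fintype.ofFinite (Cos N)
  haveI := Fintype.ofFinite (TOrb (Cos N))
  let o₀ : TOrb (Cos N) := Quotient.mk'' (QuotientGroup.mk 1)
  set e : TOrb (Cos N) → ℂ := Pi.single o₀ 1 with he
  have htop : LinearMap.range (bdryMap (N := N)) ⊔ Submodule.span ℂ {e} = ⊤ := by
    by_contra hne
    obtain ⟨Λ, hΛ0, hΛ⟩ := Submodule.exists_dual_map_eq_bot_of_lt_top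
      (lt_top_iff_ne_top.mpr hne) inferInstance
    have hker : ∀ v ∈ LinearMap.range (bdryMap (N := N)) ⊔ Submodule.span ℂ {e}, Λ v = 0 := by
      intro v hv
      have : Λ v ∈ (LinearMap.range (bdryMap (N := N)) ⊔ Submodule.span ℂ {e}).map Λ :=
        Submodule.mem_map_of_mem hv
      rwa [hΛ, Submodule.mem_bot] at this
    -- `Λ` as a function on cusps, pulled back to the cosets
    set h : Cos N → ℂ := fun x => Λ (Pi.single (Quotient.mk'' x) 1) with hh
    have hT : ∀ x : Cos N, h (ModularGroup.T • x) = h x := fun x => by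
      have : (Quotient.mk'' (ModularGroup.T • x) : TOrb (Cos N)) = Quotient.mk'' x :=
        Quotient.sound' ⟨⟨ModularGroup.T, Subgroup.mem_zpowers _⟩, rfl⟩
      simp only [hh, this]
    have hexp : ∀ f : Cos N → ℂ, Λ (fun o => orbSum o f) = ∑ x, h x * f x := by
      intro f
      have h1 : (fun o => orbSum o f) = ∑ o, orbSum o f • (Pi.single o (1 : ℂ) : TOrb (Cos N) → ℂ) := by
        funext o'
        simp [Finset.sum_apply, Pi.single_apply]
      rw [h1, map_sum]
      simp only [map_smul, smul_eq_mul]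
      have h2 : ∀ o : TOrb (Cos N), orbSum o f * Λ (Pi.single o 1)
          = ∑ x ∈ Finset.univ.filter (fun x : Cos N => (Quotient.mk'' x : TOrb (Cos N)) = o),
              h x * f x := by
        intro o
        show (∑ j ∈ Finset.range (wid o), f (ModularGroup.T ^ j • o.out)) * _ = _
        rw [Finset.sum_mul]
        have hmk : ∀ j : ℕ, (Quotient.mk'' (ModularGroup.T ^ j • o.out) : TOrb (Cos N)) = o := by
          intro j
          conv_rhs => rw [← Quotient.out_eq' o]
          exact Quotient.sound' ⟨⟨ModularGroup.T ^ j, pow_mem (Subgroup.mem_zpowers _) j⟩, rfl⟩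
        refine Finset.sum_nbij (fun j => ModularGroup.T ^ j • o.out) (fun j _ => by simp [hmk])
          (T_pow_smul_injOn o) ?_ (fun j _ => ?_)
        · intro x hx
          simp only [Finset.coe_filter, Finset.mem_univ, true_and, Set.mem_setOf_eq] at hx
          obtain ⟨j, hj, hjx⟩ := exists_wid_rep x
          subst hx
          exact ⟨j, by simpa using hj, hjx⟩
        · simp only [hh, hmk]; ring
      rw [Finset.sum_congr rfl fun o _ => h2 o, Finset.sum_fiberwise]
    have hS : ∀ y : Cos N, h (ModularGroup.S • y) = h y := by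
      intro y
      set a : Cos N → ℂ := Pi.single y 1 - Pi.single (ModularGroup.S • y) 1 with ha
      have hSS : ∀ z : Cos N, ModularGroup.S • ModularGroup.S • z = z := fun z => by
        rw [← mul_smul, show ModularGroup.S * ModularGroup.S = (-1 : SL(2, ℤ)) by
          ext i j; fin_cases i <;> fin_cases j <;> simp [ModularGroup.coe_S, Matrix.mul_apply],
          cos_neg_one_smul]
      have ham : a ∈ kerInv (fun x : Cos N => ModularGroup.S • x) := by
        rw [kerInv, LinearMap.mem_ker]
        funext z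
        have e1 : ModularGroup.S • z = y ↔ z = ModularGroup.S • y :=
          ⟨fun hz => by rw [← hz, hSS], fun hz => by rw [hz, hSS]⟩
        simp [ha, Pi.single_apply, e1]
      have h0 := hker _ (Submodule.mem_sup_left ⟨(⟨a, ham⟩, 0), rfl⟩)
      have hb : (bdryMap (N := N) (⟨a, ham⟩, 0)) = fun o => orbSum o
          (fun x : Cos N => a ((ModularGroup.S * ModularGroup.T) • x)) := by
        funext o
        simp [bdryMap]
        rfl
      rw [hb, hexp] at h0
      rw [← Equiv.sum_comp (MulAction.toPerm (ModularGroup.S * ModularGroup.T)⁻¹)] at h0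
      simp only [MulAction.toPerm_apply, smul_inv_smul, ha, Pi.sub_apply, Pi.single_apply, mul_sub,
        mul_ite, mul_one, mul_zero, Finset.sum_sub_distrib, Finset.sum_ite_eq', Finset.mem_univ,
        if_true, sub_eq_zero, mul_inv_rev, mul_smul] at h0
      have hTi : ∀ z : Cos N, h (ModularGroup.T⁻¹ • z) = h z := fun z => by
        conv_rhs => rw [← smul_inv_smul ModularGroup.T z, hT]
      rw [hTi, hTi, inv_smul_smul] at h0
      have hSi : ModularGroup.S⁻¹ • y = ModularGroup.S • y :=
        inv_smul_eq_iff.mpr (hSS y).symm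
      rwa [hSi] at h0
    have hconst : ∀ x : Cos N, h x = h (QuotientGroup.mk 1) := by
      let St : Subgroup SL(2, ℤ) :=
        { carrier := {g | ∀ x : Cos N, h (g • x) = h x}
          mul_mem' := fun {a b} ha hb x => by rw [mul_smul, ha, hb]
          one_mem' := fun x => by rw [one_smul]
          inv_mem' := fun {a} ha x => by conv_rhs => rw [← smul_inv_smul a x, ha] }
      have htopS : St = ⊤ := by
        rw [eq_top_iff, ← SpecialLinearGroup.SL2Z_generators, Subgroup.closure_le]
        rintro g (rfl | rfl)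
        · exact hS
        · exact hT
      intro x
      induction x using QuotientGroup.induction_on with
      | H g =>
        have hg : g ∈ St := htopS ▸ Subgroup.mem_top g
        have := hg (QuotientGroup.mk 1 : Cos N)
        rwa [MulAction.Quotient.smul_mk, smul_eq_mul, mul_one] at this
    have hΛe : h (QuotientGroup.mk 1) = 0 :=
      hker _ (Submodule.mem_sup_right (Submodule.subset_span rfl))
    refine hΛ0 (LinearMap.pi_ext' fun o => LinearMap.ext_ring ?_)
    induction o using Quotient.inductionOn' with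
    | h x =>
      show h x = 0
      rw [hconst x, hΛe]
  have h1 := Submodule.finrank_add_le_finrank_add_finrank
    (LinearMap.range (bdryMap (N := N))) (Submodule.span ℂ {e})
  rw [htop, finrank_top, Module.finrank_fintype_fun_eq_card] at h1
  have h2 : Module.finrank ℂ (Submodule.span ℂ {e}) ≤ 1 := by
    simpa using finrank_span_le_card (R := ℂ) {e}
  rw [Nat.card_eq_fintype_card]
  omega

/-- Functions on the cosets vanishing at the base point. -/
def baseZero : Submodule ℂ (Cos N → ℂ) :=
  LinearMap.ker (LinearMap.proj (QuotientGroup.mk 1 : Cos N))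

/-- The values at `S` and `S T` of the cocycle of `φ`, twisted by the coboundary of `f`. -/
noncomputable def valueMap :
    (parabolicHoms ℂ (Gamma0 N) ℂ) × (baseZero (N := N)) →ₗ[ℂ]
      (Cos N → ℂ) × (Cos N → ℂ) where
  toFun p :=
    (fun x => cocy (p.1 : Additive (Gamma0 N) →+ ℂ) ModularGroup.S x
        + ((p.2 : Cos N → ℂ) (ModularGroup.S • x) - (p.2 : Cos N → ℂ) x),
     fun x => cocy (p.1 : Additive (Gamma0 N) →+ ℂ) (ModularGroup.S * ModularGroup.T) x
        + ((p.2 : Cos N → ℂ) ((ModularGroup.S * ModularGroup.T) • x) - (p.2 : Cos N → ℂ) x))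
  map_add' p q := by
    ext x <;> simp [cocy] <;> ring
  map_smul' c p := by
    ext x <;> simp [cocy] <;> ring

lemma valueMap_injective : Function.Injective (valueMap (N := N)) := by
  rw [← LinearMap.ker_eq_bot, LinearMap.ker_eq_bot']
  rintro ⟨⟨φ, hφ⟩, ⟨f, hf⟩⟩ h
  have hS : ∀ x, cocy φ ModularGroup.S x + (f (ModularGroup.S • x) - f x) = 0 :=
    fun x => congrFun (congrArg Prod.fst h) x
  have hU : ∀ x, cocy φ (ModularGroup.S * ModularGroup.T) x
      + (f ((ModularGroup.S * ModularGroup.T) • x) - f x) = 0 :=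
    fun x => congrFun (congrArg Prod.snd h) x
  let St : Subgroup SL(2, ℤ) :=
    { carrier := {g | ∀ x, cocy φ g x + (f (g • x) - f x) = 0}
      mul_mem' := fun {a b} ha hb x => by
        have h1 := ha (b • x); have h2 := hb x
        rw [cocy_mul, mul_smul]; linear_combination h1 + h2
      one_mem' := fun x => by rw [cocy_one, one_smul]; ring
      inv_mem' := fun {a} ha x => by
        have h1 := ha (a⁻¹ • x)
        have h2 := cocy_mul φ a a⁻¹ x
        rw [mul_inv_cancel, cocy_one] at h2
        rw [smul_inv_smul] at h1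
        linear_combination -h1 - h2 }
  have htop : St = ⊤ := by
    rw [eq_top_iff, ← SpecialLinearGroup.SL2Z_generators, Subgroup.closure_le]
    rintro g (rfl | rfl)
    · exact hS
    · have h1 : ModularGroup.S ∈ St := hS
      have h2 : ModularGroup.S * ModularGroup.T ∈ St := hU
      have := St.mul_mem (St.inv_mem h1) h2
      rwa [inv_mul_cancel_left] at this
  have hall : ∀ (g : SL(2, ℤ)) x, cocy φ g x + (f (g • x) - f x) = 0 := fun g x =>
    (htop ▸ Subgroup.mem_top g : g ∈ St) x
  set x₀ : Cos N := QuotientGroup.mk 1 with hx₀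
  have hout : x₀.out ∈ Gamma0 N := by
    have h1 : (QuotientGroup.mk x₀.out : Cos N) = QuotientGroup.mk 1 :=
      QuotientGroup.out_eq' x₀
    rw [QuotientGroup.eq, mul_one] at h1
    exact inv_mem_iff.mp h1
  have hfix : ∀ γ : Gamma0 N, (γ : SL(2, ℤ)) • x₀ = x₀ := fun γ => by
    rw [hx₀, MulAction.Quotient.smul_mk, smul_eq_mul, mul_one, QuotientGroup.eq, mul_one]
    exact inv_mem γ.2
  have hφ0 : φ = 0 := by
    refine AddMonoidHom.ext fun γ => ?_
    have h1 := hall (γ.toMul : SL(2, ℤ)) x₀
    rw [hfix, sub_self, add_zero] at h1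
    have h2 : schreier (γ.toMul : SL(2, ℤ)) x₀
        = (⟨x₀.out, hout⟩ : Gamma0 N)⁻¹ * (γ.toMul * ⟨x₀.out, hout⟩) := by
      apply Subtype.ext
      show ((γ.toMul : SL(2, ℤ)) • x₀).out⁻¹ * _ = _
      rw [hfix]
      rfl
    rw [cocy, h2, ofMul_mul, ofMul_mul, ofMul_inv, map_add, map_add, map_neg, neg_add_cancel_comm_assoc]
      at h1
    exact h1
  have hf0 : f = 0 := by
    funext x
    induction x using QuotientGroup.induction_on with
    | H g =>
      have h1 := hall g x₀
      rw [hφ0] at h1
      simp only [cocy, AddMonoidHom.zero_apply, zero_add, hx₀, MulAction.Quotient.smul_mk,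
        smul_eq_mul, mul_one] at h1
      have h3 : f (QuotientGroup.mk 1) = 0 := hf
      rw [h3, sub_zero] at h1
      exact h1
  exact Prod.ext (Subtype.ext hφ0) (Subtype.ext hf0)

lemma valueMap_mem (p : (parabolicHoms ℂ (Gamma0 N) ℂ) × (baseZero (N := N))) :
    (valueMap p).1 ∈ kerInv (fun x : Cos N => ModularGroup.S • x) ∧
      (valueMap p).2 ∈ kerThree (fun x : Cos N => (ModularGroup.S * ModularGroup.T) • x) ∧
      ∀ o, orbSum o (fun x => (valueMap p).1 ((ModularGroup.S * ModularGroup.T) • x)
        + (valueMap p).2 x) = 0 := by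
  obtain ⟨⟨φ, hφ⟩, ⟨f, hf⟩⟩ := p
  refine ⟨?_, ?_, fun o => ?_⟩
  · rw [kerInv, LinearMap.mem_ker]
    funext x
    have h1 := cocy_S φ x
    have hSS : ModularGroup.S • ModularGroup.S • x = x := by
      rw [← mul_smul, show ModularGroup.S * ModularGroup.S = (-1 : SL(2, ℤ)) by
        ext i j; fin_cases i <;> fin_cases j <;> simp [ModularGroup.coe_S, Matrix.mul_apply],
        cos_neg_one_smul]
    simp [valueMap, hSS]
    linear_combination h1
  · rw [kerThree, LinearMap.mem_ker]
    funext x
    have h1 := cocy_U φ x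
    have hUUU : (ModularGroup.S * ModularGroup.T) • (ModularGroup.S * ModularGroup.T) •
        (ModularGroup.S * ModularGroup.T) • x = x := by
      rw [← mul_smul, ← mul_smul, U_cube,
        cos_neg_one_smul]
    simp only [LinearMap.add_apply, LinearMap.id_apply, Pi.add_apply, pullLin_apply,
      Function.comp_apply, Pi.zero_apply]
    simp only [valueMap, LinearMap.coe_mk, AddHom.coe_mk, hUUU]
    linear_combination h1
  · have e : (fun x => (valueMap ((⟨φ, hφ⟩, ⟨f, hf⟩) :
        (parabolicHoms ℂ (Gamma0 N) ℂ) × (baseZero (N := N)))).1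
          ((ModularGroup.S * ModularGroup.T) • x)
        + (valueMap ((⟨φ, hφ⟩, ⟨f, hf⟩) :
        (parabolicHoms ℂ (Gamma0 N) ℂ) × (baseZero (N := N)))).2 x)
        = cocy φ ModularGroup.T + (fun x => f (ModularGroup.T • x) - f x) := by
      funext x
      have hSU : ModularGroup.S • (ModularGroup.S * ModularGroup.T) • x = ModularGroup.T • x := by
        rw [← mul_smul, show ModularGroup.S * (ModularGroup.S * ModularGroup.T)
          = (-1 : SL(2, ℤ)) * ModularGroup.T by
            ext i j; fin_cases i <;> fin_cases j <;>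
              simp [ModularGroup.coe_S, ModularGroup.coe_T, Matrix.mul_apply, Fin.sum_univ_two],
          mul_smul, cos_neg_one_smul]
      simp only [valueMap, LinearMap.coe_mk, AddHom.coe_mk, Pi.add_apply, cocy_T, hSU]
      ring
    rw [e, map_add, orbSum_parabolic hφ, zero_add]
    show ∑ j ∈ Finset.range (wid o), (f (ModularGroup.T • ModularGroup.T ^ j • o.out)
        - f (ModularGroup.T ^ j • o.out)) = 0
    simp only [← mul_smul, ← pow_succ']
    rw [Finset.sum_range_sub (fun j => f (ModularGroup.T ^ j • o.out)), wid_smul, pow_zero,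
      one_smul, sub_self]

/-- The cocycle values land in the kernel of the boundary map. -/
noncomputable def valueMapKer :
    (parabolicHoms ℂ (Gamma0 N) ℂ) × (baseZero (N := N)) →ₗ[ℂ]
      LinearMap.ker (bdryMap (N := N)) :=
  LinearMap.codRestrict _
    (LinearMap.prod
      (LinearMap.codRestrict _ (LinearMap.fst ℂ _ _ ∘ₗ valueMap) fun p => (valueMap_mem p).1)
      (LinearMap.codRestrict _ (LinearMap.snd ℂ _ _ ∘ₗ valueMap) fun p => (valueMap_mem p).2.1))
    fun p => by
      rw [LinearMap.mem_ker]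
      funext o
      exact (valueMap_mem p).2.2 o

lemma valueMapKer_injective : Function.Injective (valueMapKer (N := N)) := by
  intro p q h
  apply valueMap_injective
  have h1 := congrArg (fun z : LinearMap.ker (bdryMap (N := N)) => ((z.1.1 : Cos N → ℂ),
    (z.1.2 : Cos N → ℂ))) h
  exact h1

/-- The parabolic homomorphisms form a finite dimensional space. -/
theorem parabolicHoms_finite (N : ℕ) [NeZero N] :
    Module.Finite ℂ (parabolicHoms ℂ (Gamma0 N) ℂ) :=
  haveI := Fintype.ofFinite (Cos N)
  Module.Finite.of_injective (valueMapKer.comp (LinearMap.inl ℂ _ _))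
    (valueMapKer_injective.comp LinearMap.inl_injective)

/-- `dim (parabolic homs) ≤ 2 dim S₂`. -/
theorem finrank_parabolicHoms_le (N : ℕ) [NeZero N] :
    Module.finrank ℂ (parabolicHoms ℂ (Gamma0 N) ℂ)
      ≤ 2 * Module.finrank ℂ (CuspForm (Gamma0 N) 2) := by
  classical
  haveI := Fintype.ofFinite (Cos N)
  haveI := parabolicHoms_finite N
  obtain ⟨b⟩ := exists_freeBasis (X := Cos N) cos_neg_one_smul cos_separating
  have hb := b.num_ten
  rw [(cuspVecEquiv (N := N)).finrank_eq, b.finrank_cusp_two]
  have h1 := LinearMap.finrank_le_finrank_of_injective (valueMapKer_injective (N := N))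
  rw [Module.finrank_prod] at h1
  have h2 := LinearMap.finrank_range_add_finrank_ker (bdryMap (N := N))
  rw [Module.finrank_prod] at h2
  have h3 := cusps_le_rank_add_one (N := N)
  have hSS : ∀ x : Cos N, ModularGroup.S • ModularGroup.S • x = x := fun x => by
    rw [← mul_smul, show ModularGroup.S * ModularGroup.S = (-1 : SL(2, ℤ)) by
      ext i j; fin_cases i <;> fin_cases j <;> simp [ModularGroup.coe_S, Matrix.mul_apply],
      cos_neg_one_smul]
  have hUUU : ∀ x : Cos N, (ModularGroup.S * ModularGroup.T) • (ModularGroup.S * ModularGroup.T) •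
      (ModularGroup.S * ModularGroup.T) • x = x := fun x => by
    rw [← mul_smul, ← mul_smul, U_cube,
        cos_neg_one_smul]
  have h4 := two_finrank_kerInv (σ := fun x : Cos N => ModularGroup.S • x) hSS
  have h5 := three_finrank_kerThree
    (σ := fun x : Cos N => (ModularGroup.S * ModularGroup.T) • x) hUUU
  have h6 : Module.finrank ℂ (baseZero (N := N)) + 1 = Fintype.card (Cos N) := by
    have hsurj : LinearMap.range (LinearMap.proj (R := ℂ) (φ := fun _ : Cos N => ℂ)
        (QuotientGroup.mk 1 : Cos N)) = ⊤ :=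
      LinearMap.range_eq_top.mpr fun c => ⟨fun _ => c, rfl⟩
    have h := LinearMap.finrank_range_add_finrank_ker
      (LinearMap.proj (R := ℂ) (φ := fun _ : Cos N => ℂ) (QuotientGroup.mk 1 : Cos N))
    rw [hsurj, finrank_top, Module.finrank_self, Module.finrank_fintype_fun_eq_card] at h
    rw [baseZero]
    omega
  omega

end FA.Dim
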