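import Fermat.Agent.Dim.Count
import Fermat.Agent.Dim.Cosets

/-!
# `Γ₀(N)`: separation and the dimension of `S₂`
-/

set_option autoImplicit false

open Filter Topology Complex CongruenceSubgroup
open UpperHalfPlane hiding I
open scoped Real Manifold MatrixGroups ModularForm

namespace FA.Dim

variable {N : ℕ} [NeZero N]

instance cosNonempty : Nonempty (Cos N) := ⟨QuotientGroup.mk 1⟩

omit [NeZero N] in
lemma cos_neg_one_smul (x : Cos N) : (-1 : SL(2, ℤ)) • x = x := by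
  induction x using QuotientGroup.induction_on with
  | H g =>
    rw [MulAction.Quotient.smul_mk, smul_eq_mul, mk_eq_mk_iff]
    simp
    ring

/-- `N • τ`. -/
noncomputable def scaleN (N : ℕ) [NeZero N] (τ : ℍ) : ℍ :=
  ⟨(N : ℂ) * τ, by
    simpa using mul_pos (Nat.cast_pos.mpr (Nat.pos_of_ne_zero (NeZero.ne N))) τ.im_pos⟩

/-- `Δ(Nτ)`. -/
noncomputable def delN (N : ℕ) [NeZero N] (τ : ℍ) : ℂ := del (scaleN N τ)

omit [NeZero N] in
lemma del_smul (γ : SL(2, ℤ)) (τ : ℍ) :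
    del (γ • τ) = del τ * (denom (γ : GL (Fin 2) ℝ) τ) ^ (12 : ℤ) := by
  have h := congrFun (del_slash γ) τ
  rw [ModularForm.SL_slash_apply, _root_.zpow_neg] at h
  have hd : (denom (γ : GL (Fin 2) ℝ) τ) ^ (12 : ℤ) ≠ 0 := zpow_ne_zero _ (denom_ne_zero _ _)
  field_simp at h
  rw [h]
  exact mul_comm _ _

omit [NeZero N] in
lemma denom_SL (γ : SL(2, ℤ)) (z : ℂ) :
    denom (γ : GL (Fin 2) ℝ) z = ((γ 1 0 : ℤ) : ℂ) * z + ((γ 1 1 : ℤ) : ℂ) := by
  simp [denom]

/-- The affine point `(g τ + e) / m`. -/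
noncomputable def affPt (g m : ℕ) (hg : 0 < g) (hm : 0 < m) (e : ℤ) (τ : ℍ) : ℍ :=
  ⟨((g : ℂ) * τ + e) / m, by
    have h1 : (0 : ℝ) < (g : ℝ) * τ.im :=
      mul_pos (Nat.cast_pos.mpr hg) τ.im_pos
    have h2 : (((g : ℂ) * τ + e) / m).im = (g : ℝ) * τ.im / m := by
      simp [Complex.div_natCast_im]
    rw [h2]
    exact div_pos h1 (Nat.cast_pos.mpr hm)⟩

omit [NeZero N] in
lemma coe_affPt (g m : ℕ) (hg : 0 < g) (hm : 0 < m) (e : ℤ) (τ : ℍ) :
    (affPt g m hg hm e τ : ℂ) = ((g : ℂ) * τ + e) / m := rfl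

/-- `Δ(Nτ) ∣ γ` in upper triangular form. -/
lemma delN_slash (γ : SL(2, ℤ)) :
    ∃ (g m : ℕ) (hg : 0 < g) (hm : 0 < m) (e : ℤ), g * m = N ∧ g = Int.gcd (γ 1 0) (N : ℤ) ∧
      ∀ τ, (delN N ∣[(12 : ℤ)] γ) τ = ((m : ℂ) ^ (12 : ℤ))⁻¹ * del (affPt g m hg hm e τ) := by
  obtain ⟨g, hgdef⟩ : ∃ g, g = Int.gcd (γ 1 0) (N : ℤ) := ⟨_, rfl⟩
  have hN : 0 < N := Nat.pos_of_ne_zero (NeZero.ne N)
  have hgN : g ∣ N := hgdef ▸ Int.natCast_dvd_natCast.mp (Int.gcd_dvd_right _ _)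
  have hg : 0 < g := Nat.pos_of_dvd_of_pos hgN hN
  obtain ⟨m, hm⟩ := hgN
  have hm0 : 0 < m := by
    rcases Nat.eq_zero_or_pos m with h | h
    · subst h; simp at hm; omega
    · exact h
  obtain ⟨c', hc'⟩ : (g : ℤ) ∣ γ 1 0 := hgdef ▸ Int.gcd_dvd_left _ _
  have hcop : IsCoprime ((m : ℤ) * γ 0 0) c' := by
    refine IsCoprime.mul_left ?_ ?_
    · rw [Int.isCoprime_iff_gcd_eq_one]
      have h1 : Int.gcd ((g : ℤ) * c') ((g : ℤ) * m) = g * Int.gcd c' m := by
        rw [Int.gcd_mul_left, Int.natAbs_natCast]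
      rw [← hc', ← Nat.cast_mul, ← hm, ← hgdef] at h1
      rw [Int.gcd_comm]
      exact (Nat.mul_eq_left hg.ne').mp h1.symm
    · exact (γ.isCoprime_col 0).of_isCoprime_of_dvd_right ⟨(g : ℤ), by rw [hc', mul_comm]⟩
  obtain ⟨γ', h0, h1⟩ := exists_sl2_col hcop
  set e : ℤ := γ' 1 1 * ((N : ℤ) * γ 0 1) - γ' 0 1 * γ 1 1 with he
  refine ⟨g, m, hg, hm0, e, hm.symm, hgdef, fun τ => ?_⟩
  have hdet := γ.det_coe
  rw [Matrix.det_fin_two] at hdet
  have hdet' := γ'.det_coe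
  rw [Matrix.det_fin_two] at hdet'
  have hNz : (N : ℤ) = g * m := by exact_mod_cast hm
  have r0 : (γ' 0 0 * g : ℤ) = (N : ℤ) * γ 0 0 := by rw [h0, hNz]; ring
  have r1 : (γ' 1 0 * g : ℤ) = γ 1 0 := by rw [h1, hc']; ring
  have s0 : γ' 0 0 * e + γ' 0 1 * m = (N : ℤ) * γ 0 1 := by
    rw [he]
    linear_combination ((N : ℤ) * γ 0 1) * hdet' - (γ' 0 1) * (γ 1 1) * h0
      - (m : ℤ) * γ' 0 1 * hdet + γ' 0 1 * γ 0 1 * ((N : ℤ) * h1 + c' * hNz - (m : ℤ) * hc')
  have s1 : γ' 1 0 * e + γ' 1 1 * m = γ 1 1 := by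
    rw [he]
    linear_combination (γ 1 1) * hdet' - (γ' 1 1) * (γ 1 1) * h0
      - (m : ℤ) * γ' 1 1 * hdet + γ' 1 1 * γ 0 1 * ((N : ℤ) * h1 + c' * hNz - (m : ℤ) * hc')
  set w := affPt g m hg hm0 e τ with hw
  have hmC : (m : ℂ) ≠ 0 := Nat.cast_ne_zero.mpr hm0.ne'
  have hwC : (w : ℂ) * m = g * τ + e := by rw [hw, coe_affPt, div_mul_cancel₀ _ hmC]
  have hden : denom (γ : GL (Fin 2) ℝ) τ = (m : ℂ) * denom (γ' : GL (Fin 2) ℝ) w := by
    have e1 : ((γ 1 0 : ℤ) : ℂ) = (γ' 1 0 : ℤ) * (g : ℂ) := by exact_mod_cast congrArg (Int.cast : ℤ → ℂ) r1.symm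
    have e2 : ((γ 1 1 : ℤ) : ℂ) = (γ' 1 0 : ℤ) * (e : ℂ) + (γ' 1 1 : ℤ) * (m : ℂ) := by
      exact_mod_cast congrArg (Int.cast : ℤ → ℂ) s1.symm
    simp [denom]
    rw [e1, e2]
    linear_combination (-((γ' 1 0 : ℤ) : ℂ)) * hwC
  have hpt : scaleN N (γ • τ) = γ' • w := by
    apply UpperHalfPlane.ext
    show (N : ℂ) * ((γ • τ : ℍ) : ℂ) = ((γ' • w : ℍ) : ℂ)
    have hd1 : denom (γ : GL (Fin 2) ℝ) τ ≠ 0 := denom_ne_zero _ _
    have hd2 : denom (γ' : GL (Fin 2) ℝ) w ≠ 0 := denom_ne_zero _ _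
    have e1 : ((γ' 0 0 : ℤ) : ℂ) * (g : ℂ) = (N : ℂ) * (γ 0 0 : ℤ) := by
      exact_mod_cast congrArg (Int.cast : ℤ → ℂ) r0
    have e2 : ((γ' 0 0 : ℤ) : ℂ) * (e : ℂ) + (γ' 0 1 : ℤ) * (m : ℂ) = (N : ℂ) * (γ 0 1 : ℤ) := by
      exact_mod_cast congrArg (Int.cast : ℤ → ℂ) s0
    rw [UpperHalfPlane.coe_specialLinearGroup_apply, UpperHalfPlane.coe_specialLinearGroup_apply]
    simp only [denom, algebraMap_int_eq, eq_intCast, Complex.ofReal_intCast] at hden hd1 hd2 ⊢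
    simp at hden hd1 hd2 ⊢
    rw [hden] at hd1 ⊢
    field_simp
    linear_combination (-((γ' 0 0 : ℤ) : ℂ)) * hwC - (τ : ℂ) * e1 - e2
  rw [ModularForm.SL_slash_apply, delN, hpt, del_smul, hden, mul_zpow]
  have h12 : (denom (γ' : GL (Fin 2) ℝ) w) ^ (12 : ℤ) ≠ 0 := zpow_ne_zero _ (denom_ne_zero _ _)
  rw [show (m : ℂ) ^ (-(12 : ℤ)) = ((m : ℂ) ^ (12 : ℤ))⁻¹ from _root_.zpow_neg _ _,
    show (denom (γ' : GL (Fin 2) ℝ) w) ^ (-(12 : ℤ))
      = ((denom (γ' : GL (Fin 2) ℝ) w) ^ (12 : ℤ))⁻¹ from _root_.zpow_neg _ _]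
  field_simp

lemma tendsto_affPt (g m : ℕ) (hg : 0 < g) (hm : 0 < m) (e : ℤ) :
    Tendsto (affPt g m hg hm e) atImInfty atImInfty := by
  refine tendsto_comap_iff.mpr ?_
  have h : (fun τ : ℍ => (affPt g m hg hm e τ).im) = fun τ : ℍ => ((g : ℝ) / m) * τ.im := by
    funext τ
    show (((g : ℂ) * τ + e) / m).im = _
    simp [Complex.div_natCast_im]
    ring
  show Tendsto (fun τ : ℍ => (affPt g m hg hm e τ).im) atImInfty atTop
  rw [h]
  exact (tendsto_comap (f := UpperHalfPlane.im)).const_mul_atTop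
    (div_pos (Nat.cast_pos.mpr hg) (Nat.cast_pos.mpr hm))

lemma delN_invariant {γ : SL(2, ℤ)} (hγ : γ ∈ Gamma0 N) : delN N ∣[(12 : ℤ)] γ = delN N := by
  obtain ⟨g, m, hg, hm, e, hgm, hgdef, h⟩ := delN_slash (N := N) γ
  have hc : (N : ℤ) ∣ γ 1 0 := (ZMod.intCast_zmod_eq_zero_iff_dvd _ _).mp (Gamma0_mem.mp hγ)
  have hgN : g = N := by
    refine Nat.dvd_antisymm ?_ ?_
    · rw [hgdef]; exact Int.natCast_dvd_natCast.mp (Int.gcd_dvd_right _ _)
    · rw [hgdef]; exact Int.natCast_dvd_natCast.mp (Int.dvd_coe_gcd hc dvd_rfl)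
  have hm1 : m = 1 := by
    have h2 : g * m = g * 1 := by rw [hgm, mul_one, hgN]
    exact Nat.eq_of_mul_eq_mul_left hg h2
  subst hm1
  funext τ
  rw [h τ]
  have hsplit : affPt g 1 hg hm e τ = ModularGroup.T ^ e • scaleN N τ := by
    rw [modular_T_zpow_smul]
    apply UpperHalfPlane.ext
    rw [coe_affPt, UpperHalfPlane.coe_vadd]
    simp [scaleN, hgN, add_comm]
  rw [hsplit, del_smul]
  have e10 : (ModularGroup.T ^ e) 1 0 = 0 := by simp [ModularGroup.coe_T_zpow]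
  have e11 : (ModularGroup.T ^ e) 1 1 = 1 := by simp [ModularGroup.coe_T_zpow]
  rw [denom_SL, e10, e11]
  simp [delN]

/-- `Δ(Nτ)` as a vector valued form. -/
noncomputable def sepForm (N : ℕ) [NeZero N] (x : Cos N) : ℍ → ℂ :=
  Quotient.liftOn' x (fun g => delN N ∣[(12 : ℤ)] g⁻¹) (fun a b h => by
    rw [QuotientGroup.leftRel_apply] at h
    show delN N ∣[(12 : ℤ)] a⁻¹ = delN N ∣[(12 : ℤ)] b⁻¹
    rw [show a⁻¹ = (a⁻¹ * b) * b⁻¹ by group, SlashAction.slash_mul, delN_invariant h])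

lemma sepForm_mk (g : SL(2, ℤ)) :
    sepForm N (QuotientGroup.mk g) = delN N ∣[(12 : ℤ)] g⁻¹ := rfl

lemma sepForm_mem : sepForm N ∈ VForm (Cos N) 12 := by
  refine ⟨fun x => ?_, fun h x => ?_, fun x => ?_⟩
  · induction x using QuotientGroup.induction_on with
    | H a =>
      obtain ⟨g, m, hg, hm, e, -, -, hs⟩ := delN_slash (N := N) a⁻¹
      rw [sepForm_mk, show delN N ∣[(12 : ℤ)] a⁻¹ = _ from funext hs,
        UpperHalfPlane.mdifferentiable_iff]
      have h1 : DifferentiableOn ℂ (fun z : ℂ => ((m : ℂ) ^ (12 : ℤ))⁻¹ *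
          (del ∘ ofComplex) (((g : ℂ) * z + e) / m)) upperHalfPlaneSet := by
        refine DifferentiableOn.const_mul ?_ _
        refine (UpperHalfPlane.mdifferentiable_iff.mp del_mdiff).comp (by fun_prop) ?_
        intro z hz
        exact (affPt g m hg hm e ⟨z, hz⟩).2
      refine h1.congr fun z hz => ?_
      have hmem : 0 < (((g : ℂ) * z + e) / m).im := (affPt g m hg hm e ⟨z, hz⟩).2
      simp only [Function.comp_apply, ofComplex_apply_of_im_pos hz, ofComplex_apply_of_im_pos hmem]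
      rfl
  · induction x using QuotientGroup.induction_on with
    | H a =>
      rw [sepForm_mk, MulAction.Quotient.smul_mk, smul_eq_mul, sepForm_mk, ← SlashAction.slash_mul]
      simp
  · induction x using QuotientGroup.induction_on with
    | H a =>
      obtain ⟨g, m, hg, hm, e, -, -, hs⟩ := delN_slash (N := N) a⁻¹
      rw [sepForm_mk, show delN N ∣[(12 : ℤ)] a⁻¹ = _ from funext hs]
      refine IsZeroAtImInfty.isBoundedAtImInfty ?_
      have := (del_zero.comp (tendsto_affPt g m hg hm e)).const_mul ((m : ℂ) ^ (12 : ℤ))⁻¹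
      rw [mul_zero] at this
      exact this

/-- Only `Γ₀(N)` fixes `Δ(Nτ)`. -/
lemma mem_Gamma0_of_delN_slash {γ : SL(2, ℤ)} (h : delN N ∣[(12 : ℤ)] γ = delN N) :
    γ ∈ Gamma0 N := by
  haveI := atImInfty_neBot
  obtain ⟨g, m, hg, hm, e, hgm, hgdef, hs⟩ := delN_slash (N := N) γ
  have hN : (0 : ℝ) < N := Nat.cast_pos.mpr (Nat.pos_of_ne_zero (NeZero.ne N))
  have hN1 : ∀ τ, qpow 1 (scaleN N τ) = qpow (N : ℝ) τ := fun τ => by
    simp [qpow, scaleN]; ring_nf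
  set C : ℂ := Complex.exp (2 * π * Complex.I * (e / m)) with hC
  have hg1 : ∀ τ, qpow 1 (affPt g m hg hm e τ) = C * qpow ((g : ℝ) / m) τ := fun τ => by
    rw [hC, qpow, qpow, coe_affPt, ← Complex.exp_add]
    push_cast
    ring_nf
  have hl : Tendsto (fun τ => (del (affPt g m hg hm e τ) * qpow (-1) (affPt g m hg hm e τ)) /
      (del (scaleN N τ) * qpow (-1) (scaleN N τ))) atImInfty (𝓝 (1 / 1)) := by
    refine (tendsto_discriminant_div_q.comp (tendsto_affPt g m hg hm e)).div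
      (tendsto_discriminant_div_q.comp ?_) one_ne_zero
    refine tendsto_comap_iff.mpr ?_
    have : (fun τ : ℍ => (scaleN N τ).im) = fun τ : ℍ => (N : ℝ) * τ.im := by
      funext τ
      show ((N : ℂ) * τ).im = _
      simp
    show Tendsto (fun τ : ℍ => (scaleN N τ).im) atImInfty atTop
    rw [this]
    exact (tendsto_comap (f := UpperHalfPlane.im)).const_mul_atTop hN
  have hne : ((m : ℂ) ^ (12 : ℤ))⁻¹ * C ≠ 0 :=
    mul_ne_zero (inv_ne_zero (zpow_ne_zero _ (Nat.cast_ne_zero.mpr hm.ne'))) (Complex.exp_ne_zero _)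
  have heq : ∀ τ, (del (affPt g m hg hm e τ) * qpow (-1) (affPt g m hg hm e τ)) /
      (del (scaleN N τ) * qpow (-1) (scaleN N τ))
        = (((m : ℂ) ^ (12 : ℤ))⁻¹ * C)⁻¹ * qpow ((N : ℝ) - (g : ℝ) / m) τ := by
    intro τ
    have h1 := hs τ
    rw [h, delN] at h1
    have hinv : ∀ w : ℍ, qpow (-1) w * qpow 1 w = 1 := fun w => by
      rw [← qpow_add, neg_add_cancel, qpow_zero]
    have hsplit : qpow ((N : ℝ) - (g : ℝ) / m) τ * qpow ((g : ℝ) / m) τ = qpow (N : ℝ) τ := by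
      rw [← qpow_add, sub_add_cancel]
    have d1 := mul_ne_zero (del_ne_zero (scaleN N τ)) (qpow_ne_zero (-1) (scaleN N τ))
    have hC0 : C ≠ 0 := Complex.exp_ne_zero _
    have hm0 : (m : ℂ) ^ (12 : ℤ) ≠ 0 := zpow_ne_zero _ (Nat.cast_ne_zero.mpr hm.ne')
    have a1 := hinv (affPt g m hg hm e τ)
    have a2 := hinv (scaleN N τ)
    rw [hN1] at a2
    rw [hg1] at a1
    have hq := qpow_ne_zero ((g : ℝ) / m) τ
    have hq0 := qpow_ne_zero (-1) (scaleN N τ)
    have hB0 := del_ne_zero (scaleN N τ)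
    generalize qpow ((N : ℝ) - (g : ℝ) / m) τ = r at hsplit ⊢
    generalize qpow ((g : ℝ) / m) τ = s at hsplit hq a1
    generalize qpow (-1) (affPt g m hg hm e τ) = p at a1 ⊢
    generalize qpow (-1) (scaleN N τ) = q at hq0 a2 d1 ⊢
    generalize qpow (N : ℝ) τ = u at hsplit a2
    generalize del (affPt g m hg hm e τ) = Da at h1 ⊢
    generalize del (scaleN N τ) = Db at h1 hB0 d1 ⊢
    generalize (m : ℂ) ^ (12 : ℤ) = M at hm0 h1 ⊢
    have k1 : p * C = q * r := by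
      apply mul_right_cancel₀ hq
      linear_combination a1 - a2 - q * hsplit
    subst h1
    rw [div_eq_iff d1]
    field_simp
    linear_combination Da * k1
  rw [Filter.tendsto_congr heq, div_one] at hl
  have hl' := hl.const_mul (((m : ℂ) ^ (12 : ℤ))⁻¹ * C)
  simp only [← mul_assoc, mul_inv_cancel₀ hne, one_mul, mul_one] at hl'
  have h0 := eq_zero_of_tendsto_qpow hne hl'
  have hmR : (m : ℝ) ≠ 0 := Nat.cast_ne_zero.mpr hm.ne'
  have hgR : (g : ℝ) * (m : ℝ) = (N : ℝ) := by exact_mod_cast hgm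
  rw [sub_eq_zero, eq_div_iff hmR, ← hgR] at h0
  have hm1 : (m : ℝ) * m = 1 := by
    have hg0 : (g : ℝ) ≠ 0 := Nat.cast_ne_zero.mpr hg.ne'
    exact mul_left_cancel₀ hg0 (by linarith)
  have hm1' : m = 1 := by
    have : m * m = 1 := by exact_mod_cast hm1
    exact Nat.eq_one_of_mul_eq_one_right this
  subst hm1'
  rw [Gamma0_mem, ZMod.intCast_zmod_eq_zero_iff_dvd]
  rw [mul_one] at hgm
  subst hgm
  rw [show (g : ℤ) = ((Int.gcd (γ 1 0) (g : ℤ) : ℕ) : ℤ) by rw [← hgdef]]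
  exact Int.gcd_dvd_left _ _

/-- `S`-vector valued forms separate the cosets. -/
theorem cos_separating : Separating (Cos N) := by
  classical
  haveI := Fintype.ofFinite (Cos N)
  have hdist : ∀ x y : Cos N, x ≠ y → sepForm N x - sepForm N y ≠ 0 := by
    intro x y hxy h
    apply hxy
    rw [sub_eq_zero] at h
    induction x using QuotientGroup.induction_on with
    | H a =>
      induction y using QuotientGroup.induction_on with
      | H b =>
        rw [sepForm_mk, sepForm_mk] at h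
        rw [QuotientGroup.eq]
        refine mem_Gamma0_of_delN_slash ?_
        rw [SlashAction.slash_mul, h, ← SlashAction.slash_mul, inv_mul_cancel,
          SlashAction.slash_one]
  let P : ℍ → ℂ := ∏ p ∈ (Finset.univ : Finset (Cos N × Cos N)).filter (fun p => p.1 ≠ p.2),
    (sepForm N p.1 - sepForm N p.2)
  have hP : P ≠ 0 := by
    intro h
    obtain ⟨p, hp, hp0⟩ := (UpperHalfPlane.prod_eq_zero_iff fun p _ =>
      (sepForm_mem.1 p.1).sub (sepForm_mem.1 p.2)).mp h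
    exact hdist _ _ (Finset.mem_filter.mp hp).2 hp0
  obtain ⟨τ, hτ⟩ := Function.ne_iff.mp hP
  simp only [P, Finset.prod_apply, Pi.zero_apply, Finset.prod_ne_zero_iff] at hτ
  refine ⟨τ, fun v => ?_⟩
  let e := Fintype.equivFin (Cos N)
  let a : Fin (Fintype.card (Cos N)) → ℂ := fun i => sepForm N (e.symm i) τ
  have ha : Function.Injective a := by
    intro i j hij
    by_contra hne
    exact hτ (e.symm i, e.symm j) (Finset.mem_filter.mpr ⟨Finset.mem_univ _,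
      fun h => hne (e.symm.injective h)⟩) (sub_eq_zero.mpr hij)
  have hu : IsUnit (Matrix.vandermonde a).det :=
    isUnit_iff_ne_zero.mpr (Matrix.det_vandermonde_ne_zero_iff.mpr ha)
  obtain ⟨c, hc⟩ : ∃ c, (Matrix.vandermonde a).mulVec c = fun i => v (e.symm i) :=
    (Matrix.mulVec_surjective_iff_isUnit.mpr ((Matrix.isUnit_iff_isUnit_det _).mpr hu)) _
  have hv : v = ∑ j, c j • (fun x => (sepForm N x τ) ^ (j : ℕ)) := by
    funext x
    have := congrFun hc (e x)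
    simp only [Matrix.mulVec, dotProduct, Matrix.vandermonde_apply, a, Equiv.symm_apply_apply] at this
    rw [← this, Finset.sum_apply]
    exact Finset.sum_congr rfl fun j _ => by simp [mul_comm]
  rw [hv]
  refine Submodule.sum_mem _ fun j _ => Submodule.smul_mem _ _ (Submodule.subset_span ?_)
  refine ⟨((j : ℕ) : ℤ) * 12, fun x => sepForm N x ^ (j : ℕ), ?_, rfl⟩
  generalize (j : ℕ) = n
  induction n with
  | zero =>
    simp only [pow_zero, Nat.cast_zero, zero_mul]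
    exact VForm.const_mem (X := Cos N) 1
  | succ n ih =>
    refine ⟨fun x => (sepForm_mem.1 x).pow _, fun g x => ?_,
      fun x => (boundedAtImInftySubalgebra ℂ).pow_mem (sepForm_mem.2.2 x) _⟩
    show (sepForm N x ^ (n + 1)) ∣[((n + 1 : ℕ) : ℤ) * 12] g = sepForm N (g⁻¹ • x) ^ (n + 1)
    rw [pow_succ, show ((n + 1 : ℕ) : ℤ) * 12 = (n : ℤ) * 12 + 12 by push_cast; ring,
      ModularForm.mul_slash_SL2, sepForm_mem.2.1 g x, ih.2.1 g x, ← pow_succ]

/-! ### `S₂(Γ₀(N))` as vector valued forms -/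

omit [NeZero N] in
/-- The vector valued form of a cusp form. -/
noncomputable def cuspToVec (f : CuspForm (Gamma0 N) 2) (x : Cos N) : ℍ → ℂ :=
  Quotient.liftOn' x (fun g => (f : ℍ → ℂ) ∣[(2 : ℤ)] g⁻¹) (fun a b h => by
    rw [QuotientGroup.leftRel_apply] at h
    show (f : ℍ → ℂ) ∣[(2 : ℤ)] a⁻¹ = (f : ℍ → ℂ) ∣[(2 : ℤ)] b⁻¹
    rw [show a⁻¹ = (a⁻¹ * b) * b⁻¹ by group, SlashAction.slash_mul]
    congr 1
    exact SlashInvariantFormClass.slash_action_eq f _ (Subgroup.mem_map_of_mem _ h))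

omit [NeZero N] in
lemma cuspToVec_mk (f : CuspForm (Gamma0 N) 2) (g : SL(2, ℤ)) :
    cuspToVec f (QuotientGroup.mk g) = (f : ℍ → ℂ) ∣[(2 : ℤ)] g⁻¹ := rfl

lemma cuspToVec_mem (f : CuspForm (Gamma0 N) 2) : cuspToVec f ∈ VCusp (Cos N) 2 := by
  have hz : ∀ x, IsZeroAtImInfty (cuspToVec f x) := fun x => by
    induction x using QuotientGroup.induction_on with
    | H a =>
      rw [cuspToVec_mk]
      exact CuspFormClass.zero_at_infty_slash f a⁻¹
  refine ⟨⟨fun x => ?_, fun g x => ?_, fun x => (hz x).isBoundedAtImInfty⟩, hz⟩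
  · induction x using QuotientGroup.induction_on with
    | H a =>
      rw [cuspToVec_mk, ModularForm.SL_slash]
      exact (CuspForm.translate f _).holo'
  · induction x using QuotientGroup.induction_on with
    | H a =>
      rw [cuspToVec_mk, MulAction.Quotient.smul_mk, smul_eq_mul, cuspToVec_mk,
        ← SlashAction.slash_mul]
      simp

/-- A cusp form from a vector valued one. -/
noncomputable def vecToCusp (F : VCusp (Cos N) 2) : CuspForm (Gamma0 N) 2 where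
  toFun := (F : Cos N → ℍ → ℂ) (QuotientGroup.mk 1)
  slash_action_eq' g hg := by
    obtain ⟨γ, hγ, rfl⟩ := hg
    show (F : Cos N → ℍ → ℂ) (QuotientGroup.mk 1) ∣[(2 : ℤ)] γ = _
    rw [F.2.1.2.1 γ, MulAction.Quotient.smul_mk, smul_eq_mul, mul_one]
    refine congrArg _ (QuotientGroup.eq.mpr ?_)
    simpa using hγ
  holo' := F.2.1.1 _
  zero_at_cusps' {c} hc := by
    have hc' : IsCusp c 𝒮ℒ := (Subgroup.IsArithmetic.isCusp_iff_isCusp_SL2Z _).mp hc
    rw [OnePoint.isZeroAt_iff_forall_SL2Z hc']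
    intro g _
    rw [F.2.1.2.1 g]
    exact F.2.2 _

/-- `S₂(Γ₀(N))` is the space of vector valued cusp forms. -/
noncomputable def cuspVecEquiv : CuspForm (Gamma0 N) 2 ≃ₗ[ℂ] VCusp (Cos N) 2 where
  toFun f := ⟨cuspToVec f, cuspToVec_mem f⟩
  map_add' f g := by
    apply Subtype.ext
    funext x
    induction x using QuotientGroup.induction_on with
    | H a =>
      show (((f + g : CuspForm (Gamma0 N) 2) : ℍ → ℂ)) ∣[(2 : ℤ)] a⁻¹ = _
      rw [CuspForm.coe_add, SlashAction.add_slash]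
      rfl
  map_smul' c f := by
    apply Subtype.ext
    funext x
    induction x using QuotientGroup.induction_on with
    | H a =>
      show (((c • f : CuspForm (Gamma0 N) 2) : ℍ → ℂ)) ∣[(2 : ℤ)] a⁻¹ = _
      rw [show ((c • f : CuspForm (Gamma0 N) 2) : ℍ → ℂ) = c • (f : ℍ → ℂ) from rfl,
        ModularForm.SL_smul_slash]
      rfl
  invFun := vecToCusp
  left_inv f := by
    apply DFunLike.ext'
    show (f : ℍ → ℂ) ∣[(2 : ℤ)] (1 : SL(2, ℤ))⁻¹ = f
    rw [inv_one, SlashAction.slash_one]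
  right_inv F := by
    apply Subtype.ext
    funext x
    induction x using QuotientGroup.induction_on with
    | H a =>
      show (F : Cos N → ℍ → ℂ) (QuotientGroup.mk 1) ∣[(2 : ℤ)] a⁻¹ = _
      rw [F.2.1.2.1 a⁻¹, MulAction.Quotient.smul_mk, smul_eq_mul, mul_one, inv_inv]

/-- The dimension formula. -/
theorem finrank_S2 (N : ℕ) [NeZero N] :
    (Module.finrank ℂ (CuspForm (Gamma0 N) 2) : ℚ) = ModularCurve.genusFormula N := by
  classical
  haveI := Fintype.ofFinite (Cos N)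
  obtain ⟨b⟩ := exists_freeBasis (X := Cos N) cos_neg_one_smul cos_separating
  rw [(cuspVecEquiv (N := N)).finrank_eq, b.finrank_cusp_two, ModularCurve.genusFormula]
  have h := b.num_ten
  have e4 : (Nat.card (TOrb (Cos N)) : ℤ) = ModularCurve.cuspCount N := by
    rw [← card_cuspSet]
    rfl
  rw [card_fixed_S, card_fixed_ST, e4, ← Nat.card_eq_fintype_card, card_cos] at h
  have h' := congrArg (Int.cast : ℤ → ℚ) h
  push_cast at h'
  linarith

end FA.Dim
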