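import Mathlib

/-!
# Analytic lemmas on functions on the upper half plane near `∞`
-/

set_option autoImplicit false

open Filter Topology Complex Asymptotics
open UpperHalfPlane hiding I
open scoped Real Manifold Derivative MatrixGroups ModularForm

namespace FA.Dim

/-- `exp (2 π i m τ)` -/
noncomputable def qpow (m : ℝ) (τ : ℍ) : ℂ := Complex.exp (2 * π * I * m * τ)

lemma norm_qpow (m : ℝ) (τ : ℍ) : ‖qpow m τ‖ = Real.exp (-(2 * π * m * τ.im)) := by
  simp [qpow, Complex.norm_exp]

lemma qpow_add (a b : ℝ) (τ : ℍ) : qpow (a + b) τ = qpow a τ * qpow b τ := by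
  rw [qpow, qpow, qpow, ← Complex.exp_add]; push_cast; ring_nf

lemma qpow_zero (τ : ℍ) : qpow 0 τ = 1 := by simp [qpow]

lemma qpow_ne_zero (m : ℝ) (τ : ℍ) : qpow m τ ≠ 0 := Complex.exp_ne_zero _

lemma qpow_vadd (m : ℝ) (r : ℝ) (τ : ℍ) :
    qpow m (r +ᵥ τ) = Complex.exp (2 * π * I * m * r) * qpow m τ := by
  rw [qpow, qpow, ← Complex.exp_add, UpperHalfPlane.coe_vadd]; ring_nf

lemma qpow_mdifferentiable (m : ℝ) : MDiff (qpow m) := by
  rw [UpperHalfPlane.mdifferentiable_iff]
  have : DifferentiableOn ℂ (fun z : ℂ => Complex.exp (2 * π * I * m * z))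
      upperHalfPlaneSet := by fun_prop
  refine this.congr fun z hz => ?_
  simp [qpow, ofComplex_apply_of_im_pos hz]

lemma periodic_comp_ofComplex_of_vadd {f : ℍ → ℂ} {h : ℝ} (hf : ∀ τ : ℍ, f (h +ᵥ τ) = f τ) :
    Function.Periodic (f ∘ ofComplex) (h : ℂ) := by
  intro w
  by_cases hw : 0 < w.im
  · have hw' : 0 < (w + h).im := by simpa using hw
    rw [Function.comp_apply, Function.comp_apply, ofComplex_apply_of_im_pos hw',
      ofComplex_apply_of_im_pos hw, ← hf ⟨w, hw⟩]
    congr 1
    ext
    simp [UpperHalfPlane.coe_vadd, add_comm]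
  · have hw' : (w + h).im ≤ 0 := by simpa using not_lt.mp hw
    simp only [Function.comp_apply]
    rw [ofComplex_apply_of_im_nonpos hw', ofComplex_apply_of_im_nonpos (not_lt.mp hw)]

lemma norm_qParam_one (τ : ℍ) :
    ‖Function.Periodic.qParam 1 (τ : ℂ)‖ = Real.exp (-(2 * π * τ.im)) := by
  rw [Function.Periodic.norm_qParam]; simp

/-- A `1`-periodic holomorphic function which is `o(1/|q|)` at `∞` has a limit there, and
differs from it by `O(q)`. -/
lemma exists_limit_of_periodic {f : ℍ → ℂ} (hf : MDiff f) (hper : ∀ τ : ℍ, f ((1 : ℝ) +ᵥ τ) = f τ)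
    (hsmall : Tendsto (fun τ => ‖f τ‖ * Real.exp (-(2 * π * τ.im))) atImInfty (𝓝 0)) :
    ∃ L : ℂ, Tendsto f atImInfty (𝓝 L) ∧
      (fun τ => f τ - L) =O[atImInfty] fun τ : ℍ => Real.exp (-(2 * π * τ.im)) := by
  have hperC : Function.Periodic (f ∘ ofComplex) ((1 : ℝ) : ℂ) :=
    periodic_comp_ofComplex_of_vadd hper
  set φ := UpperHalfPlane.cuspFunction 1 f with hφ
  -- differentiable away from zero in the unit disc
  have hdiff : DifferentiableOn ℂ φ (Metric.ball 0 1 \ {0}) := by
    intro q hq
    have hq1 : ‖q‖ < 1 := by simpa [mem_ball_zero_iff] using hq.1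
    have hq0 : q ≠ 0 := hq.2
    have him : 0 < (Function.Periodic.invQParam 1 q).im :=
      Function.Periodic.im_invQParam_pos_of_norm_lt_one one_pos hq1 hq0
    have hd : DifferentiableAt ℂ (f ∘ ofComplex) (Function.Periodic.invQParam 1 q) :=
      UpperHalfPlane.mdifferentiableAt_iff.mp (hf ⟨_, him⟩)
    have := Function.Periodic.differentiableAt_cuspFunction one_ne_zero hperC hd
    rw [Function.Periodic.qParam_right_inv one_ne_zero hq0] at this
    exact this.differentiableWithinAt
  have hball : Metric.ball (0 : ℂ) 1 \ {0} ∈ 𝓝[≠] (0 : ℂ) :=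
    diff_mem_nhdsWithin_compl (Metric.ball_mem_nhds _ one_pos) _
  -- small at zero
  have hto : Tendsto (fun q : ℂ => ofComplex (Function.Periodic.invQParam 1 q)) (𝓝[≠] 0)
      atImInfty :=
    tendsto_comap_im_ofComplex.comp (Function.Periodic.invQParam_tendsto one_pos)
  have ho : (fun q => φ q - φ 0) =o[𝓝[≠] (0 : ℂ)] fun q => (q - 0)⁻¹ := by
    refine IsLittleO.sub ?_ ?_
    · rw [Asymptotics.isLittleO_iff_tendsto']
      · rw [tendsto_zero_iff_norm_tendsto_zero]
        refine (hsmall.comp hto).congr' ?_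
        filter_upwards [hball] with q hq
        have hq0 : q ≠ 0 := hq.2
        have hq1 : ‖q‖ < 1 := by simpa [mem_ball_zero_iff] using hq.1
        have him : 0 < (Function.Periodic.invQParam 1 q).im :=
          Function.Periodic.im_invQParam_pos_of_norm_lt_one one_pos hq1 hq0
        have e : ‖q‖ = Real.exp (-(2 * π * (ofComplex (Function.Periodic.invQParam 1 q)).im)) := by
          rw [← norm_qParam_one, ofComplex_apply_of_im_pos him]
          exact (congrArg norm (Function.Periodic.qParam_right_inv one_ne_zero hq0)).symm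
        have e2 : φ q = f (ofComplex (Function.Periodic.invQParam 1 q)) :=
          Function.Periodic.cuspFunction_eq_of_nonzero _ _ hq0
        simp only [Function.comp_apply]
        rw [sub_zero, norm_div, norm_inv, div_inv_eq_mul, e, ← e2]
      · filter_upwards [hball] with q hq h0
        exact absurd (by simpa using h0) hq.2
    · rw [Asymptotics.isLittleO_iff_tendsto']
      · have : Tendsto (fun q : ℂ => φ 0 * q) (𝓝[≠] 0) (𝓝 0) := by
          simpa using ((tendsto_id (α := ℂ) (x := 𝓝 0)).mono_left nhdsWithin_le_nhds).const_mul (φ 0)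
        exact this.congr' (Filter.Eventually.of_forall fun q => by simp [div_eq_mul_inv])
      · filter_upwards [hball] with q hq h0
        exact absurd (by simpa using h0) hq.2
  have hlim := Complex.tendsto_limUnder_of_differentiable_on_punctured_nhds_of_isLittleO
    (c := (0 : ℂ)) (f := φ)
    (by
      filter_upwards [hball, self_mem_nhdsWithin] with q hq _
      exact (hdiff q hq).differentiableAt
        ((Metric.isOpen_ball.sdiff isClosed_singleton).mem_nhds hq))
    (by simpa using ho)
  set L := limUnder (𝓝[≠] (0 : ℂ)) φ with hL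
  have hfT : Tendsto f atImInfty (𝓝 L) := by
    refine (hlim.comp ((Function.Periodic.qParam_tendsto one_pos).comp tendsto_coe_atImInfty)).congr
      fun τ => ?_
    exact UpperHalfPlane.eq_cuspFunction τ one_ne_zero hperC
  refine ⟨L, hfT, ?_⟩
  have hz : IsZeroAtImInfty (fun τ => f τ - L) := by
    have := hfT.sub_const L
    rw [sub_self] at this
    exact this
  have := hz.exp_decay_atImInfty (h := 1) one_pos
    (periodic_comp_ofComplex_of_vadd (fun τ => by rw [hper]))
    (by exact hf.sub mdifferentiable_const)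
  simpa using this hz.isBoundedAtImInfty

/-- The derivative of a bounded holomorphic function is bounded at `∞`. -/
lemma isBoundedAtImInfty_D {f : ℍ → ℂ} (hf : MDiff f) (hb : IsBoundedAtImInfty f) :
    IsBoundedAtImInfty (Derivative.normalizedDerivOfComplex f) := by
  obtain ⟨M, A, hMA⟩ := isBoundedAtImInfty_iff.mp hb
  refine isBoundedAtImInfty_iff.mpr ⟨‖((2 : ℂ) * π * I)⁻¹‖ * (max M 0 / 1), max A 0 + 2, fun z hz => ?_⟩
  have hz2 : max A 0 + 2 ≤ (z : ℂ).im := hz
  have hin : ∀ w ∈ Metric.closedBall (z : ℂ) 1, max A 0 + 1 ≤ w.im := by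
    intro w hw
    have h1 := Complex.abs_im_le_norm (w - z)
    rw [Metric.mem_closedBall, Complex.dist_eq] at hw
    rw [Complex.sub_im] at h1
    linarith [(abs_le.mp (h1.trans hw)).1]
  have hpos : ∀ w ∈ Metric.closedBall (z : ℂ) 1, 0 < w.im := fun w hw => by
    linarith [hin w hw, le_max_right A 0]
  have hd : DiffContOnCl ℂ (f ∘ ofComplex) (Metric.ball (z : ℂ) 1) := by
    refine DifferentiableOn.diffContOnCl_ball ((UpperHalfPlane.mdifferentiable_iff.mp hf).mono ?_)
      (R := 1) subset_rfl
    exact fun w hw => hpos w hw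
  have hbound : ∀ w ∈ Metric.sphere (z : ℂ) 1, ‖(f ∘ ofComplex) w‖ ≤ max M 0 := by
    intro w hw
    have hw' := Metric.sphere_subset_closedBall hw
    rw [Function.comp_apply, ofComplex_apply_of_im_pos (hpos w hw')]
    exact (hMA _ (by show A ≤ w.im; linarith [hin w hw', le_max_left A 0])).trans (le_max_left _ _)
  rw [Derivative.normalizedDerivOfComplex, norm_mul]
  exact mul_le_mul_of_nonneg_left (Complex.norm_deriv_le_of_forall_mem_sphere_norm_le one_pos hd hbound)
    (norm_nonneg _)

/-- A holomorphic function on `ℍ` with vanishing derivative is constant. -/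
lemma eq_const_of_D_eq_zero {f : ℍ → ℂ} (hf : MDiff f)
    (hD : Derivative.normalizedDerivOfComplex f = 0) :
    ∃ c, ∀ τ, f τ = c := by
  obtain ⟨a, ha⟩ := isOpen_upperHalfPlaneSet.exists_is_const_of_deriv_eq_zero
    (convex_halfSpace_im_gt 0).isPreconnected (UpperHalfPlane.mdifferentiable_iff.mp hf)
    (fun z hz => by
      have := congrFun hD ⟨z, hz⟩
      simpa [Derivative.normalizedDerivOfComplex] using this)
  exact ⟨a, fun τ => by simpa using ha (τ : ℂ) τ.2⟩

lemma D_mul_apply {f g : ℍ → ℂ} (hf : MDiff f) (hg : MDiff g) (τ : ℍ) :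
    Derivative.normalizedDerivOfComplex (f * g) τ =
      Derivative.normalizedDerivOfComplex f τ * g τ
        + f τ * Derivative.normalizedDerivOfComplex g τ := by
  rw [Derivative.normalizedDerivOfComplex_mul f g hf hg]; simp

/-- `D Δ = E₂ Δ`. -/
lemma D_discriminant (τ : ℍ) :
    Derivative.normalizedDerivOfComplex ModularForm.discriminant τ
      = EisensteinSeries.E2 τ * ModularForm.discriminant τ := by
  have hd := ModularForm.differentiableAt_eta_of_mem_upperHalfPlaneSet τ.2
  have hl := ModularForm.logDeriv_eta_eq_E2 τ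
  rw [logDeriv_apply, div_eq_iff (ModularForm.eta_ne_zero τ.2)] at hl
  have he : (ModularForm.discriminant ∘ ofComplex) =ᶠ[𝓝 (τ : ℂ)]
      fun z => ModularForm.eta z ^ 24 := by
    filter_upwards [isOpen_upperHalfPlaneSet.mem_nhds τ.im_pos] with z hz
    simp [ModularForm.discriminant, ofComplex_apply_of_im_pos hz]
  rw [Derivative.normalizedDerivOfComplex, he.deriv_eq, (hd.hasDerivAt.fun_pow 24).deriv, hl,
    ModularForm.discriminant]
  have hpi : ((2 : ℂ) * π * I) ≠ 0 := by simp [Complex.I_ne_zero, Real.pi_ne_zero]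
  field_simp
  push_cast
  ring

lemma isZeroAtImInfty_mul {f g : ℍ → ℂ} (hf : IsBoundedAtImInfty f) (hg : IsZeroAtImInfty g) :
    IsZeroAtImInfty (f * g) := by
  refine (Asymptotics.isLittleO_one_iff ℂ).mp ?_
  have h1 : f =O[atImInfty] (fun _ => (1 : ℂ)) := by
    rw [← Asymptotics.isBigO_norm_right]; simp only [norm_one]
    exact hf
  have h2 : g =o[atImInfty] (fun _ => (1 : ℂ)) := (Asymptotics.isLittleO_one_iff ℂ).mpr hg
  have := h1.mul_isLittleO h2
  simp only [mul_one] at this
  exact this

/-- Dividing an `O(q)` function by `Δ` gives a bounded function. -/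
lemma isBoundedAtImInfty_div_discriminant {f : ℍ → ℂ}
    (hf : f =O[atImInfty] fun τ : ℍ => Real.exp (-(2 * π * τ.im))) :
    IsBoundedAtImInfty (fun τ => f τ / ModularForm.discriminant τ) := by
  have h : f =O[atImInfty] ModularForm.discriminant :=
    hf.trans (by simpa using ModularForm.exp_isBigO_discriminant)
  obtain ⟨C, hC⟩ := h.bound
  rw [IsBoundedAtImInfty, BoundedAtFilter]
  refine IsBigO.of_bound C ?_
  filter_upwards [hC] with τ hτ
  simp only [Pi.one_apply, norm_one, mul_one, norm_div]
  rwa [div_le_iff₀ (norm_pos_iff.mpr (ModularForm.discriminant_ne_zero τ))]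

lemma atImInfty_neBot : (atImInfty).NeBot := by
  refine Filter.comap_neBot fun t ht => ?_
  obtain ⟨A, hA⟩ := Filter.mem_atTop_sets.mp ht
  refine ⟨⟨⟨0, max A 1⟩, by show 0 < max A 1; positivity⟩, hA _ ?_⟩
  exact le_max_left A 1

/-- `exp(2π i m τ)` tends to a nonzero limit only for `m = 0`. -/
lemma eq_zero_of_tendsto_qpow {m : ℝ} {L : ℂ} (hL : L ≠ 0)
    (h : Tendsto (qpow m) atImInfty (𝓝 L)) : m = 0 := by
  haveI := atImInfty_neBot
  have him : Tendsto (fun τ : ℍ => τ.im) atImInfty atTop := tendsto_comap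
  have hn := h.norm
  simp only [norm_qpow] at hn
  rcases lt_trichotomy m 0 with hm | hm | hm
  · have : Tendsto (fun τ : ℍ => Real.exp (-(2 * π * m * τ.im))) atImInfty atTop := by
      refine Real.tendsto_exp_atTop.comp ?_
      have : 0 < -(2 * π * m) := by nlinarith [Real.pi_pos]
      simpa [neg_mul] using him.const_mul_atTop this
    exact absurd hn (not_tendsto_nhds_of_tendsto_atTop this _)
  · exact hm
  · have : Tendsto (fun τ : ℍ => Real.exp (-(2 * π * m * τ.im))) atImInfty (𝓝 0) := by
      refine Real.tendsto_exp_atBot.comp ?_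
      have : -(2 * π * m) < 0 := by nlinarith [Real.pi_pos]
      simpa [neg_mul] using him.const_mul_atTop_of_neg this
    exact absurd (norm_eq_zero.mp (tendsto_nhds_unique hn this)) hL

lemma tendsto_qpow_of_pos {m : ℝ} (hm : 0 < m) : Tendsto (qpow m) atImInfty (𝓝 0) := by
  rw [tendsto_zero_iff_norm_tendsto_zero]
  simp only [norm_qpow]
  refine Real.tendsto_exp_atBot.comp ?_
  have : -(2 * π * m) < 0 := by nlinarith [Real.pi_pos]
  have him : Tendsto (fun τ : ℍ => τ.im) atImInfty atTop := tendsto_comap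
  simpa [neg_mul] using him.const_mul_atTop_of_neg this

lemma tendsto_discriminant_div_q :
    Tendsto (fun τ => ModularForm.discriminant τ * qpow (-1) τ) atImInfty (𝓝 1) := by
  refine ModularForm.tendsto_atImInfty_tprod_one_sub_eta_q_pow.congr fun τ => ?_
  have : qpow 1 τ = Function.Periodic.qParam 1 (τ : ℂ) := by
    simp [qpow, Function.Periodic.qParam]
  rw [ModularForm.discriminant_eq_q_prod, ← this, mul_comm (qpow 1 τ), mul_assoc, ← qpow_add,
    add_neg_cancel, qpow_zero, mul_one]

end FA.Dim
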