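import Fermat.Agent.Dim.Free

/-!
# Behaviour at `∞`: the leading coefficients
-/

set_option autoImplicit false

open Filter Topology Complex Asymptotics
open UpperHalfPlane hiding I
open scoped Real Manifold MatrixGroups ModularForm

namespace FA.Dim

variable (X : Type) [MulAction SL(2, ℤ) X]

/-- Orbits of `T`. -/
abbrev TOrb : Type := MulAction.orbitRel.Quotient (Subgroup.zpowers ModularGroup.T) X

variable {X}

/-- The width of a `T`-orbit. -/
noncomputable abbrev wid (o : TOrb X) : ℕ :=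
  Function.minimalPeriod (ModularGroup.T • ·) o.out

/-- The points of an orbit. -/
noncomputable def pt (o : TOrb X) (j : ZMod (wid o)) : X :=
  ModularGroup.T ^ (ZMod.cast j : ℤ) • o.out

lemma pt_intCast (o : TOrb X) (n : ℤ) : pt o (n : ZMod (wid o)) = ModularGroup.T ^ n • o.out := by
  rw [pt, ZMod.coe_intCast]
  exact MulAction.zpow_smul_mod_minimalPeriod _ _ n

lemma T_inv_smul_pt (o : TOrb X) (j : ZMod (wid o)) :
    ModularGroup.T⁻¹ • pt o j = pt o (j - 1) := by
  obtain ⟨n, rfl⟩ := ZMod.intCast_surjective j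
  rw [show (n : ZMod (wid o)) - 1 = ((n - 1 : ℤ) : ZMod (wid o)) by push_cast; ring, pt_intCast,
    pt_intCast, smul_smul, ← zpow_neg_one, ← zpow_add, neg_add_eq_sub]

variable (X) in
/-- `X` decomposed into cycles of `T`. -/
noncomputable def cycEquiv : X ≃ (o : TOrb X) × ZMod (wid o) :=
  (MulAction.selfEquivSigmaOrbits (Subgroup.zpowers ModularGroup.T) X).trans
    (Equiv.sigmaCongrRight fun q => MulAction.orbitZPowersEquiv ModularGroup.T q.out)

lemma cycEquiv_symm_apply (o : TOrb X) (j : ZMod (wid o)) :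
    (cycEquiv X).symm ⟨o, j⟩ = pt o j := rfl

variable [Fintype X]

instance wid_neZero (o : TOrb X) : NeZero (wid o) := by
  constructor
  intro h
  haveI : Infinite (ZMod (wid o)) := by rw [h]; exact inferInstanceAs (Infinite ℤ)
  have : Finite (ZMod (wid o)) :=
    Finite.of_injective (fun j => (cycEquiv X).symm ⟨o, j⟩)
      (fun a b h => eq_of_heq (Sigma.mk.inj_iff.mp ((cycEquiv X).symm.injective h)).2)
  exact not_finite (ZMod (wid o))

variable (X) in
/-- The exponent attached to an index. -/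
noncomputable def mu (e : X) : ℝ :=
  ((cycEquiv X e).2.val : ℝ) / (wid (cycEquiv X e).1 : ℝ)

lemma mu_nonneg (e : X) : 0 ≤ mu X e := by unfold mu; positivity

lemma mu_lt_one (e : X) : mu X e < 1 := by
  unfold mu
  rw [div_lt_one (Nat.cast_pos.mpr (Nat.pos_of_ne_zero (NeZero.ne _)))]
  exact_mod_cast ZMod.val_lt _

/-- The discrete Fourier transform along the cycles of `T`. -/
noncomputable def dft : (X → ℂ) →ₗ[ℂ] (X → ℂ) where
  toFun v e :=
    ∑ j : ZMod (wid (cycEquiv X e).1),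
      ZMod.stdAddChar (j * (cycEquiv X e).2) * v (pt (cycEquiv X e).1 j)
  map_add' v w := by ext e; simp [mul_add, Finset.sum_add_distrib]
  map_smul' c v := by ext e; simp [Finset.mul_sum, mul_left_comm]

lemma dft_apply (v : X → ℂ) (o : TOrb X) (s : ZMod (wid o)) :
    dft v ((cycEquiv X).symm ⟨o, s⟩) = ∑ j, ZMod.stdAddChar (j * s) * v (pt o j) := by
  have key : ∀ q : (o : TOrb X) × ZMod (wid o),
      dft v ((cycEquiv X).symm q) =
        ∑ j, ZMod.stdAddChar (j * q.2) * v (pt q.1 j) := by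
    intro q
    obtain ⟨e, rfl⟩ := (cycEquiv X).surjective q
    rw [Equiv.symm_apply_apply]
    rfl
  exact key ⟨o, s⟩

lemma dft_inverse (v : X → ℂ) (o : TOrb X) (j : ZMod (wid o)) :
    (wid o : ℂ) * v (pt o j)
      = ∑ s, ZMod.stdAddChar (-(j * s)) * dft v ((cycEquiv X).symm ⟨o, s⟩) := by
  classical
  simp only [dft_apply, Finset.mul_sum]
  rw [Finset.sum_comm]
  have : ∀ i : ZMod (wid o), ∑ s, ZMod.stdAddChar (-(j * s)) *
      (ZMod.stdAddChar (i * s) * v (pt o i))
      = (if i - j = 0 then (wid o : ℂ) else 0) * v (pt o i) := by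
    intro i
    simp only [← mul_assoc, ← AddChar.map_add_eq_mul, ← Finset.sum_mul]
    congr 1
    have h := AddChar.sum_mulShift (ψ := ZMod.stdAddChar (N := wid o)) (i - j)
      (ZMod.isPrimitive_stdAddChar _)
    rw [ZMod.card] at h
    rw [show (if i - j = 0 then (wid o : ℂ) else 0) = (((if i - j = 0 then wid o else 0) : ℕ) : ℂ) by
      split_ifs <;> simp, ← h]
    refine Finset.sum_congr rfl fun s _ => ?_
    congr 1
    ring
  simp only [this, sub_eq_zero, ite_mul, zero_mul, Finset.sum_ite_eq', Finset.mem_univ, if_true]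

lemma dft_injective : Function.Injective (dft (X := X)) := by
  rw [← LinearMap.ker_eq_bot, LinearMap.ker_eq_bot']
  intro v hv
  ext x
  obtain ⟨⟨o, j⟩, rfl⟩ := (cycEquiv X).symm.surjective x
  have := dft_inverse v o j
  simp only [hv, Pi.zero_apply, mul_zero, Finset.sum_const_zero] at this
  rw [cycEquiv_symm_apply]
  exact (mul_eq_zero.mp this).resolve_left (Nat.cast_ne_zero.mpr (NeZero.ne _))

/-- The Fourier components of a vector valued form. -/
noncomputable def phi (F : X → ℍ → ℂ) (e : X) (τ : ℍ) : ℂ := dft (fun x => F x τ) e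

/-- Normalised to period one. -/
noncomputable def phiN (F : X → ℍ → ℂ) (e : X) (τ : ℍ) : ℂ := phi F e τ * qpow (-(mu X e)) τ

lemma phi_eq_phiN (F : X → ℍ → ℂ) (e : X) (τ : ℍ) :
    phi F e τ = phiN F e τ * qpow (mu X e) τ := by
  rw [phiN, mul_assoc, ← qpow_add, neg_add_cancel, qpow_zero, mul_one]

lemma phi_vadd {k : ℤ} {F : X → ℍ → ℂ} (hF : F ∈ VForm X k) (e : X) (τ : ℍ) :
    phi F e ((1 : ℝ) +ᵥ τ) = Complex.exp (2 * π * I * mu X e) * phi F e τ := by
  obtain ⟨⟨o, s⟩, rfl⟩ := (cycEquiv X).symm.surjective e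
  simp only [phi, dft_apply, VForm.periodic hF, T_inv_smul_pt]
  have he : Complex.exp (2 * π * I * mu X ((cycEquiv X).symm ⟨o, s⟩))
      = ZMod.stdAddChar s := by
    have key : ∀ q : (o : TOrb X) × ZMod (wid o), mu X ((cycEquiv X).symm q)
        = (q.2.val : ℝ) / (wid q.1 : ℝ) := by
      intro q; unfold mu; rw [Equiv.apply_symm_apply]
    rw [key]
    conv_rhs => rw [← ZMod.natCast_zmod_val s, ← Int.cast_natCast, ZMod.stdAddChar_coe]
    push_cast
    ring_nf
  rw [he, Finset.mul_sum, ← Equiv.sum_comp (Equiv.addRight (1 : ZMod (wid o)))]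
  refine Finset.sum_congr rfl fun j _ => ?_
  simp only [Equiv.coe_addRight, add_sub_cancel_right, add_mul, one_mul]
  rw [AddChar.map_add_eq_mul]
  ring

lemma phiN_vadd {k : ℤ} {F : X → ℍ → ℂ} (hF : F ∈ VForm X k) (e : X) (τ : ℍ) :
    phiN F e ((1 : ℝ) +ᵥ τ) = phiN F e τ := by
  rw [phiN, phiN, phi_vadd hF, qpow_vadd]
  have : Complex.exp (2 * π * I * mu X e) * Complex.exp (2 * π * I * (-(mu X e) : ℝ) * (1 : ℝ))
      = 1 := by
    rw [← Complex.exp_add]
    push_cast
    ring_nf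
    exact Complex.exp_zero
  linear_combination (phi F e τ * qpow (-(mu X e)) τ) * this

lemma phi_mdiff {k : ℤ} {F : X → ℍ → ℂ} (hF : F ∈ VForm X k) (e : X) : MDiff (phi F e) := by
  have e1 : phi F e = ∑ j : ZMod (wid (cycEquiv X e).1), fun τ =>
      ZMod.stdAddChar (j * (cycEquiv X e).2) * F (pt (cycEquiv X e).1 j) τ := by
    funext τ; simp [phi, dft, Finset.sum_apply]
  rw [e1]
  exact MDifferentiable.sum fun j _ => mdifferentiable_const.mul (hF.1 _)

lemma phiN_mdiff {k : ℤ} {F : X → ℍ → ℂ} (hF : F ∈ VForm X k) (e : X) : MDiff (phiN F e) :=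
  (phi_mdiff hF e).mul (qpow_mdifferentiable _)

lemma phi_bounded {k : ℤ} {F : X → ℍ → ℂ} (hF : F ∈ VForm X k) (e : X) :
    IsBoundedAtImInfty (phi F e) := by
  have h : IsBoundedAtImInfty (∑ j : ZMod (wid (cycEquiv X e).1), fun τ =>
      ZMod.stdAddChar (j * (cycEquiv X e).2) * F (pt (cycEquiv X e).1 j) τ) :=
    (boundedAtImInftySubalgebra ℂ).sum_mem fun j _ => (boundedAtImInftySubalgebra ℂ).mul_mem
      (Filter.const_boundedAtFilter atImInfty _) (hF.2.2 _)
  convert h using 1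
  funext τ
  simp [phi, dft, Finset.sum_apply]

lemma phiN_small {k : ℤ} {F : X → ℍ → ℂ} (hF : F ∈ VForm X k) (e : X) :
    Tendsto (fun τ => ‖phiN F e τ‖ * Real.exp (-(2 * π * τ.im))) atImInfty (𝓝 0) := by
  obtain ⟨C, A, hC⟩ := isBoundedAtImInfty_iff.mp (phi_bounded hF e)
  have h1 : Tendsto (fun τ : ℍ => max C 0 * ‖qpow (1 - mu X e) τ‖) atImInfty (𝓝 0) := by
    have := (tendsto_qpow_of_pos (sub_pos.mpr (mu_lt_one e))).norm.const_mul (max C 0)
    simpa using this
  refine squeeze_zero' (.of_forall fun τ => by positivity) ?_ h1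
  filter_upwards [(atImInfty_mem _).mpr ⟨A, fun z hz => hz⟩] with τ hτ
  rw [phiN, norm_mul, norm_qpow, norm_qpow, mul_assoc, ← Real.exp_add,
    show -(2 * π * -mu X e * τ.im) + -(2 * π * τ.im) = -(2 * π * (1 - mu X e) * τ.im) by ring]
  exact mul_le_mul_of_nonneg_right ((hC τ hτ).trans (le_max_left _ _)) (Real.exp_nonneg _)

/-- The leading coefficient. -/
noncomputable def lead (F : X → ℍ → ℂ) (e : X) : ℂ := limUnder atImInfty (phiN F e)

lemma tendsto_lead {k : ℤ} {F : X → ℍ → ℂ} (hF : F ∈ VForm X k) (e : X) :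
    Tendsto (phiN F e) atImInfty (𝓝 (lead F e)) ∧
      (fun τ => phiN F e τ - lead F e) =O[atImInfty] fun τ : ℍ => Real.exp (-(2 * π * τ.im)) := by
  haveI := atImInfty_neBot
  obtain ⟨L, hL, hO⟩ := exists_limit_of_periodic (phiN_mdiff hF e) (phiN_vadd hF e) (phiN_small hF e)
  have : lead F e = L := hL.limUnder_eq
  rw [this]
  exact ⟨hL, hO⟩

lemma lead_vmul {a k : ℤ} {p : ℍ → ℂ} (hp : p ∈ L1 a) {L : ℂ} (hL : Tendsto p atImInfty (𝓝 L))
    {F : X → ℍ → ℂ} (hF : F ∈ VForm X k) (e : X) : lead (vmul p F) e = L * lead F e := by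
  haveI := atImInfty_neBot
  refine tendsto_nhds_unique (tendsto_lead (VForm.vmul_mem hp hF) e).1 ?_
  refine (hL.mul (tendsto_lead hF e).1).congr fun τ => ?_
  rw [phiN, phiN, phi, phi]
  have : (fun x => vmul p F x τ) = p τ • (fun x => F x τ) := rfl
  rw [this, map_smul, Pi.smul_apply, smul_eq_mul]
  ring

lemma lead_sum {k : ℤ} {ι : Type} (s : Finset ι) (c : ι → ℂ) {F : ι → X → ℍ → ℂ}
    (hF : ∀ i ∈ s, F i ∈ VForm X k) (e : X) :
    lead (∑ i ∈ s, c i • F i) e = ∑ i ∈ s, c i * lead (F i) e := by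
  haveI := atImInfty_neBot
  refine tendsto_nhds_unique (tendsto_lead (Submodule.sum_mem _ fun i hi =>
    Submodule.smul_mem _ (c i) (hF i hi)) e).1 ?_
  refine (tendsto_finsetSum s fun i hi => ((tendsto_lead (hF i hi) e).1.const_mul (c i))).congr
    fun τ => ?_
  simp only [phiN, phi]
  rw [show (fun x => (∑ i ∈ s, c i • F i) x τ) = ∑ i ∈ s, c i • fun x => F i x τ by
    ext x; simp [Finset.sum_apply], map_sum]
  simp only [map_smul, Finset.sum_apply, Pi.smul_apply, smul_eq_mul, Finset.sum_mul]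
  exact Finset.sum_congr rfl fun i _ => by ring

/-- A form with vanishing leading coefficients is divisible by `Δ`. -/
lemma div_del_of_lead_eq_zero {k : ℤ} {F : X → ℍ → ℂ} (hF : F ∈ VForm X k)
    (h0 : ∀ e, lead F e = 0) :
    (fun x τ => F x τ / del τ) ∈ VForm X (k - 12) := by
  refine ⟨fun x => (hF.1 x).div del_mdiff del_ne_zero, fun g x => ?_, fun x => ?_⟩
  · have := ModularForm.div_slash_SL2 k 12 g (F x) del
    rw [hF.2.1 g x, del_slash g] at this
    exact this
  · refine isBoundedAtImInfty_div_discriminant ?_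
    have hphi : ∀ e, phi F e =O[atImInfty] fun τ : ℍ => Real.exp (-(2 * π * τ.im)) := by
      intro e
      have h1 : phiN F e =O[atImInfty] fun τ : ℍ => Real.exp (-(2 * π * τ.im)) := by
        simpa [h0 e] using (tendsto_lead hF e).2
      have h2 : (fun τ => qpow (mu X e) τ) =O[atImInfty] fun _ : ℍ => (1 : ℝ) := by
        refine IsBigO.of_bound 1 (.of_forall fun τ => ?_)
        rw [norm_qpow, norm_one, one_mul, Real.exp_le_one_iff, neg_nonpos]
        have := mu_nonneg e; have := τ.im_pos.le; positivity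
      refine IsBigO.congr' (h1.mul h2) (.of_forall fun τ => (phi_eq_phiN F e τ).symm)
        (.of_forall fun τ => by simp)
    obtain ⟨⟨o, j⟩, rfl⟩ := (cycEquiv X).symm.surjective x
    have hsum : (fun τ => (wid o : ℂ) * F (pt o j) τ) =O[atImInfty]
        fun τ : ℍ => Real.exp (-(2 * π * τ.im)) := by
      have e1 : (fun τ => (wid o : ℂ) * F (pt o j) τ) = fun τ =>
          ∑ s, ZMod.stdAddChar (-(j * s)) * phi F ((cycEquiv X).symm ⟨o, s⟩) τ :=
        funext fun τ => dft_inverse (fun x => F x τ) o j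
      rw [e1]
      exact IsBigO.fun_sum fun s _ => (hphi _).const_mul_left _
    rw [cycEquiv_symm_apply]
    exact (isBigO_const_mul_left_iff (Nat.cast_ne_zero.mpr (NeZero.ne (wid o)))).mp hsum

/-- `∑ μ = (#X - #cusps)/2`. -/
lemma sum_mu : ∑ e, mu X e = ((Fintype.card X : ℝ) - Nat.card (TOrb X)) / 2 := by
  classical
  haveI : Fintype (TOrb X) := Fintype.ofFinite _
  rw [← Equiv.sum_comp (cycEquiv X).symm, Fintype.sum_sigma]
  have h1 : ∀ o : TOrb X, ∑ s : ZMod (wid o), mu X ((cycEquiv X).symm ⟨o, s⟩)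
      = ((wid o : ℝ) - 1) / 2 := by
    intro o
    have key : ∀ q : (o : TOrb X) × ZMod (wid o), mu X ((cycEquiv X).symm q)
        = (q.2.val : ℝ) / (wid q.1 : ℝ) := by
      intro q; unfold mu; rw [Equiv.apply_symm_apply]
    simp only [key, ← Finset.sum_div]
    obtain ⟨m, hm⟩ := Nat.exists_eq_succ_of_ne_zero (NeZero.ne (wid o))
    have hb : ∑ s : ZMod (wid o), ((s.val : ℕ) : ℝ) = ∑ i ∈ Finset.range (wid o), (i : ℝ) := by
      refine Finset.sum_nbij' (fun s => s.val) (fun i => (i : ZMod (wid o))) ?_ ?_ ?_ ?_ ?_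
      · intro s _; simpa using ZMod.val_lt s
      · intro i _; simp
      · intro s _; exact ZMod.natCast_zmod_val s
      · intro i hi; exact ZMod.val_natCast_of_lt (by simpa using hi)
      · intro s _; rfl
    rw [hb]
    have hs := Finset.sum_range_id_mul_two (wid o)
    have hs' : (∑ i ∈ Finset.range (wid o), (i : ℝ)) * 2 = (wid o : ℝ) * ((wid o : ℝ) - 1) := by
      rw [← Nat.cast_sum, ← Nat.cast_ofNat (R := ℝ) (n := 2), ← Nat.cast_mul, hs, Nat.cast_mul,
        Nat.cast_sub (by omega), Nat.cast_one]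
    have hw : (wid o : ℝ) ≠ 0 := Nat.cast_ne_zero.mpr (NeZero.ne _)
    field_simp
    linarith
  rw [Finset.sum_congr rfl fun o _ => h1 o, ← Finset.sum_div, Finset.sum_sub_distrib,
    Fintype.card_congr (cycEquiv X), Fintype.card_sigma]
  simp [ZMod.card, Nat.card_eq_fintype_card]

end FA.Dim
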