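import Fermat.Agent.Dim.Det

/-!
# The dimension of weight two cusp forms
-/

set_option autoImplicit false

open Filter Topology Complex Matrix
open UpperHalfPlane hiding I
open scoped Real Manifold MatrixGroups ModularForm

namespace FA.Dim

variable {X : Type} [MulAction SL(2, ℤ) X] [Fintype X]
  [MulAction.IsPretransitive SL(2, ℤ) X] [Nonempty X]

omit [Fintype X] [MulAction.IsPretransitive SL(2, ℤ) X] [Nonempty X] in
lemma VForm.const_mem (c : ℂ) : (fun (_ : X) (_ : ℍ) => c) ∈ VForm X 0 := by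
  refine ⟨fun _ => mdifferentiable_const, fun g x => ?_,
    fun _ => Filter.const_boundedAtFilter atImInfty c⟩
  exact ModularForm.is_invariant_const g c

/-- Weight zero forms are constant. -/
lemma VForm.eq_const_of_zero {F : X → ℍ → ℂ} (hF : F ∈ VForm X 0) :
    ∃ c : ℂ, F = fun _ _ => c := by
  obtain ⟨x₀⟩ := ‹Nonempty X›
  refine ⟨F x₀ UpperHalfPlane.I, ?_⟩
  have hG := sub_mem hF (VForm.const_mem (X := X) (F x₀ UpperHalfPlane.I))
  set G : X → ℍ → ℂ := F - fun _ _ => F x₀ UpperHalfPlane.I with hGdef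
  have hP : (∏ x, G x) ∈ L1 0 := by
    refine ⟨MDifferentiable.prod fun x _ => hG.1 x, fun g => ?_,
      (boundedAtImInftySubalgebra ℂ).prod_mem fun x _ => hG.2.2 x⟩
    have h := ModularForm.prod_slash (k := 0) (f := G) (s := Finset.univ)
      (g := (g : GL (Fin 2) ℝ))
    rw [zero_mul] at h
    rw [ModularForm.SL_slash, h]
    simp only [← ModularForm.SL_slash, hG.2.1]
    rw [show |((Matrix.SpecialLinearGroup.toGL
      ((Matrix.SpecialLinearGroup.map (Int.castRingHom ℝ)) g)).det).val| = 1 by simp,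
      _root_.one_zpow, one_smul]
    exact Equiv.prod_comp (MulAction.toPerm g⁻¹) (fun x => G x)
  obtain ⟨d, hd⟩ := L1.eq_const_of_zero hP
  have hd0 : d = 0 := by
    have := congrFun hd UpperHalfPlane.I
    rw [Finset.prod_apply, Finset.prod_eq_zero (Finset.mem_univ x₀) (by simp [hGdef])] at this
    exact this.symm
  obtain ⟨x, -, hx⟩ := (UpperHalfPlane.prod_eq_zero_iff fun x _ => hG.1 x).mp
    (hd.trans (by rw [hd0]; rfl))
  exact sub_eq_zero.mp (VForm.eq_zero_of_component hG hx)

lemma VCusp.eq_zero_of_zero {F : X → ℍ → ℂ} (hF : F ∈ VCusp X 0) : F = 0 := by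
  haveI := atImInfty_neBot
  obtain ⟨c, rfl⟩ := VForm.eq_const_of_zero hF.1
  obtain ⟨x⟩ := ‹Nonempty X›
  have : c = 0 := tendsto_nhds_unique (f := fun _ : ℍ => c) tendsto_const_nhds (hF.2 x)
  subst this; rfl

variable [DecidableEq X] (b : FreeBasis X)

namespace FreeBasis

/-- The number of generators of a given weight. -/
def num (k : ℤ) : ℕ := (Finset.univ.filter fun i => b.wt i = k).card

lemma wt_le_ten (i : X) : b.wt i ≤ 10 := by
  by_contra h
  obtain ⟨r, hr⟩ := b.wt_even i
  rcases show 12 - b.wt i < 0 ∨ 12 - b.wt i = 0 by omega with h' | h'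
  · exact b.dual_ne_zero i (VForm.eq_zero_of_neg h' (b.dual_mem i).1)
  · have := b.dual_mem i
    rw [h'] at this
    exact b.dual_ne_zero i (VCusp.eq_zero_of_zero this)

lemma wt_mem (i : X) : b.wt i ∈ ({0, 2, 4, 6, 8, 10} : Finset ℤ) := by
  obtain ⟨r, hr⟩ := b.wt_even i
  have := b.wt_nonneg i
  have := b.wt_le_ten i
  simp only [Finset.mem_insert, Finset.mem_singleton]
  omega

lemma sum_wt {M : Type} [AddCommMonoid M] (f : ℤ → M) :
    ∑ i, f (b.wt i) = b.num 0 • f 0 + b.num 2 • f 2 + b.num 4 • f 4 + b.num 6 • f 6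
      + b.num 8 • f 8 + b.num 10 • f 10 := by
  rw [← Finset.sum_fiberwise_of_maps_to (s := Finset.univ) (fun i _ => b.wt_mem i)]
  have : ∀ k, ∑ i ∈ Finset.univ.filter (fun i => b.wt i = k), f (b.wt i) = b.num k • f k := by
    intro k
    rw [Finset.sum_congr rfl fun i hi => by rw [(Finset.mem_filter.mp hi).2], Finset.sum_const]
    rfl
  simp only [this]
  simp [Finset.sum_insert, add_assoc]

lemma num_zero : b.num 0 = 1 := by
  classical
  set S := Finset.univ.filter (fun i => b.wt i = 0) with hS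
  have hne : S.Nonempty := by
    by_contra hne
    rw [Finset.not_nonempty_iff_eq_empty] at hne
    obtain ⟨p, hp, hF⟩ := b.span 0 _ (VForm.const_mem (X := X) 1)
    obtain ⟨x⟩ := ‹Nonempty X›
    have := congrFun (congrFun hF x) UpperHalfPlane.I
    simp only [Finset.sum_apply, vmul_apply, Pi.mul_apply] at this
    rw [Finset.sum_eq_zero fun i _ => by
      have hi : b.wt i ≠ 0 := fun h => by
        have : i ∈ S := by simp [hS, h]
        simp [hne] at this
      have := b.wt_nonneg i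
      rw [L1.eq_zero_of_neg (by omega) (hp i)]; simp] at this
    exact one_ne_zero this
  show S.card = 1
  refine le_antisymm (Finset.card_le_one.mpr fun i hi j hj => ?_) hne.card_pos
  simp only [hS, Finset.mem_filter, Finset.mem_univ, true_and] at hi hj
  have key : ∀ i, b.wt i = 0 → ∃ c : ℂ, c ≠ 0 ∧ b.B i = fun _ _ => c := by
    intro i hi
    have := b.mem i
    rw [hi] at this
    obtain ⟨c, hc⟩ := VForm.eq_const_of_zero this
    refine ⟨c, fun h0 => ?_, hc⟩
    refine b.lead_indep.ne_zero i ?_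
    have : b.B i = (0 : ℂ) • b.B i := by rw [zero_smul, hc, h0]; rfl
    funext e
    rw [this]
    simpa using lead_sum (X := X) (k := b.wt i) ({i} : Finset X) (fun _ => 0)
      (F := fun _ => b.B i) (fun _ _ => b.mem i) e
  by_contra hij
  obtain ⟨ci, hci, hBi⟩ := key i hi
  obtain ⟨cj, hcj, hBj⟩ := key j hj
  let p : X → ℍ → ℂ := fun r => if r = i then (fun _ => cj) else if r = j then (fun _ => -ci) else 0
  have hp : ∀ r, p r ∈ L1 (0 - b.wt r) := by
    intro r
    simp only [p]
    have hc : ∀ c : ℂ, (fun _ : ℍ => c) ∈ L1 0 := fun c =>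
      ⟨mdifferentiable_const, fun g => ModularForm.is_invariant_const g c,
        Filter.const_boundedAtFilter atImInfty c⟩
    split_ifs with h1 h2
    · subst h1; rw [hi]; exact hc _
    · subst h2; rw [hj]; exact hc _
    · exact zero_mem _
  have h0 := b.indep 0 p hp (by
    ext x τ
    simp only [Finset.sum_apply, vmul_apply, Pi.mul_apply, Pi.zero_apply]
    rw [← Finset.sum_subset (Finset.subset_univ {i, j}) (fun r _ hr => by
      simp only [Finset.mem_insert, Finset.mem_singleton, not_or] at hr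
      simp [p, hr.1, hr.2]), Finset.sum_pair hij]
    simp [p, Ne.symm hij, hBi, hBj]; ring) i
  have := congrFun h0 UpperHalfPlane.I
  simp [p] at this
  exact hcj this

/-- The trace identity at a fixed point. -/
lemma trace_fixed (g : SL(2, ℤ)) (τ₀ : ℍ) (hτ : g • τ₀ = τ₀) :
    (Nat.card {x : X // g • x = x} : ℂ) = ∑ i, (denom (g : GL (Fin 2) ℝ) τ₀) ^ (-(b.wt i)) := by
  classical
  set σ : Equiv.Perm X := MulAction.toPerm g⁻¹ with hσ
  set d : X → ℂ := fun i => (denom (g : GL (Fin 2) ℝ) τ₀) ^ (-(b.wt i)) with hd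
  set P : Matrix X X ℂ := fun x y => if x = σ y then 1 else 0 with hP
  have hAP : b.A τ₀ * P = Matrix.diagonal d * b.A τ₀ := by
    ext i y
    rw [Matrix.diagonal_mul, Matrix.mul_apply]
    simp only [hP, mul_ite, mul_one, mul_zero, Finset.sum_ite_eq', Finset.mem_univ, if_true]
    have := congrFun ((b.mem i).2.1 g y) τ₀
    rw [ModularForm.SL_slash_apply, hτ] at this
    show b.B i (g⁻¹ • y) τ₀ = d i * b.B i y τ₀
    rw [← this, hd, mul_comm]
  have hu : IsUnit (b.A τ₀).det := isUnit_iff_ne_zero.mpr (b.W_ne_zero τ₀)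
  have hPeq : P = (b.A τ₀)⁻¹ * (Matrix.diagonal d * b.A τ₀) := by
    rw [← hAP, ← Matrix.mul_assoc, Matrix.nonsing_inv_mul _ hu, Matrix.one_mul]
  have htr := congrArg Matrix.trace hPeq
  rw [Matrix.trace_mul_comm, Matrix.mul_assoc, Matrix.mul_nonsing_inv _ hu, Matrix.mul_one,
    Matrix.trace_diagonal] at htr
  show _ = ∑ i, d i
  rw [← htr]
  simp only [Matrix.trace, Matrix.diag, hP, Finset.sum_boole]
  congr 1
  rw [Nat.card_eq_fintype_card, Fintype.card_subtype]
  congr 1
  refine Finset.filter_congr fun x _ => ?_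
  simp only [hσ, MulAction.toPerm_apply]
  rw [eq_inv_smul_iff]

/-- The fixed point of `S`. -/
lemma equation_S :
    (Nat.card {x : X // ModularGroup.S • x = x} : ℤ)
      = b.num 0 - b.num 2 + b.num 4 - b.num 6 + b.num 8 - b.num 10 := by
  have h := b.trace_fixed ModularGroup.S UpperHalfPlane.I (by
    rw [modular_S_smul]; ext; simp [Complex.inv_I])
  rw [b.sum_wt fun k => (denom (ModularGroup.S : GL (Fin 2) ℝ) UpperHalfPlane.I) ^ (-k)] at h
  have hd : denom (ModularGroup.S : GL (Fin 2) ℝ) UpperHalfPlane.I = Complex.I := by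
    simp [denom, ModularGroup.coe_S]
  simp only [hd, nsmul_eq_mul] at h
  have h2 : Complex.I ^ (-(2 : ℤ)) = -1 := by rw [_root_.zpow_neg, zpow_two, Complex.I_mul_I]; norm_num
  have hz : ∀ n : ℕ, Complex.I ^ (-(2 * n : ℤ)) = (-1) ^ n := fun n => by
    rw [neg_mul_eq_neg_mul, _root_.zpow_mul, h2, zpow_natCast]
  rw [show (-0 : ℤ) = -(2 * (0 : ℕ)) by simp, show (-4 : ℤ) = -(2 * (2 : ℕ)) by simp,
    show (-6 : ℤ) = -(2 * (3 : ℕ)) by simp, show (-8 : ℤ) = -(2 * (4 : ℕ)) by simp,
    show (-10 : ℤ) = -(2 * (5 : ℕ)) by simp, hz, hz, hz, hz, hz, h2] at h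
  norm_num at h
  have : ((Nat.card {x : X // ModularGroup.S • x = x} : ℤ) : ℂ)
      = ((b.num 0 - b.num 2 + b.num 4 - b.num 6 + b.num 8 - b.num 10 : ℤ) : ℂ) := by
    push_cast
    simp only [Nat.card_eq_fintype_card] at h ⊢
    linear_combination h
  exact_mod_cast this

/-- The cube root of unity in `ℍ`. -/
noncomputable def omegaPt : ℍ :=
  ⟨-(1 / 2 : ℝ) + (Real.sqrt 3 / 2 : ℝ) * Complex.I, by simp⟩

omit b in
lemma omegaPt_sq : (omegaPt : ℂ) ^ 2 + (omegaPt : ℂ) + 1 = 0 := by
  have h3 : ((Real.sqrt 3 : ℝ) : ℂ) ^ 2 = 3 := by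
    rw [← Complex.ofReal_pow, Real.sq_sqrt (by norm_num)]; norm_num
  show ((-(1 / 2 : ℝ) : ℂ) + (Real.sqrt 3 / 2 : ℝ) * Complex.I) ^ 2 + _ + 1 = 0
  have hI := Complex.I_sq
  simp only [omegaPt]
  push_cast
  linear_combination (Complex.I ^ 2 / 4) * h3 + (3 / 4 : ℂ) * hI

/-- The fixed point of `S T`. -/
lemma equation_ST :
    b.num 2 + b.num 8 = b.num 4 + b.num 10 ∧
    (Nat.card {x : X // (ModularGroup.S * ModularGroup.T) • x = x} : ℤ)
      = b.num 0 + b.num 6 - b.num 4 - b.num 10 := by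
  set z : ℂ := (omegaPt : ℂ) with hz
  have hq := omegaPt_sq
  rw [← hz] at hq
  have hden : denom ((ModularGroup.S * ModularGroup.T : SL(2, ℤ)) : GL (Fin 2) ℝ) omegaPt
      = z + 1 := by
    simp [denom, ModularGroup.coe_S, ModularGroup.coe_T, Matrix.mul_apply, Fin.sum_univ_two, hz]
  have hfix : (ModularGroup.S * ModularGroup.T) • omegaPt = omegaPt := by
    rw [mul_smul, modular_T_smul, modular_S_smul]
    ext
    show (-(((1 : ℝ) +ᵥ omegaPt : ℍ) : ℂ))⁻¹ = z
    rw [UpperHalfPlane.coe_vadd, ← hz]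
    refine inv_eq_of_mul_eq_one_left ?_
    push_cast
    linear_combination -hq
  have h := b.trace_fixed _ omegaPt hfix
  rw [b.sum_wt fun k => (denom ((ModularGroup.S * ModularGroup.T : SL(2, ℤ)) : GL (Fin 2) ℝ)
    omegaPt) ^ (-k)] at h
  simp only [hden, nsmul_eq_mul] at h
  have hz3 : z ^ 3 = 1 := by linear_combination (z - 1) * hq
  have h2 : (z + 1) ^ (-(2 : ℤ)) = z ^ 2 := by
    rw [_root_.zpow_neg]
    refine inv_eq_of_mul_eq_one_left ?_
    rw [zpow_two]
    linear_combination (z ^ 2 + z - 1) * hq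
  have hzn : ∀ n : ℕ, (z + 1) ^ (-(2 * n : ℤ)) = (z ^ 2) ^ n := fun n => by
    rw [neg_mul_eq_neg_mul, _root_.zpow_mul, h2, zpow_natCast]
  rw [show (-0 : ℤ) = -(2 * (0 : ℕ)) by simp, show (-4 : ℤ) = -(2 * (2 : ℕ)) by simp,
    show (-6 : ℤ) = -(2 * (3 : ℕ)) by simp, show (-8 : ℤ) = -(2 * (4 : ℕ)) by simp,
    show (-10 : ℤ) = -(2 * (5 : ℕ)) by simp, hzn, hzn, hzn, hzn, hzn, h2] at h
  set ν := Nat.card {x : X // (ModularGroup.S * ModularGroup.T) • x = x}
  -- `a + c z = 0` with `z` not real forces `a = c = 0`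
  set a : ℤ := (b.num 0 : ℤ) + b.num 6 - b.num 2 - b.num 8 - ν with ha
  set c : ℤ := (b.num 4 : ℤ) + b.num 10 - b.num 2 - b.num 8 with hc
  have hac : (a : ℂ) + (c : ℂ) * z = 0 := by
    simp only [ha, hc]
    push_cast
    linear_combination -h - (b.num 2 : ℂ) * hq - (b.num 4 : ℂ) * z * hz3
      - (b.num 6 : ℂ) * (z ^ 3 + 1) * hz3
      - (b.num 8 : ℂ) * (z ^ 2 * (z ^ 3 + 1)) * hz3 - (b.num 8 : ℂ) * hq
      - (b.num 10 : ℂ) * (z * (z ^ 6 + z ^ 3 + 1)) * hz3
  have him : (c : ℝ) * (Real.sqrt 3 / 2) = 0 := by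
    have := congrArg Complex.im hac
    simpa [hz, omegaPt] using this
  have hc0 : c = 0 := by
    have : (0 : ℝ) < Real.sqrt 3 / 2 := by positivity
    exact_mod_cast (mul_eq_zero.mp him).resolve_right this.ne'
  have ha0 : a = 0 := by
    rw [hc0, Int.cast_zero, zero_mul, add_zero] at hac
    exact_mod_cast hac
  constructor
  · omega
  · omega

/-- Weighted count. -/
lemma equation_weight :
    2 * b.num 2 + 4 * b.num 4 + 6 * b.num 6 + 8 * b.num 8 + 10 * b.num 10
      = (6 * ((Fintype.card X : ℤ) - Nat.card (TOrb X)) : ℤ) := by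
  have h1 := b.K_eq_and_ne_zero.1
  rw [sum_mu] at h1
  have h2 : (b.K : ℤ) = ∑ i, b.wt i := by
    rw [K, Nat.cast_sum]
    exact Finset.sum_congr rfl fun i _ => Int.toNat_of_nonneg (b.wt_nonneg i)
  have h3 := b.sum_wt (fun k => k)
  rw [← h2] at h3
  simp only [nsmul_eq_mul, mul_zero, zero_add] at h3
  have h4 : ((b.K : ℤ) : ℝ) = ((6 * ((Fintype.card X : ℤ) - Nat.card (TOrb X)) : ℤ) : ℝ) := by
    push_cast
    linarith
  have h5 : (b.K : ℤ) = 6 * ((Fintype.card X : ℤ) - Nat.card (TOrb X)) := by exact_mod_cast h4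
  push_cast at h3 ⊢
  linarith

lemma equation_total :
    b.num 0 + b.num 2 + b.num 4 + b.num 6 + b.num 8 + b.num 10 = Fintype.card X := by
  have h := b.sum_wt (fun _ => (1 : ℕ))
  simp at h
  exact h.symm

/-- The number of weight ten generators. -/
theorem num_ten :
    12 * (b.num 10 : ℤ) = 12 + Fintype.card X
      - 3 * (Nat.card {x : X // ModularGroup.S • x = x} : ℤ)
      - 4 * (Nat.card {x : X // (ModularGroup.S * ModularGroup.T) • x = x} : ℤ)
      - 6 * (Nat.card (TOrb X) : ℤ) := by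
  have h0 := b.num_zero
  have h1 := b.equation_S
  obtain ⟨h2, h3⟩ := b.equation_ST
  have h4 := b.equation_weight
  have h5 := b.equation_total
  push_cast at h4
  omega

/-- The weight two cusp forms are spanned by the duals of the weight ten generators. -/
theorem finrank_cusp_two : Module.finrank ℂ (VCusp X 2) = b.num 10 := by
  classical
  let T : Finset X := Finset.univ.filter (fun i => b.wt i = 10)
  have hTm : ∀ i : T, b.dual i.1 ∈ VCusp X 2 := fun i => by
    have := b.dual_mem i.1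
    rwa [(Finset.mem_filter.mp i.2).2, show (12 : ℤ) - 10 = 2 by norm_num] at this
  let v : T → VCusp X 2 := fun i => ⟨b.dual i.1, hTm i⟩
  have hli : LinearIndependent ℂ v := by
    rw [Fintype.linearIndependent_iff]
    intro c hc j
    have h := congrArg (fun G : VCusp X 2 =>
      ∑ x, b.B j.1 x UpperHalfPlane.I * (G : X → ℍ → ℂ) x UpperHalfPlane.I) hc
    simp only [Submodule.coe_sum, Submodule.coe_smul, Finset.sum_apply, Pi.smul_apply,
      smul_eq_mul, Submodule.coe_zero, Pi.zero_apply, mul_zero, Finset.sum_const_zero,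
      Finset.mul_sum, v] at h
    rw [Finset.sum_comm] at h
    have : ∀ i : T, ∑ x, b.B j.1 x UpperHalfPlane.I * (c i * b.dual i.1 x UpperHalfPlane.I)
        = if i = j then c i * del UpperHalfPlane.I else 0 := by
      intro i
      have e := b.sum_B_dual i.1 j.1 UpperHalfPlane.I
      simp only [mul_left_comm _ (c i), ← Finset.mul_sum, e]
      by_cases hij : i = j
      · subst hij; simp
      · have : ¬ (j : X) = i := fun h => hij (Subtype.ext h.symm)
        simp [hij, this]
    simp only [this, Finset.sum_ite_eq', Finset.mem_univ, if_true] at h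
    exact (mul_eq_zero.mp h).resolve_right (del_ne_zero _)
  have hspan : ⊤ ≤ Submodule.span ℂ (Set.range v) := by
    rintro ⟨F, hF⟩ -
    have hr : ∀ i, ∃ c : ℂ, (∀ τ, vdot (b.B i) F τ = c * del τ) ∧ (b.wt i ≠ 10 → c = 0) := by
      intro i
      have h := L1.div_del (VForm.vdot_mem (b.mem i) hF.1) (VCusp.vdot_tendsto (b.mem i) hF)
      have hwi := b.wt_le_ten i
      obtain ⟨r, hr⟩ := b.wt_even i
      rcases eq_or_ne (b.wt i) 10 with h10 | h10
      · rw [h10, show (10 : ℤ) + 2 - 12 = 0 by norm_num] at h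
        obtain ⟨c, hc⟩ := L1.eq_const_of_zero h
        refine ⟨c, fun τ => ?_, fun h => absurd h10 h⟩
        have := congrFun hc τ
        rwa [div_eq_iff (del_ne_zero τ)] at this
      · have h0 := L1.eq_zero_of_neg (by omega) h
        refine ⟨0, fun τ => ?_, fun _ => rfl⟩
        have := congrFun h0 τ
        simpa [del_ne_zero] using this
    choose c hc hc0 using hr
    have hF' : F = ∑ i : T, c i.1 • b.dual i.1 := by
      rw [Finset.sum_coe_sort T (fun i => c i • b.dual i),
        Finset.sum_subset (Finset.subset_univ T) (fun i _ hi => by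
          rw [hc0 i (fun h => hi (by simp [T, h]))]; simp)]
      funext x τ
      have hinj := Matrix.mulVec_injective_iff_isUnit.mpr ((Matrix.isUnit_iff_isUnit_det
        (A := b.A τ)).mpr (isUnit_iff_ne_zero.mpr (b.W_ne_zero τ)))
      refine congrFun (hinj (a₁ := fun y => F y τ)
        (a₂ := fun y => (∑ i, c i • b.dual i) y τ) ?_) x
      funext j
      simp only [Matrix.mulVec, dotProduct, A]
      have e1 : ∑ y, b.B j y τ * F y τ = c j * del τ := by
        rw [← hc j τ, vdot, Finset.sum_apply]; rfl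
      rw [e1]
      simp only [Finset.sum_apply, Pi.smul_apply, smul_eq_mul, Finset.mul_sum]
      rw [Finset.sum_comm]
      simp only [mul_left_comm _ (c _), ← Finset.mul_sum, b.sum_B_dual, mul_ite, mul_zero]
      simp
    rw [Submodule.mem_span_range_iff_exists_fun]
    refine ⟨fun i => c i.1, Subtype.ext ?_⟩
    simp only [Submodule.coe_sum, Submodule.coe_smul, v]
    exact hF'.symm
  rw [Module.finrank_eq_card_basis (Module.Basis.mk hli hspan), Fintype.card_coe]
  rfl

end FreeBasis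

end FA.Dim
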