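import Fermat.Agent.Dim.Square

/-!
# The determinant of a free basis, and the dual basis
-/

set_option autoImplicit false

open Filter Topology Complex Matrix
open UpperHalfPlane hiding I
open scoped Real Manifold MatrixGroups ModularForm Derivative

namespace FA.Dim

variable {X : Type} [MulAction SL(2, ℤ) X] [Fintype X] [DecidableEq X] (b : FreeBasis X)

namespace FreeBasis

/-- The matrix of values. -/
def A (τ : ℍ) : Matrix X X ℂ := fun i x => b.B i x τ

/-- Its determinant. -/
noncomputable def W (τ : ℍ) : ℂ := (b.A τ).det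

variable (X) in
/-- The matrix of the Fourier transform along cusps. -/
noncomputable def V : Matrix X X ℂ := (LinearMap.toMatrix' (dft (X := X)))ᵀ

/-- The normalised matrix at infinity. -/
noncomputable def Psi (τ : ℍ) : Matrix X X ℂ := fun i e => phiN (b.B i) e τ

/-- Its limit. -/
noncomputable def Lead : Matrix X X ℂ := fun i e => lead (b.B i) e

omit b in
lemma det_V_ne_zero : (V X).det ≠ 0 := by
  rw [V, Matrix.det_transpose, Ne, ← Matrix.exists_mulVec_eq_zero_iff]
  rintro ⟨v, hv0, hv⟩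
  rw [LinearMap.toMatrix'_mulVec] at hv
  exact hv0 (dft_injective (by rw [hv, map_zero]))

lemma A_mul_V (τ : ℍ) :
    b.A τ * V X = b.Psi τ * Matrix.diagonal (fun e => qpow (mu X e) τ) := by
  ext i e
  rw [Matrix.mul_diagonal]
  show _ = phiN (b.B i) e τ * _
  rw [← phi_eq_phiN, phi]
  have h := congrFun (LinearMap.toMatrix'_mulVec (dft (X := X)) (fun x => b.B i x τ)) e
  rw [← h]
  simp only [Matrix.mul_apply, Matrix.mulVec, dotProduct, V, A, Matrix.transpose_apply]
  exact Finset.sum_congr rfl fun x _ => mul_comm _ _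

lemma tendsto_Psi : Tendsto b.Psi atImInfty (𝓝 b.Lead) :=
  tendsto_pi_nhds.mpr fun i => tendsto_pi_nhds.mpr fun e => (tendsto_lead (b.mem i) e).1

lemma det_Lead_ne_zero : b.Lead.det ≠ 0 := by
  rw [← isUnit_iff_ne_zero, ← Matrix.isUnit_iff_isUnit_det,
    ← Matrix.linearIndependent_rows_iff_isUnit]
  exact b.lead_indep

lemma tendsto_det_Psi : Tendsto (fun τ => (b.Psi τ).det) atImInfty (𝓝 b.Lead.det) :=
  ((continuous_id.matrix_det).tendsto b.Lead).comp b.tendsto_Psi

lemma W_mdiff : MDiff b.W := by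
  have : b.W = ∑ σ : Equiv.Perm X, ((Equiv.Perm.sign σ : ℤ) : ℂ) • ∏ i, b.B i (σ i) := by
    funext τ
    simp only [W, Finset.sum_apply, Pi.smul_apply, Finset.prod_apply, smul_eq_mul]
    rw [← Matrix.det_transpose, Matrix.det_apply']
    rfl
  rw [this]
  exact MDifferentiable.sum fun σ _ =>
    (MDifferentiable.prod fun i _ => (b.mem i).1 (σ i)).const_smul _

/-- `W` in terms of the normalised matrix. -/
lemma W_mul_det_V (τ : ℍ) :
    b.W τ * (V X).det = (b.Psi τ).det * qpow (∑ e, mu X e) τ := by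
  rw [W, ← Matrix.det_mul, b.A_mul_V, Matrix.det_mul, Matrix.det_diagonal]
  congr 1
  rw [qpow]
  simp only [qpow, ← Complex.exp_sum]
  push_cast
  rw [Finset.mul_sum, Finset.sum_mul]

omit b in
lemma D_finsetSum {ι : Type} (s : Finset ι) {f : ι → ℍ → ℂ} (hf : ∀ i ∈ s, MDiff (f i)) :
    D (∑ i ∈ s, f i) = ∑ i ∈ s, D (f i) := by
  classical
  induction s using Finset.induction_on with
  | empty =>
    simp only [Finset.sum_empty]
    exact Derivative.normalizedDerivOfComplex_const 0
  | insert a s ha ih =>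
    rw [Finset.sum_insert ha, Finset.sum_insert ha, Derivative.normalizedDerivOfComplex_add _ _
      (hf a (Finset.mem_insert_self _ _))
      (MDifferentiable.sum fun i hi => hf i (Finset.mem_insert_of_mem hi)),
      ih fun i hi => hf i (Finset.mem_insert_of_mem hi)]

omit b in
lemma D_finsetProd {ι : Type} [DecidableEq ι] (s : Finset ι) {f : ι → ℍ → ℂ}
    (hf : ∀ i ∈ s, MDiff (f i)) :
    D (∏ i ∈ s, f i) = ∑ i ∈ s, D (f i) * ∏ j ∈ s.erase i, f j := by
  induction s using Finset.induction_on with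
  | empty =>
    simp only [Finset.prod_empty, Finset.sum_empty]
    exact Derivative.normalizedDerivOfComplex_const 1
  | insert a s ha ih =>
    rw [Finset.prod_insert ha, Derivative.normalizedDerivOfComplex_mul _ _
      (hf a (Finset.mem_insert_self _ _))
      (MDifferentiable.prod fun i hi => hf i (Finset.mem_insert_of_mem hi)),
      ih fun i hi => hf i (Finset.mem_insert_of_mem hi), Finset.sum_insert ha,
      Finset.erase_insert ha, Finset.mul_sum]
    congr 1
    refine Finset.sum_congr rfl fun i hi => ?_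
    have hia : a ≠ i := fun h => ha (h ▸ hi)
    rw [Finset.erase_insert_of_ne hia, Finset.prod_insert (fun h => ha (Finset.mem_of_mem_erase h))]
    ring

/-- The derivative of `W`. -/
lemma D_W (τ : ℍ) :
    D b.W τ = ∑ i, ((b.A τ).updateRow i (fun x => D (b.B i x) τ)).det := by
  classical
  have hW : b.W = ∑ σ : Equiv.Perm X, ((Equiv.Perm.sign σ : ℤ) : ℂ) • ∏ i, b.B i (σ i) := by
    funext τ
    simp only [W, Finset.sum_apply, Pi.smul_apply, Finset.prod_apply, smul_eq_mul]
    rw [← Matrix.det_transpose, Matrix.det_apply']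
    rfl
  have hm : ∀ σ : Equiv.Perm X, MDiff (∏ i, b.B i (σ i)) := fun σ =>
    MDifferentiable.prod fun i _ => (b.mem i).1 (σ i)
  rw [hW, D_finsetSum _ (fun σ _ => (hm σ).const_smul _), Finset.sum_apply]
  have h1 : ∀ i, ((b.A τ).updateRow i (fun x => D (b.B i x) τ)).det
      = ∑ σ : Equiv.Perm X, ((Equiv.Perm.sign σ : ℤ) : ℂ) *
          (D (b.B i (σ i)) τ * ∏ j ∈ Finset.univ.erase i, b.B j (σ j) τ) := by
    intro i
    rw [← Matrix.det_transpose, Matrix.det_apply']
    refine Finset.sum_congr rfl fun σ _ => ?_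
    congr 1
    rw [← Finset.mul_prod_erase Finset.univ _ (Finset.mem_univ i)]
    congr 1
    · simp [Matrix.updateRow_self]
    · refine Finset.prod_congr rfl fun j hj => ?_
      simp [Matrix.updateRow_ne (Finset.ne_of_mem_erase hj), A]
  simp only [h1]
  rw [Finset.sum_comm]
  refine Finset.sum_congr rfl fun σ _ => ?_
  rw [Derivative.normalizedDerivOfComplex_smul _ _ (hm σ),
    D_finsetProd _ (fun i _ => (b.mem i).1 (σ i))]
  simp [Finset.sum_apply, Finset.mul_sum, Finset.prod_apply]

/-- The total weight. -/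
def K : ℕ := ∑ i, (b.wt i).toNat

lemma K_eq : (b.K : ℂ) = ∑ i, (b.wt i : ℂ) := by
  have : (b.K : ℤ) = ∑ i, b.wt i := by
    rw [K, Nat.cast_sum]
    exact Finset.sum_congr rfl fun i _ => Int.toNat_of_nonneg (b.wt_nonneg i)
  exact_mod_cast congrArg (Int.cast : ℤ → ℂ) this

/-- The differential equation of `W`. -/
lemma W_ode (τ : ℍ) :
    D b.W τ = (b.K : ℂ) / 12 * EisensteinSeries.E2 τ * b.W τ := by
  rw [b.D_W, K_eq, Finset.sum_div, Finset.sum_mul, Finset.sum_mul]
  refine Finset.sum_congr rfl fun i _ => ?_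
  obtain ⟨p, hp, hpF⟩ := b.span _ _ (VForm.theta_mem (b.mem i))
  have hpi : p i = 0 := L1.eq_zero_of_two (by simpa using hp i)
  have hrow : (fun x => D (b.B i x) τ)
      = (∑ j, p j τ • (b.A τ) j) + ((b.wt i : ℂ) / 12 * EisensteinSeries.E2 τ) • (b.A τ) i := by
    ext x
    have h := congrFun (congrFun hpF x) τ
    simp only [Derivative.serreDerivative_apply, Finset.sum_apply, vmul_apply, Pi.mul_apply] at h
    simp only [Pi.add_apply, Finset.sum_apply, Pi.smul_apply, smul_eq_mul, A]
    linear_combination h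
  rw [hrow, Matrix.det_updateRow_add, Matrix.det_updateRow_sum, Matrix.det_updateRow_smul,
    Matrix.updateRow_eq_self, hpi]
  simp [W]

/-- `W ^ 12` is a constant multiple of `Δ ^ K`. -/
lemma exists_W_pow_eq : ∃ c : ℂ, ∀ τ, b.W τ ^ 12 = c * del τ ^ b.K := by
  have hdk : MDiff (del ^ b.K) := del_mdiff.pow _
  have hne : ∀ τ, (del ^ b.K) τ ≠ 0 := fun τ => pow_ne_zero _ (del_ne_zero τ)
  set R : ℍ → ℂ := fun τ => b.W τ ^ 12 / (del ^ b.K) τ with hR
  have hRm : MDiff R := (b.W_mdiff.pow 12).div hdk hne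
  have hprod : R * del ^ b.K = b.W ^ 12 := by
    funext τ
    simp only [Pi.mul_apply, hR, Pi.pow_apply]
    exact div_mul_cancel₀ _ (hne τ)
  have hD : D R = 0 := by
    funext τ
    have h := congrArg (fun f => D f τ) hprod
    simp only [Derivative.normalizedDerivOfComplex_mul _ _ hRm hdk,
      Derivative.normalizedDerivOfComplex_pow _ _ b.W_mdiff,
      Derivative.normalizedDerivOfComplex_pow _ _ del_mdiff, Pi.add_apply, Pi.mul_apply,
      Pi.pow_apply, Pi.natCast_apply, b.W_ode, D_discriminant] at h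
    have hp := congrFun hprod τ
    simp only [Pi.mul_apply, Pi.pow_apply] at hp
    have hK : (b.K : ℂ) * del τ ^ (b.K - 1) * del τ = (b.K : ℂ) * del τ ^ b.K := by
      rcases Nat.eq_zero_or_pos b.K with h0 | h0
      · simp [h0]
      · rw [mul_assoc, ← pow_succ, Nat.sub_add_cancel h0]
    have h' : D R τ * del τ ^ b.K = 0 := by
      push_cast at h
      linear_combination h - R τ * EisensteinSeries.E2 τ * hK
        - (b.K : ℂ) * EisensteinSeries.E2 τ * hp
    exact (mul_eq_zero.mp h').resolve_right (pow_ne_zero _ (del_ne_zero τ))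
  obtain ⟨c, hc⟩ := eq_const_of_D_eq_zero hRm hD
  refine ⟨c, fun τ => ?_⟩
  have := congrFun hprod τ
  simp only [Pi.mul_apply, Pi.pow_apply, hc τ] at this
  exact this.symm

lemma K_eq_and_ne_zero : (b.K : ℝ) = 12 * ∑ e, mu X e ∧ ∀ τ, b.W τ ≠ 0 := by
  haveI := atImInfty_neBot
  obtain ⟨c, hc⟩ := b.exists_W_pow_eq
  set m : ℝ := ∑ e, mu X e
  -- compare the growth at infinity
  have key : ∀ τ, c * (V X).det ^ 12 * (del τ * qpow (-1) τ) ^ b.K
      = (b.Psi τ).det ^ 12 * qpow (12 * m - b.K) τ := by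
    intro τ
    have h1 := congrArg (· ^ 12) (b.W_mul_det_V τ)
    simp only [mul_pow, hc τ] at h1
    have h2 : qpow m τ ^ 12 * qpow (-1) τ ^ b.K = qpow (12 * m - b.K) τ := by
      simp only [qpow, ← Complex.exp_nat_mul, ← Complex.exp_add]
      push_cast
      ring_nf
    rw [mul_pow, ← h2]
    linear_combination (qpow (-1) τ ^ b.K) * h1
  have hl : Tendsto (fun τ => c * (V X).det ^ 12 * (del τ * qpow (-1) τ) ^ b.K) atImInfty
      (𝓝 (c * (V X).det ^ 12)) := by
    simpa using (tendsto_discriminant_div_q.pow b.K).const_mul (c * (V X).det ^ 12)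
  have hψ : Tendsto (fun τ => (b.Psi τ).det ^ 12) atImInfty (𝓝 (b.Lead.det ^ 12)) :=
    b.tendsto_det_Psi.pow 12
  have hL12 := pow_ne_zero 12 b.det_Lead_ne_zero
  have hc0 : c ≠ 0 := by
    intro h0
    have hev : ∀ τ, (b.Psi τ).det ^ 12 = 0 := fun τ => by
      have := key τ
      rw [h0] at this
      simpa [qpow_ne_zero] using this.symm
    exact hL12 (tendsto_nhds_unique hψ (by simp only [hev]; exact tendsto_const_nhds))
  refine ⟨?_, fun τ h0 => ?_⟩
  · have hq : Tendsto (qpow (12 * m - b.K)) atImInfty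
        (𝓝 (c * (V X).det ^ 12 / b.Lead.det ^ 12)) := by
      refine (hl.div hψ hL12).congr' ?_
      filter_upwards [hψ.eventually_ne hL12] with τ hτ
      simp only [Pi.div_apply]
      rw [key τ, mul_comm, mul_div_assoc, div_self hτ, mul_one]
    have := eq_zero_of_tendsto_qpow
      (div_ne_zero (mul_ne_zero hc0 (pow_ne_zero 12 det_V_ne_zero)) hL12) hq
    linarith
  · have := hc τ
    rw [h0] at this
    simp [hc0, del_ne_zero] at this

lemma W_ne_zero (τ : ℍ) : b.W τ ≠ 0 := b.K_eq_and_ne_zero.2 τ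

/-! ### Dual basis -/

/-- The dual basis, of weights `12 - wt`. -/
noncomputable def dual (i : X) (x : X) (τ : ℍ) : ℂ := del τ * (b.A τ)⁻¹ x i

lemma sum_B_dual (i j : X) (τ : ℍ) :
    ∑ x, b.B j x τ * b.dual i x τ = if j = i then del τ else 0 := by
  have h := Matrix.mul_nonsing_inv (b.A τ) (isUnit_iff_ne_zero.mpr (b.W_ne_zero τ))
  have h2 := congrFun (congrFun h j) i
  rw [Matrix.mul_apply, Matrix.one_apply] at h2
  calc ∑ x, b.B j x τ * b.dual i x τ = del τ * ∑ x, b.A τ j x * (b.A τ)⁻¹ x i := by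
        rw [Finset.mul_sum]
        exact Finset.sum_congr rfl fun x _ => by simp [dual, A]; ring
    _ = _ := by rw [h2]; split_ifs <;> simp

lemma dual_mdiff (i x : X) : MDiff (b.dual i x) := by
  have h : b.dual i x
      = del * (fun τ => ((b.A τ).updateRow i (Pi.single x 1)).det) / b.W := by
    funext τ
    simp only [dual, Pi.div_apply, Pi.mul_apply, Matrix.inv_def, Matrix.smul_apply,
      Ring.inverse_eq_inv', smul_eq_mul, Matrix.adjugate_apply, W]
    ring
  rw [h]
  refine (del_mdiff.mul ?_).div b.W_mdiff b.W_ne_zero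
  have e : (fun τ => ((b.A τ).updateRow i (Pi.single x 1)).det) = ∑ σ : Equiv.Perm X,
      ((Equiv.Perm.sign σ : ℤ) : ℂ) • ∏ r, (if r = i then fun _ : ℍ => (Pi.single x (1 : ℂ) : X → ℂ) (σ r)
        else b.B r (σ r)) := by
    funext τ
    rw [← Matrix.det_transpose, Matrix.det_apply', Finset.sum_apply]
    refine Finset.sum_congr rfl fun σ _ => ?_
    simp only [Pi.smul_apply, Finset.prod_apply, smul_eq_mul]
    congr 1
    refine Finset.prod_congr rfl fun r _ => ?_
    by_cases hr : r = i <;> simp [hr, A, Matrix.updateRow_apply]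
  rw [e]
  refine MDifferentiable.sum fun σ _ =>
    (MDifferentiable.prod fun r _ => ?_).const_smul _
  split_ifs
  · exact mdifferentiable_const
  · exact (b.mem r).1 _

lemma dual_slash (i : X) (g : SL(2, ℤ)) (x : X) :
    b.dual i x ∣[(12 : ℤ) - b.wt i] g = b.dual i (g⁻¹ • x) := by
  funext τ
  set u : X → ℂ := fun y => (b.dual i (g • y) ∣[(12 : ℤ) - b.wt i] g) τ with hu
  have hu' : ∀ j, ∑ y, b.B j y τ * u y = if j = i then del τ else 0 := by
    intro j
    have h1 : ∀ y, b.B j y τ * u y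
        = ((b.B j (g • y) * b.dual i (g • y)) ∣[b.wt j + ((12 : ℤ) - b.wt i)] g) τ := by
      intro y
      rw [ModularForm.mul_slash_SL2, Pi.mul_apply, (b.mem j).2.1 g, inv_smul_smul]
    simp only [h1]
    rw [← Finset.sum_apply, ← SlashAction.sum_slash,
      show (∑ y, b.B j (g • y) * b.dual i (g • y)) = ∑ y, b.B j y * b.dual i y from
        Equiv.sum_comp (MulAction.toPerm g) (fun y => b.B j y * b.dual i y)]
    have h2 : ∑ y, b.B j y * b.dual i y = if j = i then del else 0 := by
      funext σ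
      rw [Finset.sum_apply]
      have := b.sum_B_dual i j σ
      simp only [Pi.mul_apply]
      rw [this]
      split_ifs <;> rfl
    rw [h2]
    split_ifs with hji
    · subst hji
      rw [show b.wt j + ((12 : ℤ) - b.wt j) = 12 by ring, del_slash]
    · simp
  have hAu : (b.A τ).mulVec u = Pi.single i (del τ) := by
    funext j
    rw [Pi.single_apply]
    exact hu' j
  have hAd : (b.A τ).mulVec (fun y => b.dual i y τ) = Pi.single i (del τ) := by
    funext j
    rw [Pi.single_apply]
    exact b.sum_B_dual i j τ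
  have hinj := Matrix.mulVec_injective_iff_isUnit.mpr
    ((Matrix.isUnit_iff_isUnit_det (A := b.A τ)).mpr (isUnit_iff_ne_zero.mpr (b.W_ne_zero τ)))
  have := congrFun (hinj (hAu.trans hAd.symm)) (g⁻¹ • x)
  simpa [hu] using this

lemma dual_isZero (i x : X) : IsZeroAtImInfty (b.dual i x) := by
  have hinv : Tendsto (fun τ => (b.Psi τ)⁻¹) atImInfty (𝓝 b.Lead⁻¹) :=
    (continuousAt_matrix_inv _ (by
      simp only [Ring.inverse_eq_inv']
      exact continuousAt_inv₀ b.det_Lead_ne_zero)).tendsto.comp b.tendsto_Psi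
  have h1 : Tendsto (fun τ => ∑ e, V X x e * ((del τ * qpow (-1) τ) * qpow (1 - mu X e) τ) *
      (b.Psi τ)⁻¹ e i) atImInfty (𝓝 0) := by
    have : (0 : ℂ) = ∑ e, V X x e * (1 * 0) * b.Lead⁻¹ e i := by simp
    rw [this]
    refine tendsto_finsetSum _ fun e _ => ?_
    refine Tendsto.mul ((tendsto_discriminant_div_q.mul
      (tendsto_qpow_of_pos (sub_pos.mpr (mu_lt_one e)))).const_mul _) ?_
    exact tendsto_pi_nhds.mp (tendsto_pi_nhds.mp hinv e) i
  refine h1.congr' ?_
  filter_upwards [b.tendsto_det_Psi.eventually_ne b.det_Lead_ne_zero] with τ hτ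
  have hψ : IsUnit (b.Psi τ).det := isUnit_iff_ne_zero.mpr hτ
  have hinvA : (b.A τ)⁻¹
      = V X * Matrix.diagonal (fun e => qpow (-(mu X e)) τ) * (b.Psi τ)⁻¹ := by
    refine Matrix.inv_eq_right_inv ?_
    rw [← Matrix.mul_assoc, ← Matrix.mul_assoc, b.A_mul_V, Matrix.mul_assoc (b.Psi τ),
      Matrix.diagonal_mul_diagonal]
    have : (fun e => qpow (mu X e) τ * qpow (-(mu X e)) τ) = fun _ => (1 : ℂ) := by
      funext e; rw [← qpow_add, add_neg_cancel, qpow_zero]
    rw [this, Matrix.diagonal_one, Matrix.mul_one, Matrix.mul_nonsing_inv _ hψ]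
  rw [dual, hinvA, Matrix.mul_apply, Finset.mul_sum]
  refine Finset.sum_congr rfl fun e _ => ?_
  rw [Matrix.mul_diagonal]
  have : qpow (-1) τ * qpow (1 - mu X e) τ = qpow (-(mu X e)) τ := by
    rw [← qpow_add]; ring_nf
  linear_combination (del τ * V X x e * (b.Psi τ)⁻¹ e i) * this

/-- The dual basis consists of cusp forms. -/
lemma dual_mem (i : X) : b.dual i ∈ VCusp X (12 - b.wt i) :=
  ⟨⟨fun x => b.dual_mdiff i x, fun g x => b.dual_slash i g x,
    fun x => (b.dual_isZero i x).isBoundedAtImInfty⟩, fun x => b.dual_isZero i x⟩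

lemma dual_ne_zero (i : X) : b.dual i ≠ 0 := by
  intro h
  have := b.sum_B_dual i i UpperHalfPlane.I
  rw [h, if_pos rfl] at this
  simp at this
  exact del_ne_zero _ this.symm

end FreeBasis

end FA.Dim
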