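import Fermat.Agent.Dim.VForm

/-!
# The module of vector valued forms is free over the ring of level one forms
-/

set_option autoImplicit false

open Filter Topology Complex
open UpperHalfPlane hiding I
open scoped Real Manifold MatrixGroups ModularForm

namespace FA.Dim

variable {X : Type} [MulAction SL(2, ℤ) X]

/-- Multiplication of vectors by a function, linearly. -/
def vmulLin (p : ℍ → ℂ) : (X → ℍ → ℂ) →ₗ[ℂ] (X → ℍ → ℂ) where
  toFun := vmul p
  map_add' F G := by ext x τ; simp [mul_add]
  map_smul' c F := by ext x τ; simp [mul_left_comm]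

omit [MulAction SL(2, ℤ) X] in
@[simp] lemma vmulLin_apply (p : ℍ → ℂ) (F : X → ℍ → ℂ) : vmulLin p F = vmul p F := rfl

omit [MulAction SL(2, ℤ) X] in
lemma vmul_vmul (p q : ℍ → ℂ) (F : X → ℍ → ℂ) : vmul p (vmul q F) = vmul (p * q) F := by
  ext x τ; simp [mul_assoc]

variable (X) in
/-- `E₄ M_{k-4} + E₆ M_{k-6}`. -/
noncomputable def decomposables (k : ℤ) : Submodule ℂ (X → ℍ → ℂ) :=
  (VForm X (k - 4)).map (vmulLin e4) ⊔ (VForm X (k - 6)).map (vmulLin e6)

lemma decomposables_le (k : ℤ) : decomposables X k ≤ VForm X k := by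
  refine sup_le ?_ ?_ <;> rintro _ ⟨F, hF, rfl⟩
  · have := VForm.vmul_mem e4_mem hF
    rwa [show 4 + (k - 4) = k by ring] at this
  · have := VForm.vmul_mem e6_mem hF
    rwa [show 6 + (k - 6) = k by ring] at this

variable (X) in
/-- A complement of the decomposable forms. -/
noncomputable def primitives (k : ℤ) : Submodule ℂ (X → ℍ → ℂ) :=
  (decomposables X k).exists_isCompl.choose ⊓ VForm X k

lemma primitives_le (k : ℤ) : primitives X k ≤ VForm X k := inf_le_right

lemma decomposables_sup_primitives (k : ℤ) : decomposables X k ⊔ primitives X k = VForm X k := by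
  rw [primitives, ← sup_inf_assoc_of_le _ (decomposables_le k),
    (decomposables X k).exists_isCompl.choose_spec.sup_eq_top, top_inf_eq]

lemma decomposables_inf_primitives (k : ℤ) {F : X → ℍ → ℂ} (h1 : F ∈ decomposables X k)
    (h2 : F ∈ primitives X k) : F = 0 := by
  have h := (decomposables X k).exists_isCompl.choose_spec.inf_eq_bot
  have : F ∈ decomposables X k ⊓ (decomposables X k).exists_isCompl.choose := ⟨h1, h2.1⟩
  rwa [h, Submodule.mem_bot] at this

variable (X) in
/-- The index set of the homogeneous free generators. -/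
abbrev GenIdx : Type := (k : ℤ) × Module.Basis.ofVectorSpaceIndex ℂ (primitives X k)

variable (X) in
/-- Their weights. -/
abbrev gwt (i : GenIdx X) : ℤ := i.1

variable (X) in
/-- The generators. -/
noncomputable def gen (i : GenIdx X) : X → ℍ → ℂ :=
  (Module.Basis.ofVectorSpace ℂ (primitives X i.1) i.2 : primitives X i.1)

lemma gen_mem_primitives (i : GenIdx X) : gen X i ∈ primitives X i.1 := Subtype.prop _

lemma gen_mem (i : GenIdx X) : gen X i ∈ VForm X i.1 := primitives_le _ (gen_mem_primitives i)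

lemma gen_ne_zero (i : GenIdx X) : gen X i ≠ 0 := fun h =>
  (Module.Basis.ofVectorSpace ℂ (primitives X i.1)).ne_zero i.2 (Subtype.ext h)

/-- Independence of the generators of one weight. -/
lemma gen_indep_fiber (w : ℤ) {T : Finset (GenIdx X)} (hT : ∀ i ∈ T, i.1 = w) (c : GenIdx X → ℂ)
    (h : ∑ i ∈ T, c i • gen X i = 0) : ∀ i ∈ T, c i = 0 := by
  classical
  have li : LinearIndependent ℂ
      (fun j : Module.Basis.ofVectorSpaceIndex ℂ (primitives X w) => gen X ⟨w, j⟩) :=
    (Module.Basis.ofVectorSpace ℂ (primitives X w)).linearIndependent.map'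
      (primitives X w).subtype (Submodule.ker_subtype _)
  intro i hi
  obtain ⟨k, j⟩ := i
  obtain rfl : k = w := hT _ hi
  let mk : Module.Basis.ofVectorSpaceIndex ℂ (primitives X k) → GenIdx X := fun j => ⟨k, j⟩
  have hmk : Function.Injective mk := fun a b hab => by simpa [mk] using hab
  refine linearIndependent_iff'.mp li
    (T.preimage mk hmk.injOn) (fun j => c (mk j)) ?_ j
    (Finset.mem_preimage.mpr (by exact hi))
  show ∑ j ∈ T.preimage mk hmk.injOn, c (mk j) • gen X (mk j) = 0
  rw [Finset.sum_preimage mk T hmk.injOn (fun i => c i • gen X i)]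
  · exact h
  · intro i hi' hr
    exact absurd ⟨hT i hi' ▸ i.2, by obtain ⟨a, b⟩ := i; obtain rfl : a = k := hT _ hi'; rfl⟩ hr

variable (X) in
/-- The combinations of the generators in weight `k`. -/
def combos (k : ℤ) : Submodule ℂ (X → ℍ → ℂ) :=
  Submodule.span ℂ {F | ∃ (i : GenIdx X) (p : ℍ → ℂ), p ∈ L1 (k - i.1) ∧ F = vmul p (gen X i)}

lemma combos_le (k : ℤ) : combos X k ≤ VForm X k := by
  refine Submodule.span_le.mpr ?_
  rintro _ ⟨i, p, hp, rfl⟩
  have := VForm.vmul_mem hp (gen_mem i)
  rwa [sub_add_cancel] at this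

lemma vmul_mem_combos {a k : ℤ} {q : ℍ → ℂ} (hq : q ∈ L1 a) {F : X → ℍ → ℂ}
    (hF : F ∈ combos X k) : vmul q F ∈ combos X (a + k) := by
  change vmulLin q F ∈ _
  refine Submodule.span_induction (p := fun F _ => vmulLin q F ∈ combos X (a + k)) ?_ ?_ ?_ ?_ hF
  · rintro _ ⟨i, p, hp, rfl⟩
    refine Submodule.subset_span ⟨i, q * p, ?_, by simp [vmul_vmul]⟩
    have := L1.mul hq hp
    rwa [show a + (k - i.1) = a + k - i.1 by ring] at this
  · simp
  · intro F G _ _ h1 h2; rw [map_add]; exact add_mem h1 h2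
  · intro c F _ h; rw [map_smul]; exact Submodule.smul_mem _ c h

variable [Fintype X] [MulAction.IsPretransitive SL(2, ℤ) X] [Nonempty X]

lemma gwt_nonneg (i : GenIdx X) : 0 ≤ i.1 := by
  by_contra h
  exact gen_ne_zero i (VForm.eq_zero_of_neg (not_le.mp h) (gen_mem i))

/-- The generators span. -/
theorem gen_span (k : ℤ) : VForm X k ≤ combos X k := by
  suffices H : ∀ (n : ℕ) (k : ℤ), k < n → VForm X k ≤ combos X k from H (k.toNat + 1) k (by omega)
  intro n
  induction n with
  | zero =>
    intro k hk F hF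
    rw [VForm.eq_zero_of_neg (by simpa using hk) hF]
    exact zero_mem _
  | succ n ih =>
    intro k hk
    rw [← decomposables_sup_primitives]
    refine sup_le (sup_le ?_ ?_) ?_
    · rintro _ ⟨F, hF, rfl⟩
      have := vmul_mem_combos e4_mem (ih (k - 4) (by omega) hF)
      rwa [show 4 + (k - 4) = k by ring] at this
    · rintro _ ⟨F, hF, rfl⟩
      have := vmul_mem_combos e6_mem (ih (k - 6) (by omega) hF)
      rwa [show 6 + (k - 6) = k by ring] at this
    · intro F hF
      have hb := (Module.Basis.ofVectorSpace ℂ (primitives X k)).mem_span ⟨F, hF⟩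
      have h2 := Submodule.mem_map_of_mem (f := (primitives X k).subtype) hb
      rw [Submodule.map_span] at h2
      refine Submodule.span_mono ?_ h2
      rintro _ ⟨_, ⟨j, rfl⟩, rfl⟩
      refine ⟨⟨k, j⟩, 1, by simpa using L1.one_mem, ?_⟩
      ext x τ
      simp [gen]

/-- Repeated use of `VForm.e4_dvd`. -/
lemma e4_dvd_of_pow {a b : ℤ} {H G : X → ℍ → ℂ} (J : ℕ) (hab : 4 + a = 6 * J + b)
    (hH : H ∈ VForm X a) (hG : G ∈ VForm X b) (h : vmul e4 H = vmul (e6 ^ J) G) :
    ∃ G' ∈ VForm X (b - 4), G = vmul e4 G' := by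
  induction J generalizing b G with
  | zero =>
    refine ⟨H, ?_, ?_⟩
    · rwa [show b - 4 = a by omega]
    · rw [h]; ext x τ; simp
  | succ J ih =>
    have h6 := VForm.vmul_mem e6_mem hG
    obtain ⟨G', hG', hGG⟩ := ih (b := 6 + b) (by push_cast at hab ⊢; omega) h6
      (by rw [vmul_vmul, ← pow_succ, h])
    exact VForm.e4_dvd (by ring) hG' hG hGG.symm

omit [Fintype X] [MulAction.IsPretransitive SL(2, ℤ) X] [Nonempty X] in
lemma e4_cancel {k : ℤ} {F : X → ℍ → ℂ} (hF : F ∈ VForm X k) (h : vmul e4 F = 0) : F = 0 := by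
  haveI := atImInfty_neBot
  funext x
  refine ((UpperHalfPlane.mul_eq_zero_iff e4_mem.1 (hF.1 x)).mp (congrFun h x)).resolve_left ?_
  intro h4
  have := tendsto_e4
  rw [h4] at this
  exact one_ne_zero (tendsto_nhds_unique this tendsto_const_nhds)

/-- The generators are independent over level one forms. -/
theorem gen_indep {k : ℤ} (s : Finset (GenIdx X)) (p : GenIdx X → ℍ → ℂ)
    (hp : ∀ i ∈ s, p i ∈ L1 (k - i.1)) (h : ∑ i ∈ s, vmul (p i) (gen X i) = 0) :
    ∀ i ∈ s, p i = 0 := by
  classical
  suffices H : ∀ (n : ℕ) (k : ℤ) (p : GenIdx X → ℍ → ℂ), k < n →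
      (∀ i ∈ s, p i ∈ L1 (k - i.1)) → ∑ i ∈ s, vmul (p i) (gen X i) = 0 → ∀ i ∈ s, p i = 0 from
    H (k.toNat + 1) k p (by omega) hp h
  intro n
  induction n with
  | zero =>
    intro k p hk hp _ i hi
    exact L1.eq_zero_of_neg (by have := gwt_nonneg i; push_cast at hk; omega) (hp i hi)
  | succ n ih =>
    intro k p hk hp h
    have hd : ∀ i, ∃ (c : ℂ) (r : ℍ → ℂ), i ∈ s → (r ∈ L1 (k - i.1 - 4) ∧
        p i = c • e6 ^ sixExp (k - i.1) + e4 * r ∧
        (c ≠ 0 → 6 * (sixExp (k - i.1) : ℤ) = k - i.1)) := by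
      intro i
      by_cases hi : i ∈ s
      · obtain ⟨c, r, h1, h2, h3⟩ := L1.decomp (hp i hi)
        exact ⟨c, r, fun _ => ⟨h1, h2, h3⟩⟩
      · exact ⟨0, 0, fun h => absurd h hi⟩
    choose c r hcr using hd
    let e : GenIdx X → ℕ := fun i => sixExp (k - i.1)
    let R : X → ℍ → ℂ := ∑ i ∈ s, vmul (r i) (gen X i)
    have hR : R ∈ VForm X (k - 4) := Submodule.sum_mem _ fun i hi => by
      have := VForm.vmul_mem (hcr i hi).1 (gen_mem i)
      rwa [show k - i.1 - 4 + i.1 = k - 4 by ring] at this
    have hsplit : ∀ x τ, ∑ i ∈ s, c i * e6 τ ^ e i * gen X i x τ + e4 τ * R x τ = 0 := by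
      intro x τ
      have h' := congrFun (congrFun h x) τ
      simp only [Finset.sum_apply, vmul_apply, Pi.mul_apply, Pi.zero_apply] at h'
      simp only [R, Finset.sum_apply, vmul_apply, Pi.mul_apply, Finset.mul_sum,
        ← Finset.sum_add_distrib]
      rw [← h']
      refine Finset.sum_congr rfl fun i hi => ?_
      rw [(hcr i hi).2.1]
      simp [e]; ring
    have hc : ∀ i ∈ s, c i = 0 := by
      by_contra hne
      push Not at hne
      set S := s.filter (fun i => c i ≠ 0) with hS
      have hSne : S.Nonempty := by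
        obtain ⟨i, hi, hci⟩ := hne; exact ⟨i, by simp [hS, hi, hci]⟩
      obtain ⟨i₀, hi₀, hmin⟩ := Finset.exists_min_image S e hSne
      set J := e i₀ with hJ
      have hSs : ∀ i ∈ S, i ∈ s ∧ c i ≠ 0 := fun i hi => Finset.mem_filter.mp hi
      have hwt : ∀ i ∈ S, i.1 = k - 6 * (e i : ℤ) := fun i hi => by
        have := (hcr i (hSs i hi).1).2.2 (hSs i hi).2
        simp only [e]; omega
      let G : X → ℍ → ℂ := ∑ i ∈ S, c i • vmul (e6 ^ (e i - J)) (gen X i)
      have hG : G ∈ VForm X (k - 6 * J) := Submodule.sum_mem _ fun i hi => by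
        refine Submodule.smul_mem _ _ ?_
        have := VForm.vmul_mem (L1.pow e6_mem (e i - J)) (gen_mem i)
        rwa [show ((e i - J : ℕ) : ℤ) * 6 + i.1 = k - 6 * J by
          have h1 := hwt i hi; have h2 := hmin i hi; omega] at this
      have hrel : vmul e4 (-R) = vmul (e6 ^ J) G := by
        ext x τ
        simp only [G, vmul_apply, Pi.neg_apply, Pi.mul_apply, Pi.pow_apply, Finset.sum_apply,
          Pi.smul_apply, smul_eq_mul, Finset.mul_sum]
        have hs := hsplit x τ
        rw [← Finset.sum_subset (Finset.filter_subset _ s) (fun i hi hiS => by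
          rw [show c i = 0 by
            by_contra hh; exact hiS (Finset.mem_filter.mpr ⟨hi, hh⟩)]; simp)] at hs
        rw [mul_neg, eq_comm, ← sub_eq_zero, sub_neg_eq_add, ← hs]
        congr 1
        refine Finset.sum_congr rfl fun i hi => ?_
        rw [← Nat.add_sub_cancel' (hmin i hi), Nat.add_sub_cancel_left, pow_add]
        ring
      obtain ⟨G', hG', hGG⟩ := e4_dvd_of_pow J (a := k - 4) (b := k - 6 * J) (by ring)
        (neg_mem hR) hG hrel
      have hlow : ∑ i ∈ S.filter (fun i => e i = J), c i • gen X i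
          ∈ decomposables X (k - 6 * J) := by
        have hsum : (∑ i ∈ S.filter (fun i => e i = J), c i • gen X i)
            = G - vmul e6 (∑ i ∈ S.filter (fun i => ¬ e i = J),
              c i • vmul (e6 ^ (e i - J - 1)) (gen X i)) := by
          rw [eq_sub_iff_add_eq]
          simp only [G]
          rw [← Finset.sum_filter_add_sum_filter_not S (fun i => e i = J)]
          congr 1
          · refine Finset.sum_congr rfl fun i hi => ?_
            rw [(Finset.mem_filter.mp hi).2]
            ext x τ; simp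
          · rw [← vmulLin_apply, map_sum]
            refine Finset.sum_congr rfl fun i hi => ?_
            obtain ⟨hiS, hne'⟩ := Finset.mem_filter.mp hi
            rw [map_smul, vmulLin_apply, vmul_vmul, ← pow_succ',
              show e i - J - 1 + 1 = e i - J by have := hmin i hiS; omega]
        rw [hsum]
        refine sub_mem ?_ ?_
        · rw [hGG]; exact Submodule.mem_sup_left ⟨G', hG', rfl⟩
        · refine Submodule.mem_sup_right ⟨_, ?_, rfl⟩
          refine Submodule.sum_mem _ fun i hi => Submodule.smul_mem _ _ ?_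
          obtain ⟨hiS, hne'⟩ := Finset.mem_filter.mp hi
          have := VForm.vmul_mem (L1.pow e6_mem (e i - J - 1)) (gen_mem i)
          rwa [show ((e i - J - 1 : ℕ) : ℤ) * 6 + i.1 = k - 6 * J - 6 by
            have h1 := hwt i hiS; have h2 := hmin i hiS; omega] at this
      have hT : ∀ i ∈ S.filter (fun i => e i = J), i.1 = k - 6 * (J : ℤ) := fun i hi => by
        obtain ⟨hiS, he⟩ := Finset.mem_filter.mp hi
        rw [hwt i hiS, he]
      have hprim : ∑ i ∈ S.filter (fun i => e i = J), c i • gen X i ∈ primitives X (k - 6 * J) :=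
        Submodule.sum_mem _ fun i hi => by
          have := gen_mem_primitives i
          rw [hT i hi] at this
          exact Submodule.smul_mem _ _ this
      exact (hSs i₀ hi₀).2 (gen_indep_fiber _ hT c (decomposables_inf_primitives _ hlow hprim)
        i₀ (Finset.mem_filter.mpr ⟨hi₀, rfl⟩))
    have hR0 : R = 0 := by
      refine e4_cancel hR ?_
      ext x τ
      have := hsplit x τ
      rw [Finset.sum_eq_zero (fun i hi => by simp [hc i hi]), zero_add] at this
      simpa using this
    have hr := ih (k - 4) r (by omega) (fun i hi => by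
      have := (hcr i hi).1
      rwa [show k - i.1 - 4 = k - 4 - i.1 by ring] at this) hR0
    intro i hi
    rw [(hcr i hi).2.1, hc i hi, hr i hi]
    simp

end FA.Dim
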