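import Fermat.Agent.Dim.AtInfty

/-!
# A square free basis
-/

set_option autoImplicit false

open Filter Topology Complex
open UpperHalfPlane hiding I
open scoped Real Manifold MatrixGroups ModularForm

namespace FA.Dim

variable (X : Type) [MulAction SL(2, ℤ) X] [Fintype X]

/-- A free basis, indexed by `X` itself. -/
structure FreeBasis where
  B : X → X → ℍ → ℂ
  wt : X → ℤ
  mem : ∀ i, B i ∈ VForm X (wt i)
  wt_nonneg : ∀ i, 0 ≤ wt i
  wt_even : ∀ i, Even (wt i)
  span : ∀ (k : ℤ), ∀ F ∈ VForm X k,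
    ∃ p : X → ℍ → ℂ, (∀ i, p i ∈ L1 (k - wt i)) ∧ F = ∑ i, vmul (p i) (B i)
  indep : ∀ (k : ℤ) (p : X → ℍ → ℂ), (∀ i, p i ∈ L1 (k - wt i)) →
    ∑ i, vmul (p i) (B i) = 0 → ∀ i, p i = 0
  lead_indep : LinearIndependent ℂ (fun i => lead (B i))

variable {X}

/-- The forms separate the points of `X` at some point of `ℍ`. -/
def Separating (X : Type) [MulAction SL(2, ℤ) X] : Prop :=
  ∃ τ : ℍ, ∀ v : X → ℂ, v ∈ Submodule.span ℂ
    {w : X → ℂ | ∃ (k : ℤ) (F : X → ℍ → ℂ), F ∈ VForm X k ∧ w = fun x => F x τ}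

variable [MulAction.IsPretransitive SL(2, ℤ) X] [Nonempty X]

omit [Fintype X] [MulAction.IsPretransitive SL(2, ℤ) X] [Nonempty X] in
/-- Elements of `combos` as explicit combinations. -/
lemma combos_repr {k : ℤ} {F : X → ℍ → ℂ} (hF : F ∈ combos X k) :
    ∃ (s : Finset (GenIdx X)) (p : GenIdx X → ℍ → ℂ), (∀ i, p i ∈ L1 (k - i.1)) ∧
      (∀ i ∉ s, p i = 0) ∧ F = ∑ i ∈ s, vmul (p i) (gen X i) := by
  classical
  induction hF using Submodule.span_induction with
  | mem F hF =>
    obtain ⟨i, p, hp, rfl⟩ := hF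
    refine ⟨{i}, Function.update (fun _ => 0) i p, fun j => ?_, fun j hj => ?_, by simp⟩
    · by_cases h : j = i
      · subst h; simpa using hp
      · simp [h]
    · simp at hj; simp [hj]
  | zero => exact ⟨∅, fun _ => 0, fun _ => zero_mem _, fun _ _ => rfl, by simp⟩
  | add F G _ _ hf hg =>
    obtain ⟨s, p, hp, hp0, rfl⟩ := hf
    obtain ⟨t, q, hq, hq0, rfl⟩ := hg
    refine ⟨s ∪ t, p + q, fun i => add_mem (hp i) (hq i), fun i hi => ?_, ?_⟩
    · simp only [Finset.mem_union, not_or] at hi
      simp [hp0 i hi.1, hq0 i hi.2]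
    · rw [Finset.sum_subset (f := fun i => vmul (p i) (gen X i))
          (Finset.subset_union_left (s₂ := t)) (fun i _ hi => by simp [hp0 i hi]),
        Finset.sum_subset (f := fun i => vmul (q i) (gen X i))
          (Finset.subset_union_right (s₁ := s) : t ⊆ s ∪ t) (fun i _ hi => by simp [hq0 i hi]),
        ← Finset.sum_add_distrib]
      refine Finset.sum_congr rfl fun i _ => ?_
      ext x τ; simp [add_mul]
  | smul c F _ hf =>
    obtain ⟨s, p, hp, hp0, rfl⟩ := hf
    refine ⟨s, c • p, fun i => Submodule.smul_mem _ c (hp i), fun i hi => by simp [hp0 i hi], ?_⟩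
    rw [Finset.smul_sum]
    refine Finset.sum_congr rfl fun i _ => ?_
    ext x τ; simp [mul_assoc]

omit [Nonempty X] [MulAction.IsPretransitive SL(2, ℤ) X] [Fintype X] in
lemma gwt_even (hneg : ∀ x : X, (-1 : SL(2, ℤ)) • x = x) (i : GenIdx X) : Even i.1 := by
  rcases Int.even_or_odd i.1 with h | h
  · exact h
  · exact absurd (VForm.eq_zero_of_odd hneg h (gen_mem i)) (gen_ne_zero i)

/-- The leading coefficient vectors of the generators are independent. -/
lemma lead_gen_indep (hneg : ∀ x : X, (-1 : SL(2, ℤ)) • x = x) :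
    LinearIndependent ℂ (fun i : GenIdx X => lead (gen X i)) := by
  classical
  haveI := atImInfty_neBot
  rw [linearIndependent_iff']
  intro s c hc
  set K : ℤ := 4 + ∑ i ∈ s, i.1 with hK
  have hKev : Even K := (show Even (4 : ℤ) from ⟨2, rfl⟩).add
    (Finset.sum_induction _ Even (fun _ _ => Even.add) ⟨0, rfl⟩ fun i _ => gwt_even hneg i)
  have hex : ∀ i, ∃ p : ℍ → ℂ, i ∈ s → p ∈ L1 (K - i.1) ∧ Tendsto p atImInfty (𝓝 1) := by
    intro i
    by_cases hi : i ∈ s
    · have h4 : 4 ≤ K - i.1 := by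
        have := Finset.single_le_sum (f := fun j : GenIdx X => j.1) (fun j _ => gwt_nonneg j) hi
        omega
      obtain ⟨p, hp, hp1⟩ := L1.exists_tendsto_one h4 (hKev.sub (gwt_even hneg i))
      exact ⟨p, fun _ => ⟨hp, hp1⟩⟩
    · exact ⟨0, fun h => absurd h hi⟩
  choose p hp using hex
  set H : X → ℍ → ℂ := ∑ i ∈ s, c i • vmul (p i) (gen X i) with hH
  have hmem : ∀ i ∈ s, vmul (p i) (gen X i) ∈ VForm X K := fun i hi => by
    have := VForm.vmul_mem (hp i hi).1 (gen_mem i)
    rwa [sub_add_cancel] at this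
  have hHm : H ∈ VForm X K :=
    Submodule.sum_mem _ fun i hi => Submodule.smul_mem _ _ (hmem i hi)
  have hlead : ∀ e, lead H e = 0 := by
    intro e
    rw [hH, lead_sum s c hmem e]
    have := congrFun hc e
    simp only [Finset.sum_apply, Pi.smul_apply, smul_eq_mul, Pi.zero_apply] at this
    rw [← this]
    refine Finset.sum_congr rfl fun i hi => ?_
    rw [lead_vmul (hp i hi).1 (hp i hi).2 (gen_mem i), one_mul]
  obtain ⟨t, r, hr, hr0, hrF⟩ := combos_repr (gen_span _ (div_del_of_lead_eq_zero hHm hlead))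
  let q : GenIdx X → ℍ → ℂ := fun i => (if i ∈ s then c i • p i else 0) - del * r i
  have hq : ∀ i ∈ s ∪ t, q i ∈ L1 (K - i.1) := by
    intro i _
    refine sub_mem ?_ ?_
    · split_ifs with hi
      · exact Submodule.smul_mem _ _ (hp i hi).1
      · exact zero_mem _
    · have := L1.mul del_mem (hr i)
      rwa [show 12 + (K - 12 - i.1) = K - i.1 by ring] at this
  have hsum : ∑ i ∈ s ∪ t, vmul (q i) (gen X i) = 0 := by
    ext x τ
    have h1 := congrFun (congrFun hrF x) τ
    simp only [Finset.sum_apply, vmul_apply, Pi.mul_apply] at h1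
    rw [div_eq_iff (del_ne_zero τ), Finset.sum_subset (Finset.subset_union_right (s₁ := s))
      (fun i _ hi => by simp [hr0 i hi])] at h1
    simp only [Finset.sum_apply, vmul_apply, Pi.mul_apply, Pi.zero_apply]
    simp only [q, Pi.sub_apply, sub_mul, Finset.sum_sub_distrib, Pi.mul_apply]
    rw [sub_eq_zero]
    simp only [hH, Finset.sum_apply, Pi.smul_apply, vmul_apply, Pi.mul_apply, smul_eq_mul] at h1
    calc ∑ i ∈ s ∪ t, (if i ∈ s then c i • p i else 0) τ * gen X i x τ
        = ∑ i ∈ s, c i * (p i τ * gen X i x τ) := by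
          rw [← Finset.sum_subset (Finset.subset_union_left (s₂ := t))
            (fun i _ hi => by simp [hi])]
          exact Finset.sum_congr rfl fun i hi => by simp [hi, mul_assoc]
      _ = _ := by
          rw [h1, Finset.sum_mul]
          exact Finset.sum_congr rfl fun i _ => by ring
  intro i hi
  have h0 := gen_indep (s ∪ t) q hq hsum i (Finset.mem_union_left _ hi)
  obtain ⟨L, hL, -⟩ := L1.exists_limit (hr i)
  have hlim : Tendsto (q i) atImInfty (𝓝 (c i - 0 * L)) := by
    simp only [q, hi, if_true]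
    have h1 := ((hp i hi).2.const_smul (c i)).sub ((del_zero).mul hL)
    simp only [smul_eq_mul, mul_one] at h1
    exact h1
  rw [h0, zero_mul, sub_zero] at hlim
  exact tendsto_nhds_unique hlim tendsto_const_nhds

lemma genIdx_finite (hneg : ∀ x : X, (-1 : SL(2, ℤ)) • x = x) : Finite (GenIdx X) :=
  (lead_gen_indep hneg).finite

/-- With enough forms, there is a free basis indexed by `X`. -/
theorem exists_freeBasis (hneg : ∀ x : X, (-1 : SL(2, ℤ)) • x = x) (hsep : Separating X) :
    Nonempty (FreeBasis X) := by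
  classical
  haveI := genIdx_finite (X := X) hneg
  haveI : Fintype (GenIdx X) := Fintype.ofFinite _
  have hle : Fintype.card (GenIdx X) ≤ Fintype.card X := by
    simpa using (lead_gen_indep hneg).fintype_card_le_finrank
  have rep : ∀ (k : ℤ) (F : X → ℍ → ℂ), F ∈ VForm X k → ∃ p : GenIdx X → ℍ → ℂ,
      (∀ i, p i ∈ L1 (k - i.1)) ∧ F = ∑ i, vmul (p i) (gen X i) := by
    intro k F hF
    obtain ⟨s, p, hp, hp0, rfl⟩ := combos_repr (gen_span k hF)
    exact ⟨p, hp, Finset.sum_subset (Finset.subset_univ s) fun i _ hi => by simp [hp0 i hi]⟩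
  have hge : Fintype.card X ≤ Fintype.card (GenIdx X) := by
    obtain ⟨τ, hτ⟩ := hsep
    have htop : Submodule.span ℂ (Set.range fun i : GenIdx X => fun x => gen X i x τ) = ⊤ := by
      refine eq_top_iff.mpr fun v _ => Submodule.span_le.mpr ?_ (hτ v)
      rintro _ ⟨k, F, hF, rfl⟩
      obtain ⟨p, -, rfl⟩ := rep k F hF
      have : (fun x => (∑ i, vmul (p i) (gen X i)) x τ)
          = ∑ i, p i τ • (fun x => gen X i x τ) := by
        ext x; simp [Finset.sum_apply]
      rw [SetLike.mem_coe, this]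
      exact Submodule.sum_mem _ fun i _ => Submodule.smul_mem _ _ (Submodule.subset_span ⟨i, rfl⟩)
    have := finrank_range_le_card (R := ℂ) (fun i : GenIdx X => fun x => gen X i x τ)
    rw [Set.finrank, htop] at this
    simpa using this
  let σ : X ≃ GenIdx X := Fintype.equivOfCardEq (le_antisymm hge hle)
  exact ⟨{
    B := fun i => gen X (σ i)
    wt := fun i => (σ i).1
    mem := fun i => gen_mem _
    wt_nonneg := fun i => gwt_nonneg _
    wt_even := fun i => gwt_even hneg _
    span := fun k F hF => by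
      obtain ⟨p, hp, rfl⟩ := rep k F hF
      exact ⟨fun i => p (σ i), fun i => hp _,
        (Equiv.sum_comp σ fun i => vmul (p i) (gen X i)).symm⟩
    indep := fun k p hp h i => by
      have h' : ∑ j, vmul (p (σ.symm j)) (gen X j) = 0 := by
        rw [← Equiv.sum_comp σ]; simpa using h
      have := gen_indep (k := k) Finset.univ (fun j => p (σ.symm j))
        (fun j _ => by simpa using hp (σ.symm j)) h' (σ i) (Finset.mem_univ _)
      simpa using this
    lead_indep := (lead_gen_indep hneg).comp σ σ.injective }⟩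

end FA.Dim
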