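import Fermat.Agent.Dim.Analysis

/-!
# Vector valued modular forms for a permutation representation of `SL(2,ℤ)`
-/

set_option autoImplicit false

open Filter Topology Complex Asymptotics
open UpperHalfPlane hiding I
open scoped Real Manifold Derivative MatrixGroups ModularForm

namespace FA.Dim

variable (X : Type) [MulAction SL(2, ℤ) X]

/-- Modular forms valued in the permutation module `ℂ^X`. -/
def VForm (k : ℤ) : Submodule ℂ (X → ℍ → ℂ) where
  carrier := {F | (∀ x, MDiff (F x)) ∧ (∀ (g : SL(2, ℤ)) x, F x ∣[k] g = F (g⁻¹ • x)) ∧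
    ∀ x, IsBoundedAtImInfty (F x)}
  zero_mem' := ⟨fun _ => mdifferentiable_const, fun g x => by simp,
    fun _ => zero_form_isBoundedAtImInfty⟩
  add_mem' := fun {F G} hF hG => ⟨fun x => (hF.1 x).add (hG.1 x),
    fun g x => by simp [hF.2.1 g x, hG.2.1 g x],
    fun x => (boundedAtImInftySubalgebra ℂ).add_mem (hF.2.2 x) (hG.2.2 x)⟩
  smul_mem' := fun c F hF => ⟨fun x => (hF.1 x).const_smul c,
    fun g x => by
      show (c • F x) ∣[k] g = c • F (g⁻¹ • x)
      rw [ModularForm.SL_smul_slash, hF.2.1 g x],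
    fun x => (boundedAtImInftySubalgebra ℂ).smul_mem (hF.2.2 x) c⟩

/-- The cusp forms among them. -/
def VCusp (k : ℤ) : Submodule ℂ (X → ℍ → ℂ) where
  carrier := {F | F ∈ VForm X k ∧ ∀ x, IsZeroAtImInfty (F x)}
  zero_mem' := ⟨zero_mem _, fun _ => (zeroAtImInftySubmodule ℂ).zero_mem⟩
  add_mem' := fun {F G} hF hG =>
    ⟨add_mem hF.1 hG.1, fun x => (zeroAtImInftySubmodule ℂ).add_mem (hF.2 x) (hG.2 x)⟩
  smul_mem' := fun c F hF =>
    ⟨Submodule.smul_mem _ c hF.1, fun x => (zeroAtImInftySubmodule ℂ).smul_mem c (hF.2 x)⟩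

/-- Level one forms, as functions. -/
def L1 (k : ℤ) : Submodule ℂ (ℍ → ℂ) where
  carrier := {p | MDiff p ∧ (∀ g : SL(2, ℤ), p ∣[k] g = p) ∧ IsBoundedAtImInfty p}
  zero_mem' := ⟨mdifferentiable_const, fun g => by simp, zero_form_isBoundedAtImInfty⟩
  add_mem' := fun {p q} hp hq => ⟨hp.1.add hq.1, fun g => by simp [hp.2.1 g, hq.2.1 g],
    (boundedAtImInftySubalgebra ℂ).add_mem hp.2.2 hq.2.2⟩
  smul_mem' := fun c p hp => ⟨hp.1.const_smul c,
    fun g => by rw [ModularForm.SL_smul_slash, hp.2.1 g],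
    (boundedAtImInftySubalgebra ℂ).smul_mem hp.2.2 c⟩

variable {X}

lemma mem_L1_of_modularForm {k : ℤ} (f : ModularForm 𝒮ℒ k) : (⇑f) ∈ L1 k := by
  refine ⟨f.holo', fun g => ?_, ?_⟩
  · rw [ModularForm.SL_slash]
    exact SlashInvariantFormClass.slash_action_eq f _ ⟨g, rfl⟩
  · exact ModularFormClass.bdd_at_infty f

/-- An element of `L1` as a bundled modular form. -/
def L1.toForm {k : ℤ} {p : ℍ → ℂ} (hp : p ∈ L1 k) : ModularForm 𝒮ℒ k where
  toFun := p
  slash_action_eq' g hg := by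
    obtain ⟨γ, rfl⟩ := hg
    exact hp.2.1 γ
  holo' := hp.1
  bdd_at_cusps' {c} hc := by
    rw [OnePoint.isBoundedAt_iff_forall_SL2Z hc]
    intro γ _
    rw [hp.2.1 γ]
    exact hp.2.2

lemma L1.eq_zero_of_neg {k : ℤ} (hk : k < 0) {p : ℍ → ℂ} (hp : p ∈ L1 k) : p = 0 :=
  ModularFormClass.levelOne_neg_weight_eq_zero hk (L1.toForm hp)

lemma L1.eq_zero_of_odd {k : ℤ} (hk : Odd k) {p : ℍ → ℂ} (hp : p ∈ L1 k) : p = 0 :=
  congrArg DFunLike.coe (ModularForm.levelOne_odd_weight_eq_zero hk (L1.toForm hp))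

lemma L1.eq_const_of_zero {p : ℍ → ℂ} (hp : p ∈ L1 0) : ∃ c : ℂ, p = fun _ => c := by
  obtain ⟨c, hc⟩ := ModularFormClass.levelOne_weight_zero_const (L1.toForm hp)
  exact ⟨c, hc⟩

lemma L1.eq_zero_of_two {p : ℍ → ℂ} (hp : p ∈ L1 2) : p = 0 :=
  congrArg DFunLike.coe
    (rank_zero_iff_forall_zero.mp ModularForm.levelOne_weight_two_rank_zero (L1.toForm hp))

lemma L1.mul {a b : ℤ} {p q : ℍ → ℂ} (hp : p ∈ L1 a) (hq : q ∈ L1 b) : p * q ∈ L1 (a + b) :=
  ⟨hp.1.mul hq.1, fun g => by rw [ModularForm.mul_slash_SL2, hp.2.1 g, hq.2.1 g],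
    (boundedAtImInftySubalgebra ℂ).mul_mem hp.2.2 hq.2.2⟩

lemma L1.one_mem : (1 : ℍ → ℂ) ∈ L1 0 :=
  ⟨mdifferentiable_const, fun g => ModularForm.is_invariant_one g,
    (boundedAtImInftySubalgebra ℂ).one_mem⟩

lemma L1.pow {a : ℤ} {p : ℍ → ℂ} (hp : p ∈ L1 a) (n : ℕ) : p ^ n ∈ L1 (n * a) := by
  induction n with
  | zero => simpa using L1.one_mem
  | succ n ih => rw [pow_succ, Nat.cast_succ, add_mul, one_mul]; exact L1.mul ih hp

/-- `E₄` as a function. -/
noncomputable abbrev e4 : ℍ → ℂ := ⇑(ModularForm.E₄)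
/-- `E₆` as a function. -/
noncomputable abbrev e6 : ℍ → ℂ := ⇑(ModularForm.E₆)
/-- `Δ` as a function. -/
noncomputable abbrev del : ℍ → ℂ := ModularForm.discriminant

lemma e4_mem : e4 ∈ L1 4 := mem_L1_of_modularForm _
lemma e6_mem : e6 ∈ L1 6 := mem_L1_of_modularForm _

lemma del_slash (g : SL(2, ℤ)) : del ∣[(12 : ℤ)] g = del := by
  have := SlashInvariantFormClass.slash_action_eq CuspForm.discriminant
    (Matrix.SpecialLinearGroup.mapGL ℝ g) ⟨g, rfl⟩
  rw [CuspForm.coe_discriminant] at this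
  rw [ModularForm.SL_slash]
  exact this

lemma del_mdiff : MDiff del := by
  have := CuspForm.discriminant.holo'
  exact this

lemma del_zero : IsZeroAtImInfty del := ModularForm.discriminant_isZeroAtImInfty

lemma del_mem : del ∈ L1 12 := ⟨del_mdiff, del_slash, del_zero.isBoundedAtImInfty⟩

lemma del_ne_zero (τ : ℍ) : del τ ≠ 0 := ModularForm.discriminant_ne_zero τ

lemma del_eq (τ : ℍ) : 1728 * del τ = e4 τ ^ 3 - e6 τ ^ 2 := by
  rw [del, ModularForm.discriminant_eq_E₄_cube_sub_E₆_sq]; ring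

lemma vadd_eq_T_smul (τ : ℍ) : (1 : ℝ) +ᵥ τ = ModularGroup.T • τ :=
  (modular_T_smul τ).symm

lemma slash_T_apply (f : ℍ → ℂ) (k : ℤ) (τ : ℍ) :
    (f ∣[k] ModularGroup.T) τ = f ((1 : ℝ) +ᵥ τ) := by
  rw [ModularForm.SL_slash_apply, modular_T_smul]
  simp [denom, ModularGroup.coe_T]

lemma L1.periodic {k : ℤ} {p : ℍ → ℂ} (hp : p ∈ L1 k) (τ : ℍ) : p ((1 : ℝ) +ᵥ τ) = p τ := by
  have := congrFun (hp.2.1 ModularGroup.T) τ
  rwa [slash_T_apply] at this

lemma tendsto_norm_mul_exp_of_bounded {f : ℍ → ℂ} (hb : IsBoundedAtImInfty f) :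
    Tendsto (fun τ => ‖f τ‖ * Real.exp (-(2 * π * τ.im))) atImInfty (𝓝 0) := by
  obtain ⟨C, A, hC⟩ := isBoundedAtImInfty_iff.mp hb
  have h1 : Tendsto (fun τ : ℍ => max C 0 * Real.exp (-(2 * π * τ.im))) atImInfty (𝓝 0) := by
    have := (tendsto_qpow_of_pos one_pos).norm.const_mul (max C 0)
    simpa [norm_qpow] using this
  refine squeeze_zero' (.of_forall fun τ => by positivity) ?_ h1
  filter_upwards [(atImInfty_mem _).mpr ⟨A, fun z hz => hz⟩] with τ hτ
  exact mul_le_mul_of_nonneg_right ((hC τ hτ).trans (le_max_left _ _)) (Real.exp_nonneg _)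

lemma L1.exists_limit {k : ℤ} {p : ℍ → ℂ} (hp : p ∈ L1 k) :
    ∃ L : ℂ, Tendsto p atImInfty (𝓝 L) ∧
      (fun τ => p τ - L) =O[atImInfty] fun τ : ℍ => Real.exp (-(2 * π * τ.im)) :=
  exists_limit_of_periodic hp.1 (L1.periodic hp) (tendsto_norm_mul_exp_of_bounded hp.2.2)

lemma tendsto_E {k : ℕ} (hk : 3 ≤ k) (hk2 : Even k) :
    Tendsto (⇑(ModularForm.E hk)) atImInfty (𝓝 1) := by
  obtain ⟨L, hL, -⟩ := L1.exists_limit (mem_L1_of_modularForm (ModularForm.E hk))
  haveI := atImInfty_neBot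
  have h0 := EisensteinSeries.E_qExpansion_coeff_zero hk hk2
  have hcusp : ((qExpansion 1 (ModularForm.E hk)).coeff 0) = L := by
    rw [UpperHalfPlane.qExpansion_coeff_zero one_pos
      (ModularFormClass.analyticAt_cuspFunction_zero _ one_pos one_mem_strictPeriods_SL)
      (SlashInvariantFormClass.periodic_comp_ofComplex (ModularForm.E hk) one_mem_strictPeriods_SL)]
    exact hL.limUnder_eq
  rwa [← h0, hcusp]

lemma tendsto_e4 : Tendsto e4 atImInfty (𝓝 1) := tendsto_E _ ⟨2, rfl⟩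
lemma tendsto_e6 : Tendsto e6 atImInfty (𝓝 1) := tendsto_E _ ⟨3, rfl⟩

/-- A level one form vanishing at `∞` is divisible by `Δ`. -/
lemma L1.div_del {k : ℤ} {p : ℍ → ℂ} (hp : p ∈ L1 k) (h0 : Tendsto p atImInfty (𝓝 0)) :
    (fun τ => p τ / del τ) ∈ L1 (k - 12) := by
  refine ⟨hp.1.div del_mdiff del_ne_zero, fun g => ?_, ?_⟩
  · have := ModularForm.div_slash_SL2 k 12 g p del
    rw [hp.2.1 g, del_slash g] at this
    exact this
  · obtain ⟨L, hL, hO⟩ := L1.exists_limit hp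
    haveI := atImInfty_neBot
    obtain rfl := tendsto_nhds_unique hL h0
    exact isBoundedAtImInfty_div_discriminant (by simpa using hO)

lemma exists_pow_comb {m : ℤ} (hm : 4 ≤ m) (hev : Even m) :
    ∃ a b : ℕ, 4 * (a : ℤ) + 6 * b = m := by
  obtain ⟨r, rfl⟩ := hev
  rcases Int.even_or_odd r with ⟨s, rfl⟩ | ⟨s, rfl⟩
  · exact ⟨s.toNat, 0, by omega⟩
  · exact ⟨(s - 1).toNat, 1, by omega⟩

lemma L1.exists_tendsto_one {m : ℤ} (hm : 4 ≤ m) (hev : Even m) :
    ∃ p ∈ L1 m, Tendsto p atImInfty (𝓝 1) := by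
  obtain ⟨a, b, hab⟩ := exists_pow_comb hm hev
  refine ⟨e4 ^ a * e6 ^ b, ?_, ?_⟩
  · have := L1.mul (L1.pow e4_mem a) (L1.pow e6_mem b)
    rwa [show (a : ℤ) * 4 + b * 6 = m by omega] at this
  · have := (tendsto_e4.pow a).mul (tendsto_e6.pow b)
    simp only [one_pow, mul_one] at this
    exact this

/-- The exponent of the pure power of `E₆` in weight `m`. -/
def sixExp (m : ℤ) : ℕ := (m / 6).toNat

/-- Splitting a level one form modulo `E₄`. -/
lemma L1.decomp {m : ℤ} {p : ℍ → ℂ} (hp : p ∈ L1 m) :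
    ∃ (c : ℂ) (r : ℍ → ℂ), r ∈ L1 (m - 4) ∧ p = c • e6 ^ sixExp m + e4 * r ∧
      (c ≠ 0 → 6 * (sixExp m : ℤ) = m) := by
  suffices H : ∀ (n : ℕ) (m : ℤ) (p : ℍ → ℂ), m < n → p ∈ L1 m →
      ∃ (c : ℂ) (r : ℍ → ℂ), r ∈ L1 (m - 4) ∧ p = c • e6 ^ sixExp m + e4 * r ∧
      (c ≠ 0 → 6 * (sixExp m : ℤ) = m) from H (m.toNat + 1) m p (by omega) hp
  intro n
  induction n with
  | zero =>
    intro m p hm hp
    exact ⟨0, 0, zero_mem _, by simp [L1.eq_zero_of_neg (by simpa using hm) hp], by simp⟩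
  | succ n ih =>
    intro m p hm hp
    have hz : p = 0 → ∃ (c : ℂ) (r : ℍ → ℂ), r ∈ L1 (m - 4) ∧
        p = c • e6 ^ sixExp m + e4 * r ∧ (c ≠ 0 → 6 * (sixExp m : ℤ) = m) :=
      fun h => ⟨0, 0, zero_mem _, by simp [h], by simp⟩
    rcases Int.even_or_odd m with hev | hodd
    swap
    · exact hz (L1.eq_zero_of_odd hodd hp)
    rcases lt_or_ge m 4 with h4 | h4
    · obtain ⟨r, rfl⟩ := hev
      rcases show r + r < 0 ∨ r = 0 ∨ r = 1 by omega with h | rfl | rfl
      · exact hz (L1.eq_zero_of_neg h hp)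
      · obtain ⟨c, rfl⟩ := L1.eq_const_of_zero hp
        refine ⟨c, 0, zero_mem _, ?_, fun _ => by simp [sixExp]⟩
        ext τ; simp [sixExp]
      · exact hz (L1.eq_zero_of_two hp)
    -- `E₄ ^ a * E₆ ^ b` of weight `m`, with `a = 0` if `6 ∣ m`
    obtain ⟨a, b, hab, ha⟩ : ∃ a b : ℕ, 4 * (a : ℤ) + 6 * b = m ∧ (a = 0 → b = sixExp m) := by
      obtain ⟨a, b, hab⟩ := exists_pow_comb h4 hev
      exact ⟨a, b, hab, fun h => by subst h; unfold sixExp; omega⟩
    obtain ⟨L, hL, -⟩ := L1.exists_limit hp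
    set mon : ℍ → ℂ := e4 ^ a * e6 ^ b with hmon_def
    have hmon : mon ∈ L1 m := by
      have := L1.mul (L1.pow e4_mem a) (L1.pow e6_mem b)
      rwa [show (a : ℤ) * 4 + b * 6 = m by omega] at this
    have hmon1 : Tendsto mon atImInfty (𝓝 1) := by
      have := (tendsto_e4.pow a).mul (tendsto_e6.pow b)
      simp only [one_pow, mul_one] at this
      exact this
    have h0 : Tendsto (p - L • mon) atImInfty (𝓝 0) := by
      have := hL.sub (hmon1.const_smul L)
      simp only [smul_eq_mul, mul_one, sub_self] at this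
      exact this
    obtain ⟨c', r', hr', hq, hc'⟩ :=
      ih (m - 12) _ (by omega) (L1.div_del (sub_mem hp (Submodule.smul_mem _ L hmon)) h0)
    have hpe : ∀ τ, p τ = L * mon τ + del τ * (c' * e6 τ ^ sixExp (m - 12) + e4 τ * r' τ) := by
      intro τ
      have := congrFun hq τ
      simp only [Pi.sub_apply, Pi.smul_apply, smul_eq_mul, Pi.add_apply, Pi.mul_apply,
        Pi.pow_apply] at this
      rw [div_eq_iff (del_ne_zero τ)] at this
      linear_combination this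
    -- coefficient of the pure power, and the remainder
    let c1 : ℂ := if a = 0 then L else 0
    let r1 : ℍ → ℂ := if a = 0 then 0 else L • (e4 ^ (a - 1) * e6 ^ b)
    have hr1 : r1 ∈ L1 (m - 4) := by
      simp only [r1]
      split_ifs with h
      · exact zero_mem _
      · have := L1.mul (L1.pow e4_mem (a - 1)) (L1.pow e6_mem b)
        rw [show ((a - 1 : ℕ) : ℤ) * 4 + b * 6 = m - 4 by omega] at this
        exact Submodule.smul_mem _ L this
    have h1 : ∀ τ, L * mon τ = c1 * e6 τ ^ sixExp m + e4 τ * r1 τ := by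
      intro τ
      simp only [c1, r1, hmon_def]
      split_ifs with h
      · subst h; simp [ha rfl]
      · obtain ⟨a', rfl⟩ := Nat.exists_eq_succ_of_ne_zero h
        simp only [Nat.succ_eq_add_one, add_tsub_cancel_right, Pi.smul_apply, Pi.mul_apply,
          Pi.pow_apply, smul_eq_mul]
        ring
    have h6 : 6 * (sixExp m : ℤ) ≠ m → c1 = 0 := by
      intro h
      simp only [c1]
      rw [if_neg]
      intro h0
      have := ha h0
      omega
    refine ⟨c1 - c' / 1728,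
      r1 + (1 / 1728 : ℂ) • (e4 * e4 * (c' • e6 ^ sixExp (m - 12) + e4 * r') - e6 * e6 * r'),
      add_mem hr1 (Submodule.smul_mem _ _ (sub_mem ?_ ?_)), ?_, ?_⟩
    · rw [show m - 4 = (4 + 4) + (m - 12) by ring]
      refine L1.mul (L1.mul e4_mem e4_mem) (add_mem ?_ ?_)
      · by_cases hc : c' = 0
        · simp [hc]
        · refine Submodule.smul_mem _ _ ?_
          have := L1.pow e6_mem (sixExp (m - 12))
          rwa [show (sixExp (m - 12) : ℤ) * 6 = m - 12 by linarith [hc' hc]] at this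
      · have := L1.mul e4_mem hr'
        rwa [show 4 + (m - 12 - 4) = m - 12 by ring] at this
    · rw [show m - 4 = (6 + 6) + (m - 12 - 4) by ring]
      exact L1.mul (L1.mul e6_mem e6_mem) hr'
    · ext τ
      have hd := del_eq τ
      simp only [Pi.add_apply, Pi.smul_apply, Pi.mul_apply, Pi.pow_apply, Pi.sub_apply, smul_eq_mul]
      by_cases hc : c' = 0
      · subst hc
        rw [hpe τ, h1 τ]
        linear_combination (e4 τ * r' τ / 1728) * hd
      · have hexp : sixExp m = sixExp (m - 12) + 2 := by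
          have := hc' hc
          unfold sixExp at this ⊢
          omega
        rw [hpe τ, h1 τ, hexp, pow_add]
        linear_combination ((c' * e6 τ ^ sixExp (m - 12) + e4 τ * r' τ) / 1728) * hd
    · intro hne
      by_contra h
      apply hne
      have hc0 : c' = 0 := by
        by_contra hc
        have := hc' hc
        unfold sixExp at this h
        omega
      rw [h6 h, hc0]; simp

/-! ### Operations on vector valued forms -/

/-- Multiply a vector of functions by a function. -/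
def vmul (p : ℍ → ℂ) (F : X → ℍ → ℂ) : X → ℍ → ℂ := fun x => p * F x

omit [MulAction SL(2, ℤ) X] in
@[simp] lemma vmul_apply (p : ℍ → ℂ) (F : X → ℍ → ℂ) (x : X) : vmul p F x = p * F x := rfl

omit [MulAction SL(2, ℤ) X] in
@[simp] lemma vmul_zero (p : ℍ → ℂ) : vmul p (0 : X → ℍ → ℂ) = 0 := by ext x; simp

omit [MulAction SL(2, ℤ) X] in
@[simp] lemma zero_vmul (F : X → ℍ → ℂ) : vmul (0 : ℍ → ℂ) F = 0 := by ext x; simp

lemma VForm.vmul_mem {a b : ℤ} {p : ℍ → ℂ} {F : X → ℍ → ℂ} (hp : p ∈ L1 a)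
    (hF : F ∈ VForm X b) : vmul p F ∈ VForm X (a + b) :=
  ⟨fun x => hp.1.mul (hF.1 x),
    fun g x => by rw [vmul_apply, ModularForm.mul_slash_SL2, hp.2.1 g, hF.2.1 g x]; rfl,
    fun x => (boundedAtImInftySubalgebra ℂ).mul_mem hp.2.2 (hF.2.2 x)⟩

lemma VCusp.vmul_mem {a b : ℤ} {p : ℍ → ℂ} {F : X → ℍ → ℂ} (hp : p ∈ L1 a)
    (hF : F ∈ VCusp X b) : vmul p F ∈ VCusp X (a + b) :=
  ⟨VForm.vmul_mem hp hF.1, fun x => isZeroAtImInfty_mul hp.2.2 (hF.2 x)⟩

lemma VForm.periodic {k : ℤ} {F : X → ℍ → ℂ} (hF : F ∈ VForm X k) (x : X) (τ : ℍ) :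
    F x ((1 : ℝ) +ᵥ τ) = F (ModularGroup.T⁻¹ • x) τ := by
  rw [← hF.2.1 ModularGroup.T x, slash_T_apply]

lemma neg_one_slash (f : ℍ → ℂ) {k : ℤ} (τ : ℍ) :
    (f ∣[k] (-1 : SL(2, ℤ))) τ = (-1) ^ (-k) * f τ := by
  rw [ModularForm.SL_slash_apply]
  have : ((-1 : SL(2, ℤ)) • τ) = τ := by simp
  rw [this]
  simp [denom, mul_comm]

lemma VForm.eq_zero_of_odd (hneg : ∀ x : X, (-1 : SL(2, ℤ)) • x = x) {k : ℤ} (hk : Odd k)
    {F : X → ℍ → ℂ} (hF : F ∈ VForm X k) : F = 0 := by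
  ext x τ
  have h := congrFun (hF.2.1 (-1) x) τ
  have e : (-1 : SL(2, ℤ))⁻¹ • x = x := inv_smul_eq_iff.mpr (hneg x).symm
  rw [neg_one_slash, e, Odd.neg_one_zpow hk.neg] at h
  simp only [Pi.zero_apply]
  linear_combination (-(1 : ℂ) / 2) * h

section Finite

variable [Fintype X]

/-- The pairing of two vector valued forms. -/
def vdot (F G : X → ℍ → ℂ) : ℍ → ℂ := ∑ x, F x * G x

lemma VForm.vdot_mem {a b : ℤ} {F G : X → ℍ → ℂ} (hF : F ∈ VForm X a) (hG : G ∈ VForm X b) :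
    vdot F G ∈ L1 (a + b) := by
  refine ⟨MDifferentiable.sum fun x _ => (hF.1 x).mul (hG.1 x), fun g => ?_,
    (boundedAtImInftySubalgebra ℂ).sum_mem
      fun x _ => (boundedAtImInftySubalgebra ℂ).mul_mem (hF.2.2 x) (hG.2.2 x)⟩
  rw [vdot, SlashAction.sum_slash]
  simp only [ModularForm.mul_slash_SL2, hF.2.1, hG.2.1]
  exact Equiv.sum_comp (MulAction.toPerm g⁻¹) (fun x => F x * G x)

lemma VCusp.vdot_tendsto {a b : ℤ} {F G : X → ℍ → ℂ} (hF : F ∈ VForm X a) (hG : G ∈ VCusp X b) :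
    IsZeroAtImInfty (vdot F G) :=
  (zeroAtImInftySubmodule ℂ).sum_mem fun x _ => isZeroAtImInfty_mul (hF.2.2 x) (hG.2 x)

variable [MulAction.IsPretransitive SL(2, ℤ) X]

lemma VForm.eq_zero_of_component {k : ℤ} {F : X → ℍ → ℂ} (hF : F ∈ VForm X k) {x : X}
    (hx : F x = 0) : F = 0 := by
  funext y
  obtain ⟨g, rfl⟩ := MulAction.exists_smul_eq SL(2, ℤ) x y
  have := hF.2.1 g⁻¹ x
  rw [hx, SlashAction.zero_slash, inv_inv] at this
  exact this.symm

lemma VForm.eq_zero_of_neg [Nonempty X] {k : ℤ} (hk : k < 0) {F : X → ℍ → ℂ}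
    (hF : F ∈ VForm X k) : F = 0 := by
  have hP : (∏ x, F x) ∈ L1 (k * Fintype.card X) := by
    refine ⟨MDifferentiable.prod fun x _ => hF.1 x, fun g => ?_,
      (boundedAtImInftySubalgebra ℂ).prod_mem fun x _ => hF.2.2 x⟩
    rw [ModularForm.SL_slash, ← Finset.card_univ, ModularForm.prod_slash]
    simp only [← ModularForm.SL_slash, hF.2.1]
    rw [show |((Matrix.SpecialLinearGroup.toGL ((Matrix.SpecialLinearGroup.map (Int.castRingHom ℝ)) g)).det).val| = 1 by simp, one_zpow, one_smul]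
    exact Equiv.prod_comp (MulAction.toPerm g⁻¹) (fun x => F x)
  have h0 := L1.eq_zero_of_neg (mul_neg_of_neg_of_pos hk (by exact_mod_cast Fintype.card_pos)) hP
  obtain ⟨x, -, hx⟩ := (UpperHalfPlane.prod_eq_zero_iff fun x _ => hF.1 x).mp h0
  exact VForm.eq_zero_of_component hF hx

end Finite

/-- `E₄ H = E₆ G` forces `E₄ ∣ G`. -/
lemma VForm.e4_dvd {a b : ℤ} {H G : X → ℍ → ℂ} (hab : 4 + a = 6 + b) (hH : H ∈ VForm X a)
    (hG : G ∈ VForm X b) (h : vmul e4 H = vmul e6 G) :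
    ∃ G' ∈ VForm X (b - 4), G = vmul e4 G' := by
  have hpt : ∀ x τ, e4 τ * H x τ = e6 τ * G x τ := fun x τ => congrFun (congrFun h x) τ
  set P : X → ℍ → ℂ := (1 / 1728 : ℂ) • (vmul (e4 * e4) G - vmul e6 H) with hP
  have hPm : P ∈ VForm X (8 + b) := by
    refine Submodule.smul_mem _ _ (sub_mem ?_ ?_)
    · have := VForm.vmul_mem (L1.mul e4_mem e4_mem) hG
      exact this
    · have := VForm.vmul_mem e6_mem hH
      rwa [show 6 + a = 8 + b by omega] at this
  have hkey : ∀ x τ, e4 τ * P x τ = del τ * G x τ := by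
    intro x τ
    have hd := del_eq τ
    simp only [hP, Pi.smul_apply, Pi.sub_apply, vmul_apply, Pi.mul_apply, smul_eq_mul]
    linear_combination (-(e6 τ) / 1728) * hpt x τ - (G x τ / 1728) * hd
  refine ⟨fun x τ => P x τ / del τ, ⟨fun x => (hPm.1 x).div del_mdiff del_ne_zero,
    fun g x => ?_, fun x => ?_⟩, ?_⟩
  · have := ModularForm.div_slash_SL2 (8 + b) 12 g (P x) del
    rw [hPm.2.1 g x, del_slash g, show 8 + b - 12 = b - 4 by ring] at this
    exact this
  · obtain ⟨C, A, hC⟩ := isBoundedAtImInfty_iff.mp (hG.2.2 x)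
    obtain ⟨B, hB⟩ := (atImInfty_mem _).mp
      (tendsto_e4.eventually (Metric.ball_mem_nhds (1 : ℂ) (by norm_num : (0 : ℝ) < 1 / 2)))
    refine isBoundedAtImInfty_iff.mpr ⟨2 * C, max A B, fun τ hτ => ?_⟩
    have h1 : dist (e4 τ) 1 < 1 / 2 := hB τ ((le_max_right _ _).trans hτ)
    have h2 : (1 : ℝ) / 2 ≤ ‖e4 τ‖ := by
      rw [Complex.dist_eq] at h1
      have := norm_sub_norm_le (1 : ℂ) (e4 τ)
      rw [norm_one, norm_sub_rev] at this
      linarith
    have h3 := hC τ ((le_max_left _ _).trans hτ)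
    have h4 : P x τ / del τ * e4 τ = G x τ := by
      rw [div_mul_eq_mul_div, mul_comm, hkey x τ]
      field_simp [del_ne_zero τ]
    have h5 : ‖P x τ / del τ‖ * ‖e4 τ‖ = ‖G x τ‖ := by rw [← norm_mul, h4]
    nlinarith [norm_nonneg (P x τ / del τ)]
  · funext x τ
    show G x τ = e4 τ * (P x τ / del τ)
    rw [← mul_div_assoc, hkey x τ, mul_comm, mul_div_assoc, div_self (del_ne_zero τ), mul_one]

/-- The Serre derivative. -/
lemma VForm.theta_mem {k : ℤ} {F : X → ℍ → ℂ} (hF : F ∈ VForm X k) :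
    (fun x => Derivative.serreDerivative k (F x)) ∈ VForm X (k + 2) := by
  refine ⟨fun x => Derivative.serreDerivative_mdifferentiable _ (hF.1 x), fun g x => ?_,
    fun x => ?_⟩
  · rw [Derivative.serreDerivative_slash_equivariant (hF.1 x), hF.2.1 g x]
  · have h1 : IsBoundedAtImInfty
        (fun τ => (k : ℂ) * 12⁻¹ * EisensteinSeries.E2 τ * F x τ) :=
      (boundedAtImInftySubalgebra ℂ).mul_mem
        ((boundedAtImInftySubalgebra ℂ).mul_mem
          (Filter.const_boundedAtFilter atImInfty ((k : ℂ) * 12⁻¹))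
          EisensteinSeries.isBoundedAtImInfty_E2) (hF.2.2 x)
    exact (boundedAtImInftySubalgebra ℂ).sub_mem (isBoundedAtImInfty_D (hF.1 x) (hF.2.2 x)) h1

end FA.Dim
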